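/-
`X a b τ = (2πi)⁻² ℘_τ((aτ+b)/p)` for residues `a, b` mod `p`.
-/
import Fermat.Agent.EllParam.Expansion
import Fermat.Agent.EllParam.Uniform
import Fermat.Agent.ModPoly.FunRing

set_option autoImplicit false

noncomputable section

open Complex Filter
open UpperHalfPlane hiding I
open WeierstrassCurve.Affine (Point)
open scoped Real Topology MatrixGroups Manifold

namespace FLTAgent.Mazur

open FLTAgent.EllParam FLTAgent.ModPoly

/-- The Weierstrass curve `y² = x³ - g₂x/4 - g₃/4` of `τℤ+ℤ`. -/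
def latticeCurve (τ : ℍ) : WeierstrassCurve ℂ :=
  ⟨0, 0, 0, -(stdPair τ).g₂ / 4, -(stdPair τ).g₃ / 4⟩

theorem latticeCurve_uniformises (τ : ℍ) : Uniformises (stdPair τ) (latticeCurve τ).toAffine := by
  refine ⟨?_, ?_, ?_⟩
  · show (latticeCurve τ).Δ ≠ 0
    have hd := ModularForm.discriminant_eq_E₄_cube_sub_E₆_sq τ
    have hd0 := ModularForm.discriminant_ne_zero τ
    have hπ : (π : ℂ) ≠ 0 := by exact_mod_cast Real.pi_ne_zero
    have he : (latticeCurve τ).Δ = (2 * (π : ℂ)) ^ 12 * ModularForm.discriminant τ := by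
      simp only [latticeCurve, WeierstrassCurve.Δ, WeierstrassCurve.b₂, WeierstrassCurve.b₄,
        WeierstrassCurve.b₆, WeierstrassCurve.b₈, stdPair_g₂, stdPair_g₃, hd]
      ring
    rw [he]
    exact mul_ne_zero (pow_ne_zero _ (mul_ne_zero two_ne_zero hπ)) hd0
  · show _ = (latticeCurve τ).c₄
    simp only [latticeCurve, WeierstrassCurve.c₄, WeierstrassCurve.b₂, WeierstrassCurve.b₄]
    ring
  · show _ = (latticeCurve τ).c₆
    simp only [latticeCurve, WeierstrassCurve.c₆, WeierstrassCurve.b₂, WeierstrassCurve.b₄,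
      WeierstrassCurve.b₆]
    ring

/-- `℘` takes equal values exactly at `±` congruent arguments. -/
theorem nP_eq_iff (τ : ℍ) {z w : ℂ} (hz : z ∉ (stdPair τ).lattice)
    (hw : w ∉ (stdPair τ).lattice) :
    nP τ z = nP τ w ↔ z - w ∈ (stdPair τ).lattice ∨ z + w ∈ (stdPair τ).lattice := by
  classical
  constructor
  · intro e
    have h := latticeCurve_uniformises τ
    have hx : px (stdPair τ) (latticeCurve τ).toAffine z =
        px (stdPair τ) (latticeCurve τ).toAffine w := by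
      simp only [nP, div_left_inj' two_pi_I_sq_ne_zero] at e
      simp [px, e]
    rcases Point.X_eq_iff (h₁ := h.nonsingular hz) (h₂ := h.nonsingular hw) |>.mp hx with e' | e'
    · left
      rw [← pointFun_of_notMem h hz, ← pointFun_of_notMem h hw] at e'
      rw [← pointFun_eq_zero_iff h, sub_eq_add_neg, pointFun_add, pointFun_neg, e', add_neg_cancel]
    · right
      rw [← pointFun_of_notMem h hz, ← pointFun_of_notMem h hw] at e'
      rw [← pointFun_eq_zero_iff h, pointFun_add, e', neg_add_cancel]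
  · rintro (e | e) <;> obtain ⟨m, n, e⟩ := mem_stdPair.mp e
    · rw [show z = w + ((m : ℂ) * τ + n) by linear_combination -e, nP_add]
    · rw [show z = -w + ((m : ℂ) * τ + n) by linear_combination -e, nP_add, nP_neg]

variable (p : ℕ)

/-- `(2πi)⁻² ℘_τ((aτ+b)/p)`. -/
def X (a b : ZMod p) (τ : ℍ) : ℂ := nP τ (((a.val : ℂ) * τ + (b.val : ℂ)) / p)

variable {p} [NeZero p]

theorem nP_div_eq_X (τ : ℍ) (m n : ℤ) : nP τ (((m : ℂ) * τ + n) / p) = X p m n τ := by
  have hp : (p : ℂ) ≠ 0 := Nat.cast_ne_zero.mpr (NeZero.ne p)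
  have e : ∀ k : ℤ, (k : ℂ) = ((k : ZMod p).val : ℂ) + p * ((k / (p : ℤ) : ℤ) : ℂ) := by
    intro k
    have h := Int.emod_add_mul_ediv k (p : ℤ)
    rw [← ZMod.val_intCast k] at h
    exact_mod_cast h.symm
  rw [X, ← nP_add τ (((((m : ZMod p).val : ℂ)) * τ + ((n : ZMod p).val : ℂ)) / p)
    (m / p) (n / p)]
  congr 1
  conv_lhs => rw [e m, e n]
  field_simp
  ring

theorem X_smul (γ : SL(2, ℤ)) (a b : ZMod p) (τ : ℍ) :
    X p a b (γ • τ) = ((γ 1 0 : ℂ) * τ + γ 1 1) ^ 2 *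
      X p (a * γ 0 0 + b * γ 1 0) (a * γ 0 1 + b * γ 1 1) τ := by
  have hd : (γ 1 0 : ℂ) * τ + γ 1 1 ≠ 0 := Genus.denom_int_ne_zero γ τ
  rw [X, nP_smul]
  congr 1
  rw [UpperHalfPlane.coe_specialLinearGroup_apply]
  simp only [algebraMap_int_eq, eq_intCast, Complex.ofReal_intCast]
  rw [show ((γ 1 0 : ℂ) * τ + γ 1 1) * (((a.val : ℂ) * (((γ 0 0 : ℂ) * τ + γ 0 1) /
      ((γ 1 0 : ℂ) * τ + γ 1 1)) + b.val) / p) =
      ((((a.val : ℤ) * γ 0 0 + (b.val : ℤ) * γ 1 0 : ℤ) : ℂ) * τ +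
        (((a.val : ℤ) * γ 0 1 + (b.val : ℤ) * γ 1 1 : ℤ) : ℂ)) / p by
    push_cast
    rw [mul_div_assoc', mul_add, ← mul_assoc, mul_comm _ ((a.val : ℂ)), mul_assoc,
      mul_div_cancel₀ _ hd]
    ring, nP_div_eq_X]
  simp

theorem notMem_lattice (τ : ℍ) {a b : ZMod p} (h : ¬(a = 0 ∧ b = 0)) :
    ((a.val : ℂ) * τ + (b.val : ℂ)) / p ∉ (stdPair τ).lattice := by
  have hp : (p : ℂ) ≠ 0 := Nat.cast_ne_zero.mpr (NeZero.ne p)
  intro e
  obtain ⟨m, n, e⟩ := mem_stdPair.mp e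
  rw [eq_div_iff hp] at e
  have hi : ((m : ℝ) * p - a.val) * τ.im = 0 := by
    generalize a.val = A at e ⊢
    generalize b.val = B at e
    have := congrArg Complex.im e
    simp at this
    linarith
  have ha : ((a.val : ℕ) : ℤ) = m * p := by
    have h1 : (m : ℝ) * p - a.val = 0 :=
      (mul_eq_zero.mp hi).resolve_right τ.im_ne_zero
    have h2 : ((a.val : ℤ) : ℝ) = ((m * p : ℤ) : ℝ) := by push_cast; linarith
    exact_mod_cast h2
  have hb : ((b.val : ℕ) : ℤ) = n * p := by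
    have hac : (a.val : ℂ) = m * p := by exact_mod_cast congrArg (Int.cast : ℤ → ℂ) ha
    rw [hac] at e
    have : ((b.val : ℤ) : ℂ) = ((n * p : ℤ) : ℂ) := by push_cast; linear_combination -e
    exact_mod_cast this
  refine h ⟨?_, ?_⟩
  · have := congrArg (Int.cast : ℤ → ZMod p) ha
    simpa using this
  · have := congrArg (Int.cast : ℤ → ZMod p) hb
    simpa using this

theorem X_neg (a b : ZMod p) (τ : ℍ) : X p (-a) (-b) τ = X p a b τ := by
  have h : X p ((-(a.val : ℤ) : ℤ) : ZMod p) ((-(b.val : ℤ) : ℤ) : ZMod p) τ = X p a b τ := by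
    rw [← nP_div_eq_X, X, ← nP_neg τ (((a.val : ℂ) * τ + (b.val : ℂ)) / p)]
    congr 1
    push_cast
    ring
  simpa using h

theorem X_eq_iff (τ : ℍ) {a b c d : ZMod p} (hab : ¬(a = 0 ∧ b = 0)) (hcd : ¬(c = 0 ∧ d = 0)) :
    X p a b τ = X p c d τ ↔ (a = c ∧ b = d) ∨ (a = -c ∧ b = -d) := by
  have hp : (p : ℂ) ≠ 0 := Nat.cast_ne_zero.mpr (NeZero.ne p)
  have key : ∀ {u v : ZMod p} {m n : ℤ}, ((m : ℂ) * τ + n) / p ∈ (stdPair τ).lattice →
      (m : ZMod p) = u → (n : ZMod p) = v → u = 0 ∧ v = 0 := by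
    intro u v m n hmem hu hv
    by_contra hne
    refine notMem_lattice τ hne ?_
    obtain ⟨k, l, e⟩ := mem_stdPair.mp hmem
    obtain ⟨i, hi⟩ : (p : ℤ) ∣ m - u.val :=
      (ZMod.intCast_zmod_eq_zero_iff_dvd _ _).mp (by simp [hu])
    obtain ⟨j, hj⟩ : (p : ℤ) ∣ n - v.val :=
      (ZMod.intCast_zmod_eq_zero_iff_dvd _ _).mp (by simp [hv])
    refine mem_stdPair.mpr ⟨k - i, l - j, ?_⟩
    have hi' : (m : ℂ) - u.val = p * i := by exact_mod_cast congrArg (Int.cast : ℤ → ℂ) hi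
    have hj' : (n : ℂ) - v.val = p * j := by exact_mod_cast congrArg (Int.cast : ℤ → ℂ) hj
    rw [eq_div_iff hp] at e ⊢
    push_cast
    linear_combination e + (τ : ℂ) * hi' + hj'
  constructor
  · intro e
    rcases (nP_eq_iff τ (notMem_lattice τ hab) (notMem_lattice τ hcd)).mp e with h | h
    · left
      have := key (u := a - c) (v := b - d) (m := (a.val : ℤ) - c.val) (n := (b.val : ℤ) - d.val)
        (by convert h using 1; push_cast; ring) (by simp) (by simp)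
      exact ⟨sub_eq_zero.mp this.1, sub_eq_zero.mp this.2⟩
    · right
      have := key (u := a + c) (v := b + d) (m := (a.val : ℤ) + c.val) (n := (b.val : ℤ) + d.val)
        (by convert h using 1; push_cast; ring) (by simp) (by simp)
      exact ⟨eq_neg_of_add_eq_zero_left this.1, eq_neg_of_add_eq_zero_left this.2⟩
  · rintro (⟨rfl, rfl⟩ | ⟨rfl, rfl⟩)
    · rfl
    · rw [X_neg]

theorem real_ne_int {b : ZMod p} (hb : b ≠ 0) (n : ℤ) :
    (((b.val : ℝ) / p : ℝ) : ℂ) ≠ n := by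
  intro e
  have hp : (0 : ℝ) < p := by exact_mod_cast Nat.pos_of_ne_zero (NeZero.ne p)
  have e' : (b.val : ℝ) / p = n := by exact_mod_cast e
  rw [div_eq_iff hp.ne'] at e'
  have e'' : (b.val : ℤ) = n * p := by exact_mod_cast e'
  refine hb ?_
  simpa using congrArg (Int.cast : ℤ → ZMod p) e''

omit [NeZero p] in
theorem X_zero_left (b : ZMod p) (τ : ℍ) : X p 0 b τ = nP τ ((((b.val : ℝ) / p : ℝ)) : ℂ) := by
  simp [X, -ZMod.natCast_val]

theorem mdiff_X_zero {b : ZMod p} (hb : b ≠ 0) : MDiff (X p 0 b) := by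
  rw [UpperHalfPlane.mdifferentiable_iff]
  have h := (hasFPowerSeriesOnBall_nFun (u := qe ((((b.val : ℝ) / p : ℝ)) : ℂ))
    (norm_qe_real _)).analyticOnNhd
  refine DifferentiableOn.congr
    (f := fun z => nFun (qe ((((b.val : ℝ) / p : ℝ)) : ℂ)) (qe z)) ?_ fun z hz => ?_
  · intro z hz
    have hmem : qe z ∈ Metric.eball (0 : ℂ) 1 := by
      rw [← ENNReal.ofReal_one, Metric.eball_ofReal]
      simpa using norm_qe_tau_lt ⟨z, hz⟩
    refine ((h _ hmem).differentiableAt.comp z ?_).differentiableWithinAt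
    unfold qe
    fun_prop
  · simp only [Function.comp_apply, ofComplex_apply_of_im_pos hz, X_zero_left]
    exact nP_eq_nFun ⟨z, hz⟩ (real_ne_int hb)

theorem tendsto_X {a b : ZMod p} (h : ¬(a = 0 ∧ b = 0)) :
    Tendsto (X p a b) atImInfty
      (𝓝 (1 / 12 + if a = 0 then Su (qe ((((b.val : ℝ) / p : ℝ)) : ℂ)) else 0)) := by
  have hp : (0 : ℝ) < p := by exact_mod_cast Nat.pos_of_ne_zero (NeZero.ne p)
  have h0 : ((a.val : ℝ) / p = 0) ↔ a = 0 := by
    rw [div_eq_zero_iff, Nat.cast_eq_zero, ZMod.val_eq_zero]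
    simp [NeZero.ne p]
  have := tendsto_nP (x := (a.val : ℝ) / p) (y := (b.val : ℝ) / p) (by positivity)
    (by rw [div_lt_one hp]; exact_mod_cast ZMod.val_lt a)
    fun e => real_ne_int fun hb => h ⟨h0.mp e, hb⟩
  simp only [h0] at this
  refine this.congr fun τ => ?_
  rw [X]
  congr 1
  push_cast
  ring

theorem isBoundedAtImInfty_X (a b : ZMod p) (h : ¬(a = 0 ∧ b = 0)) :
    IsBoundedAtImInfty (X p a b) :=
  (tendsto_X h).isBigO_one ℝ

end FLTAgent.Mazur
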