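/-
Modular functions of level `p` built from `℘`-values at points of order `p`.
-/
import Fermat.Agent.Mazur.Wp
import Fermat.Agent.Genus.DiskOrder

set_option autoImplicit false

noncomputable section

open Complex Filter Function CongruenceSubgroup
open UpperHalfPlane hiding I
open scoped Real Topology MatrixGroups ModularForm Manifold

namespace FLTAgent.Mazur

open FLTAgent.EllParam FLTAgent.ModPoly

local notation "𝕢" => Periodic.qParam

/-- The automorphy factor. -/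
def den (γ : SL(2, ℤ)) (τ : ℍ) : ℂ := (γ 1 0 : ℂ) * τ + γ 1 1

theorem den_ne_zero (γ : SL(2, ℤ)) (τ : ℍ) : den γ τ ≠ 0 := Genus.denom_int_ne_zero γ τ

theorem mem_SL (γ : SL(2, ℤ)) : (γ : GL (Fin 2) ℝ) ∈ 𝒮ℒ := ⟨γ, rfl⟩

theorem form_smul {k : ℕ} {F : Type*} [FunLike F ℍ ℂ] [SlashInvariantFormClass F 𝒮ℒ (k : ℤ)]
    (f : F) (γ : SL(2, ℤ)) (τ : ℍ) : f (γ • τ) = den γ τ ^ k * f τ := by
  have h := congr_fun (SlashInvariantFormClass.slash_action_eq f _ (mem_SL γ)) τ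
  rw [← ModularForm.SL_slash, ModularForm.SL_slash_apply] at h
  have hd : denom γ τ = den γ τ := by simp [den, ModularGroup.denom_apply]
  rw [hd, zpow_neg, zpow_natCast] at h
  rw [← h, mul_comm (f _), mul_inv_cancel_left₀ (pow_ne_zero _ (den_ne_zero γ τ))]

theorem E₄_smul (γ : SL(2, ℤ)) (τ : ℍ) :
    ModularForm.E₄ (γ • τ) = den γ τ ^ 4 * ModularForm.E₄ τ :=
  form_smul (k := 4) ModularForm.E₄ γ τ

theorem E₆_smul (γ : SL(2, ℤ)) (τ : ℍ) :
    ModularForm.E₆ (γ • τ) = den γ τ ^ 6 * ModularForm.E₆ τ :=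
  form_smul (k := 6) ModularForm.E₆ γ τ

theorem discriminant_smul (γ : SL(2, ℤ)) (τ : ℍ) :
    ModularForm.discriminant (γ • τ) = den γ τ ^ 12 * ModularForm.discriminant τ := by
  have := form_smul (k := 12) CuspForm.discriminant γ τ
  rwa [CuspForm.coe_discriminant] at this

theorem isBoundedAtImInfty_level_one {k : ℤ} (f : ModularForm 𝒮ℒ k) :
    IsBoundedAtImInfty (f : ℍ → ℂ) := by
  have : Fact (IsCusp OnePoint.infty (𝒮ℒ : Subgroup (GL (Fin 2) ℝ))) :=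
    ⟨Subgroup.isCusp_of_mem_strictPeriods one_pos one_mem_strictPeriods_SL⟩
  exact ModularFormClass.bdd_at_infty f

variable {p : ℕ} [NeZero p]

/-- `F / Δ^m` is a modular function when `F` has weight `12 m` and is bounded at the cusps. -/
theorem div_discriminant_mem {F : ℍ → ℂ} (G : SL(2, ℤ) → ℍ → ℂ) {m : ℕ} (hF : MDiff F)
    (hT : ∀ γ τ, F (γ • τ) = den γ τ ^ (12 * m) * G γ τ)
    (hinv : ∀ γ ∈ Gamma0 p, G γ = F) (hb : ∀ γ, IsBoundedAtImInfty (G γ)) :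
    (fun τ => F τ / ModularForm.discriminant τ ^ m) ∈ modFunRing p := by
  have hsm : ∀ γ τ, F (γ • τ) / ModularForm.discriminant (γ • τ) ^ m =
      G γ τ / ModularForm.discriminant τ ^ m := fun γ τ => by
    rw [hT, discriminant_smul, mul_pow, ← pow_mul,
      mul_div_mul_left _ _ (pow_ne_zero _ (den_ne_zero γ τ))]
  refine mem_modFunRing_of_isBounded ?_ (fun γ hγ τ => by rw [hsm, hinv γ hγ]) fun γ => ?_
  · exact hF.div (Genus.mdiff_discriminant.pow m)
      fun τ => pow_ne_zero m (ModularForm.discriminant_ne_zero τ)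
  · have hx : (HahnSeries.single (1 : ℤ) (1 : ℂ) * HahnSeries.ofPowerSeries ℤ ℂ
        (ModularCurve.dedekindEtaUnit.map (Int.castRingHom ℂ))) ≠ 0 := by
      refine mul_ne_zero (HahnSeries.single_ne_zero one_ne_zero) fun e => ?_
      have := congrArg (fun s => s.coeff ((0 : ℕ) : ℤ)) e
      simp only [HahnSeries.ofPowerSeries_apply_coeff, PowerSeries.coeff_map,
        HahnSeries.coeff_zero] at this
      rw [PowerSeries.coeff_zero_eq_constantCoeff, ModularCurve.constantCoeff_dedekindEtaUnit]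
        at this
      simp at this
    have hmem : ((ModularForm.discriminant : ℍ → ℂ)⁻¹ ^ m) ∈ expRing p :=
      ((expands_discriminant.inv hx).pow m).mem_expRing_width (one_dvd p)
    obtain ⟨M, hM⟩ := exists_isBounded_of_mem_expRing hmem
    refine ⟨M, ?_⟩
    have := (hb γ).mul hM
    refine this.congr' (Eventually.of_forall fun τ => ?_) EventuallyEq.rfl
    show G γ τ * (𝕢 p τ ^ M * ((ModularForm.discriminant : ℍ → ℂ)⁻¹ ^ m) τ) =
      𝕢 p τ ^ M * (F (γ • τ) / ModularForm.discriminant (γ • τ) ^ m)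
    rw [hsm, Pi.pow_apply, Pi.inv_apply, inv_pow]
    ring

/-- The inverse of a nowhere vanishing modular function is a modular function. -/
theorem inv_mem_modFunRing {g : ℍ → ℂ} (hg : g ∈ modFunRing p) (h0 : ∀ τ, g τ ≠ 0) :
    g⁻¹ ∈ modFunRing p := by
  refine ⟨?_, fun γ hγ τ => by rw [Pi.inv_apply, Pi.inv_apply, smul_eq_of_mem hg hγ], fun γ => ?_⟩
  · rw [show g⁻¹ = (fun _ => (1 : ℂ)) / g from funext fun z => by simp]
    exact mdifferentiable_const.div hg.1 h0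
  · obtain ⟨x, hx⟩ := comp_smul_mem_expRing hg γ
    have hx0 : x ≠ 0 := by
      rintro rfl
      obtain ⟨τ, hτ⟩ := (Expands.eq_zero_of_expands_zero hx).exists
      exact h0 _ hτ
    exact (hx.inv hx0).mem_expRing

variable (p) in
/-- `(p-1)/2`. -/
def half : ℕ := (p - 1) / 2

variable [Fact p.Prime]

theorem card_units_zmod (hp : p ≠ 2) : Fintype.card (ZMod p)ˣ = 2 * half p := by
  rw [ZMod.card_units, half]
  obtain ⟨k, hk⟩ := (Fact.out : p.Prime).odd_of_ne_two hp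
  omega

omit [NeZero p] in
theorem row_ne_zero (γ : SL(2, ℤ)) {k : ZMod p} (hk : k ≠ 0) :
    ¬(k * (γ 1 0 : ZMod p) = 0 ∧ k * (γ 1 1 : ZMod p) = 0) := by
  rintro ⟨h1, h2⟩
  have hdet : γ 0 0 * γ 1 1 - γ 0 1 * γ 1 0 = (1 : ℤ) := by
    have := γ.2; rwa [Matrix.det_fin_two] at this
  have := congrArg (Int.cast : ℤ → ZMod p) hdet
  simp [(mul_eq_zero.mp h1).resolve_left hk, (mul_eq_zero.mp h2).resolve_left hk] at this

omit [NeZero p] in
theorem two_ne_zero_zmod (hp : p ≠ 2) : (2 : ZMod p) ≠ 0 := fun e => hp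
  ((Nat.prime_dvd_prime_iff_eq Fact.out Nat.prime_two).mp
    ((ZMod.natCast_eq_zero_iff 2 p).mp (by exact_mod_cast e)))

/-- The product of differences, seen from the cusp `γ`. -/
def DAt (γ : SL(2, ℤ)) (τ : ℍ) : ℂ :=
  ∏ k : (ZMod p)ˣ, (X p ((k : ZMod p) * γ 1 0) ((k : ZMod p) * γ 1 1) τ -
    X p (2 * (k : ZMod p) * γ 1 0) (2 * (k : ZMod p) * γ 1 1) τ)

variable (p) in
/-- `∏ (X_k - X_{2k})`, of weight `2(p-1)`. -/
def Dfun (τ : ℍ) : ℂ :=
  ∏ k : (ZMod p)ˣ, (X p 0 (k : ZMod p) τ - X p 0 (2 * (k : ZMod p)) τ)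

/-- The product defining `h_a`, seen from the cusp `γ`. -/
def HAt (a : ℂ) (γ : SL(2, ℤ)) (τ : ℍ) : ℂ :=
  ∏ k : (ZMod p)ˣ, (12 * X p ((k : ZMod p) * γ 1 0) ((k : ZMod p) * γ 1 1) τ *
    ModularForm.E₄ τ - a * ModularForm.E₆ τ)

variable (p) in
/-- `∏ (12 X_k E₄ - a E₆)`, of weight `6(p-1)`. -/
def Hnum (a : ℂ) (τ : ℍ) : ℂ :=
  ∏ k : (ZMod p)ˣ, (12 * X p 0 (k : ZMod p) τ * ModularForm.E₄ τ - a * ModularForm.E₆ τ)

theorem gamma0_row {γ : SL(2, ℤ)} (hγ : γ ∈ Gamma0 p) :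
    (γ 1 0 : ZMod p) = 0 ∧ IsUnit (γ 1 1 : ZMod p) := by
  have h0 : (γ 1 0 : ZMod p) = 0 := Gamma0_mem.mp hγ
  refine ⟨h0, isUnit_iff_ne_zero.mpr fun h1 => ?_⟩
  exact row_ne_zero γ (one_ne_zero (α := ZMod p)) ⟨by simp [h0], by simp [h1]⟩

theorem DAt_of_mem {γ : SL(2, ℤ)} (hγ : γ ∈ Gamma0 p) : DAt (p := p) γ = Dfun p := by
  funext τ
  obtain ⟨h0, h1⟩ := gamma0_row hγ
  refine Fintype.prod_equiv (Equiv.mulRight h1.unit) _ _ fun k => ?_
  simp [h0, mul_assoc]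

theorem HAt_of_mem (a : ℂ) {γ : SL(2, ℤ)} (hγ : γ ∈ Gamma0 p) : HAt (p := p) a γ = Hnum p a := by
  funext τ
  obtain ⟨h0, h1⟩ := gamma0_row hγ
  refine Fintype.prod_equiv (Equiv.mulRight h1.unit) _ _ fun k => ?_
  simp [h0]

theorem Dfun_smul (hp : p ≠ 2) (γ : SL(2, ℤ)) (τ : ℍ) :
    Dfun p (γ • τ) = den γ τ ^ (4 * half p) * DAt (p := p) γ τ := by
  have hc : (Finset.univ : Finset (ZMod p)ˣ).card = 2 * half p := card_units_zmod hp
  rw [Dfun, DAt, show 4 * half p = 2 * (Finset.univ : Finset (ZMod p)ˣ).card by rw [hc]; ring, pow_mul,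
    Finset.pow_card_mul_prod]
  refine Finset.prod_congr rfl fun k _ => ?_
  rw [X_smul, X_smul, mul_sub, den]
  simp [mul_assoc]

theorem Hnum_smul (hp : p ≠ 2) (a : ℂ) (γ : SL(2, ℤ)) (τ : ℍ) :
    Hnum p a (γ • τ) = den γ τ ^ (12 * half p) * HAt (p := p) a γ τ := by
  have hc : (Finset.univ : Finset (ZMod p)ˣ).card = 2 * half p := card_units_zmod hp
  rw [Hnum, HAt, show 12 * half p = 6 * (Finset.univ : Finset (ZMod p)ˣ).card by rw [hc]; ring,
    pow_mul, Finset.pow_card_mul_prod]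
  refine Finset.prod_congr rfl fun k _ => ?_
  rw [X_smul, E₄_smul, E₆_smul, den]
  simp only [zero_mul, zero_add]
  ring

theorem Dfun_ne_zero (hp : 5 ≤ p) (τ : ℍ) : Dfun p τ ≠ 0 := by
  refine Finset.prod_ne_zero_iff.mpr fun k _ => sub_ne_zero.mpr fun e => ?_
  have hk : (k : ZMod p) ≠ 0 := k.ne_zero
  have h2 : (2 : ZMod p) * k ≠ 0 := mul_ne_zero (two_ne_zero_zmod (by omega)) hk
  rcases (X_eq_iff τ (fun h => hk h.2) (fun h => h2 h.2)).mp e with ⟨-, h⟩ | ⟨-, h⟩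
  · exact hk (by linear_combination -h)
  · have h3 : ((3 : ℕ) : ZMod p) = 0 :=
      (mul_eq_zero.mp (show ((3 : ℕ) : ZMod p) * k = 0 by push_cast; linear_combination h)).resolve_right hk
    have := (Nat.prime_dvd_prime_iff_eq Fact.out Nat.prime_three).mp
      ((ZMod.natCast_eq_zero_iff 3 p).mp h3)
    omega

omit [NeZero p] [Fact p.Prime] in
theorem mdiff_prod {ι : Type*} (s : Finset ι) {f : ι → ℍ → ℂ} (hf : ∀ i ∈ s, MDiff (f i)) :
    MDiff fun τ => ∏ i ∈ s, f i τ := by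
  rw [UpperHalfPlane.mdifferentiable_iff]
  exact DifferentiableOn.fun_finsetProd (f := fun i => f i ∘ ofComplex) fun i hi =>
    UpperHalfPlane.mdifferentiable_iff.mp (hf i hi)

theorem mdiff_Dfun (hp : p ≠ 2) : MDiff (Dfun p) :=
  mdiff_prod _ fun k _ => (mdiff_X_zero k.ne_zero).sub
    (mdiff_X_zero (mul_ne_zero (two_ne_zero_zmod hp) k.ne_zero))

theorem mdiff_Hnum (a : ℂ) : MDiff (Hnum p a) :=
  mdiff_prod _ fun k _ =>
    ((mdifferentiable_const.mul (mdiff_X_zero k.ne_zero)).mul Genus.mdiff_E₄).sub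
      (mdifferentiable_const.mul Genus.mdiff_E₆)

theorem mem_bounded_iff {f : ℍ → ℂ} :
    f ∈ boundedAtImInftySubalgebra ℂ ↔ IsBoundedAtImInfty f := Iff.rfl

theorem const_mem_bounded (c : ℂ) : (fun _ : ℍ => c) ∈ boundedAtImInftySubalgebra ℂ :=
  (boundedAtImInftySubalgebra ℂ).algebraMap_mem c

theorem isBounded_DAt (hp : p ≠ 2) (γ : SL(2, ℤ)) : IsBoundedAtImInfty (DAt (p := p) γ) := by
  have hmem : (∏ k : (ZMod p)ˣ, (X p ((k : ZMod p) * γ 1 0) ((k : ZMod p) * γ 1 1) -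
      X p (2 * (k : ZMod p) * γ 1 0) (2 * (k : ZMod p) * γ 1 1))) ∈
      boundedAtImInftySubalgebra ℂ :=
    prod_mem fun k _ => sub_mem (isBoundedAtImInfty_X _ _ (row_ne_zero γ k.ne_zero))
      (isBoundedAtImInfty_X _ _
        (row_ne_zero γ (mul_ne_zero (two_ne_zero_zmod hp) k.ne_zero)))
  refine mem_bounded_iff.mp (Set.mem_of_eq_of_mem (funext fun τ => ?_) hmem)
  simp [DAt, Finset.prod_apply]

theorem isBounded_HAt (a : ℂ) (γ : SL(2, ℤ)) : IsBoundedAtImInfty (HAt (p := p) a γ) := by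
  have hmem : (∏ k : (ZMod p)ˣ, ((fun _ => (12 : ℂ)) * X p ((k : ZMod p) * γ 1 0)
      ((k : ZMod p) * γ 1 1) * (ModularForm.E₄ : ℍ → ℂ) -
        (fun _ => a) * (ModularForm.E₆ : ℍ → ℂ))) ∈ boundedAtImInftySubalgebra ℂ :=
    prod_mem fun k _ => sub_mem
      (mul_mem (mul_mem (const_mem_bounded 12)
        (isBoundedAtImInfty_X _ _ (row_ne_zero γ k.ne_zero)))
        (isBoundedAtImInfty_level_one ModularForm.E₄))
      (mul_mem (const_mem_bounded a) (isBoundedAtImInfty_level_one ModularForm.E₆))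
  refine mem_bounded_iff.mp (Set.mem_of_eq_of_mem (funext fun τ => ?_) hmem)
  simp [HAt, Finset.prod_apply]

variable (p) in
/-- `D³/Δ^m`: a unit of level `p`. -/
def uFun (τ : ℍ) : ℂ := Dfun p τ ^ 3 / ModularForm.discriminant τ ^ half p

variable (p) in
/-- `E₄^m/D`: holomorphic away from one cusp. -/
def fFun (τ : ℍ) : ℂ := ModularForm.E₄ τ ^ half p / Dfun p τ

variable (p) in
/-- `∏ (12 X_k E₄ - a E₆)/Δ^m`. -/
def hFun (a : ℂ) (τ : ℍ) : ℂ := Hnum p a τ / ModularForm.discriminant τ ^ half p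

theorem uFun_mem (hp : p ≠ 2) : uFun p ∈ modFunRing p :=
  div_discriminant_mem (F := fun τ => Dfun p τ ^ 3) (fun γ τ => DAt (p := p) γ τ ^ 3)
    ((mdiff_Dfun hp).pow 3)
    (fun γ τ => by rw [Dfun_smul hp, mul_pow, ← pow_mul]; ring_nf)
    (fun γ hγ => by rw [DAt_of_mem hγ])
    (fun γ => mem_bounded_iff.mp (pow_mem (mem_bounded_iff.mpr (isBounded_DAt hp γ)) 3))

theorem hFun_mem (hp : p ≠ 2) (a : ℂ) : hFun p a ∈ modFunRing p :=
  div_discriminant_mem (HAt (p := p) a) (mdiff_Hnum a) (Hnum_smul hp a) (fun _ hγ => HAt_of_mem a hγ)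
    (isBounded_HAt a)

theorem uFun_ne_zero (hp : 5 ≤ p) (τ : ℍ) : uFun p τ ≠ 0 :=
  div_ne_zero (pow_ne_zero _ (Dfun_ne_zero hp τ))
    (pow_ne_zero _ (ModularForm.discriminant_ne_zero τ))

theorem fFun_mem (hp : 5 ≤ p) : fFun p ∈ modFunRing p := by
  have hp2 : p ≠ 2 := by omega
  have hg : (fun τ => Dfun p τ ^ 2 * ModularForm.E₄ τ ^ half p /
      ModularForm.discriminant τ ^ half p) ∈ modFunRing p :=
    div_discriminant_mem (F := fun τ => Dfun p τ ^ 2 * ModularForm.E₄ τ ^ half p)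
      (fun γ τ => DAt (p := p) γ τ ^ 2 * ModularForm.E₄ τ ^ half p)
      (((mdiff_Dfun hp2).pow 2).mul (Genus.mdiff_E₄.pow _))
      (fun γ τ => by
        rw [Dfun_smul hp2, E₄_smul, mul_pow, mul_pow, ← pow_mul, ← pow_mul,
          show 12 * half p = 4 * half p * 2 + 4 * half p by ring, pow_add]
        ring)
      (fun γ hγ => by rw [DAt_of_mem hγ])
      (fun γ => mem_bounded_iff.mp (mul_mem (pow_mem (mem_bounded_iff.mpr (isBounded_DAt hp2 γ)) 2)
        (pow_mem (mem_bounded_iff.mpr (isBoundedAtImInfty_level_one ModularForm.E₄)) (half p))))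
  have := mul_mem hg (inv_mem_modFunRing (uFun_mem hp2) (uFun_ne_zero hp))
  convert this using 1
  funext τ
  simp only [fFun, uFun, Pi.mul_apply, Pi.inv_apply]
  have := Dfun_ne_zero hp τ
  have := ModularForm.discriminant_ne_zero τ
  field_simp

end FLTAgent.Mazur
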