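/-
The expansions at `i∞` of the level-`p` functions, as series over any field containing `μ_p`.
-/
import Mathlib.RingTheory.RootsOfUnity.Lemmas
import Fermat.Prelude.Def_ModularCurve_X0ModL
import Fermat.Agent.Mazur.Functions

set_option autoImplicit false

noncomputable section

open PowerSeries

namespace FLTAgent.Mazur

open FLTAgent.ModPoly ModularCurve

section Algebraic

variable {K : Type*} [Field K]

/-- `ζ/(1-ζ)² + ∑ q^N ∑_{d ∣ N} d (ζ^d + ζ^{-d} - 2)`. -/
def sSer (ζ : K) : PowerSeries K :=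
  .mk fun N => if N = 0 then ζ / (1 - ζ) ^ 2
    else ∑ d ∈ N.divisors, (d : K) * (ζ ^ d + ζ⁻¹ ^ d - 2)

theorem map_sSer {L : Type*} [Field L] (f : K →+* L) (ζ : K) :
    (sSer ζ).map f = sSer (f ζ) := by
  ext N
  simp only [sSer, PowerSeries.coeff_map, PowerSeries.coeff_mk]
  split_ifs <;> simp [map_sum, map_div₀, map_inv₀, map_ofNat]

variable {p : ℕ} [NeZero p]

/-- `ζ^k` for `k` mod `p`. -/
def zPow (ζ : K) (k : ZMod p) : K := ζ ^ k.val

omit [NeZero p] in
theorem map_zPow {L : Type*} [Field L] (f : K →+* L) (ζ : K) (k : ZMod p) :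
    f (zPow ζ k) = zPow (f ζ) k :=
  map_pow f _ _

omit [NeZero p] in
theorem zPow_zPow {ζ : K} (hζ : ζ ^ p = 1) (u k : ZMod p) :
    zPow (zPow ζ u) k = zPow ζ (u * k) := by
  rw [zPow, zPow, zPow, ← pow_mul, ZMod.val_mul, ← pow_eq_pow_mod _ hζ]

variable (p) in
/-- The series of `∏ (X_k - X_{2k})`. -/
def dSer (ζ : K) : PowerSeries K :=
  ∏ k : (ZMod p)ˣ, (sSer (zPow ζ (k : ZMod p)) - sSer (zPow ζ (2 * (k : ZMod p))))

/-- The series of `E₆`. -/
def e6Ser (K : Type*) [Field K] : PowerSeries K :=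
  .mk fun m => if m = 0 then 1 else -504 * ((∑ d ∈ m.divisors, d ^ 5 : ℕ) : K)

/-- The series of `E₄`. -/
def e4Ser (K : Type*) [Field K] : PowerSeries K := eisenstein4.map (Int.castRingHom K)

/-- The series of `q/Δ`. -/
def etaInvSer (K : Type*) [Field K] : PowerSeries K :=
  dedekindEtaUnitInv.map (Int.castRingHom K)

variable (p) in
/-- The series of `h_a`. -/
def hPS (a ζ : K) : PowerSeries K :=
  ∏ k : (ZMod p)ˣ,
    (C 12 * (C (1 / 12) + sSer (zPow ζ (k : ZMod p))) * e4Ser K - C a * e6Ser K)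

theorem map_dSer {L : Type*} [Field L] (f : K →+* L) (ζ : K) :
    (dSer p ζ).map f = dSer p (f ζ) := by
  simp [dSer, map_prod, map_sSer, map_zPow]

theorem map_e4Ser {L : Type*} [Field L] (f : K →+* L) : (e4Ser K).map f = e4Ser L := by
  ext m
  simp [e4Ser]

theorem map_etaInvSer {L : Type*} [Field L] (f : K →+* L) :
    (etaInvSer K).map f = etaInvSer L := by
  ext m
  simp [etaInvSer]

theorem map_e6Ser {L : Type*} [Field L] (f : K →+* L) : (e6Ser K).map f = e6Ser L := by
  ext m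
  simp only [e6Ser, PowerSeries.coeff_map, PowerSeries.coeff_mk]
  split_ifs <;> simp [map_sum, map_ofNat]

theorem map_hPS {L : Type*} [Field L] (f : K →+* L) (a ζ : K) :
    (hPS p a ζ).map f = hPS p (f a) (f ζ) := by
  simp [hPS, map_prod, map_sSer, map_zPow, map_e4Ser, map_e6Ser, map_ofNat]

theorem dSer_zPow {ζ : K} (hζ : ζ ^ p = 1) (u : (ZMod p)ˣ) :
    dSer p (zPow ζ (u : ZMod p)) = dSer p ζ := by
  refine Fintype.prod_equiv (Equiv.mulLeft u) _ _ fun k => ?_
  simp only [Equiv.coe_mulLeft, Units.val_mul, zPow_zPow hζ]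
  rw [mul_left_comm]

theorem hPS_zPow (a : K) {ζ : K} (hζ : ζ ^ p = 1) (u : (ZMod p)ˣ) :
    hPS p a (zPow ζ (u : ZMod p)) = hPS p a ζ := by
  refine Fintype.prod_equiv (Equiv.mulLeft u) _ _ fun k => ?_
  simp only [Equiv.coe_mulLeft, Units.val_mul, zPow_zPow hζ]

variable (p) in
/-- The series of `D³/Δ^m`. -/
def uSer (ζ : K) : LaurentSeries K :=
  HahnSeries.single (-(half p : ℤ)) 1 *
    HahnSeries.ofPowerSeries ℤ K (dSer p ζ ^ 3 * etaInvSer K ^ half p)

variable (p) in
/-- The series of `E₄^m/D`. -/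
def fSer (ζ : K) : LaurentSeries K :=
  HahnSeries.ofPowerSeries ℤ K (e4Ser K ^ half p * (dSer p ζ)⁻¹)

variable (p) in
/-- The series of `h_a`. -/
def hSer (a ζ : K) : LaurentSeries K :=
  HahnSeries.single (-(half p : ℤ)) 1 *
    HahnSeries.ofPowerSeries ℤ K (hPS p a ζ * etaInvSer K ^ half p)

theorem map_inv_powerSeries {L : Type*} [Field L] (f : K →+* L) (φ : PowerSeries K) :
    φ⁻¹.map f = (φ.map f)⁻¹ := by
  by_cases h : PowerSeries.constantCoeff φ = 0
  · rw [PowerSeries.inv_eq_zero.mpr h, map_zero, eq_comm, PowerSeries.inv_eq_zero]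
    rw [← PowerSeries.coeff_zero_eq_constantCoeff_apply, PowerSeries.coeff_map,
      PowerSeries.coeff_zero_eq_constantCoeff_apply, h, map_zero]
  · rw [eq_comm, PowerSeries.inv_eq_iff_mul_eq_one, ← map_mul, PowerSeries.inv_mul_cancel _ h,
      map_one]
    rw [← PowerSeries.coeff_zero_eq_constantCoeff_apply, PowerSeries.coeff_map,
      PowerSeries.coeff_zero_eq_constantCoeff_apply]
    exact (_root_.map_ne_zero f).mpr h

theorem coeffMap_uSer {L : Type*} [Field L] (f : K →+* L) (ζ : K) :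
    coeffMap f (uSer p ζ) = uSer p (f ζ) := by
  rw [uSer, map_mul, coeffMap_single, map_one, coeffMap_ofPowerSeries]
  simp [uSer, map_dSer, map_etaInvSer]

theorem coeffMap_fSer {L : Type*} [Field L] (f : K →+* L) (ζ : K) :
    coeffMap f (fSer p ζ) = fSer p (f ζ) := by
  rw [fSer, coeffMap_ofPowerSeries]
  simp [fSer, map_dSer, map_e4Ser, map_inv_powerSeries]

theorem coeffMap_hSer {L : Type*} [Field L] (f : K →+* L) (a ζ : K) :
    coeffMap f (hSer p a ζ) = hSer p (f a) (f ζ) := by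
  rw [hSer, map_mul, coeffMap_single, map_one, coeffMap_ofPowerSeries]
  simp [hSer, map_hPS, map_etaInvSer]

end Algebraic

section Integral

variable {K : Type*} [Field K] (A : ValuationSubring K)

/-- The power series with coefficients in `A`. -/
def intPS : Subring (PowerSeries K) := (PowerSeries.map A.subtype).range

theorem mem_intPS_iff {φ : PowerSeries K} : φ ∈ intPS A ↔ ∀ n, PowerSeries.coeff n φ ∈ A := by
  constructor
  · rintro ⟨ψ, rfl⟩ n
    rw [PowerSeries.coeff_map]
    exact (PowerSeries.coeff n ψ).2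
  · intro h
    exact ⟨.mk fun n => ⟨_, h n⟩, by ext n; simp⟩

theorem map_int_mem_intPS (φ : PowerSeries ℤ) : φ.map (Int.castRingHom K) ∈ intPS A :=
  (mem_intPS_iff A).mpr fun n => by
    rw [PowerSeries.coeff_map]
    exact intCast_mem A _

theorem inv_mem_intPS {φ : PowerSeries K} (hφ : φ ∈ intPS A)
    (h : A.valuation (PowerSeries.constantCoeff φ) = 1) : φ⁻¹ ∈ intPS A := by
  obtain ⟨ψ, rfl⟩ := hφ
  rw [← PowerSeries.coeff_zero_eq_constantCoeff_apply, PowerSeries.coeff_map,
    PowerSeries.coeff_zero_eq_constantCoeff_apply] at h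
  obtain ⟨u, hu⟩ : IsUnit (PowerSeries.constantCoeff ψ) := A.valuation_eq_one_iff _ |>.mpr h
  refine ⟨ψ.invOfUnit u, ?_⟩
  rw [eq_comm, PowerSeries.inv_eq_iff_mul_eq_one, ← map_mul,
    PowerSeries.invOfUnit_mul _ _ hu.symm, map_one]
  rw [← PowerSeries.coeff_zero_eq_constantCoeff_apply, PowerSeries.coeff_map,
    PowerSeries.coeff_zero_eq_constantCoeff_apply]
  intro h0
  exact u.ne_zero (Subtype.ext (by rw [hu]; exact h0))

variable {p : ℕ} [Fact p.Prime] {ζ : K} (hζ : IsPrimitiveRoot ζ p)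
  (hpA : A.valuation (p : K) = 1)

include hζ in
theorem valuation_zPow (k : ZMod p) : A.valuation (zPow ζ k) = 1 := by
  have h : A.valuation ζ ^ p = 1 := by rw [← map_pow, hζ.pow_eq_one, map_one]
  rw [zPow, map_pow, (pow_eq_one_iff.mp h).resolve_right (Fact.out : p.Prime).ne_zero, one_pow]

include hζ hpA in
theorem valuation_one_sub_zPow {k : ZMod p} (hk : k ≠ 0) :
    A.valuation (1 - zPow ζ k) = 1 := by
  obtain ⟨n, hn⟩ : ∃ n, p = n + 1 := ⟨p - 1, by have := (Fact.out : p.Prime).pos; omega⟩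
  have hprod := congrArg A.valuation
    ((hn ▸ hζ : IsPrimitiveRoot ζ (n + 1)).prod_one_sub_pow_eq_order)
  rw [map_prod, show ((n : K) + 1) = (p : K) by rw [hn]; push_cast; rfl, hpA] at hprod
  have hle : ∀ i ∈ Finset.range n, A.valuation (1 - ζ ^ (i + 1)) ≤ 1 := by
    intro i _
    refine (Valuation.map_sub _ _ _).trans (max_le (by rw [map_one]) ?_)
    have h : A.valuation ζ ^ p = 1 := by rw [← map_pow, hζ.pow_eq_one, map_one]
    rw [map_pow, (pow_eq_one_iff.mp h).resolve_right (Fact.out : p.Prime).ne_zero, one_pow]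
  obtain ⟨i, hi⟩ : ∃ i, k.val = i + 1 :=
    ⟨k.val - 1, by have := (ZMod.val_ne_zero k).mpr hk; omega⟩
  have hlt := ZMod.val_lt k
  rw [zPow, hi]
  refine le_antisymm (hle i (Finset.mem_range.mpr (by omega))) ?_
  rw [← hprod, ← Finset.mul_prod_erase _ _ (Finset.mem_range.mpr (show i < n by omega))]
  exact mul_le_of_le_one_right' (Finset.prod_le_one' fun j hj => hle j (Finset.mem_of_mem_erase hj))

include hζ hpA in
theorem sSer_mem_intPS {k : ZMod p} (hk : k ≠ 0) : sSer (zPow ζ k) ∈ intPS A := by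
  refine (mem_intPS_iff A).mpr fun N => ?_
  have hz : zPow ζ k ∈ A := A.valuation_le_one_iff _ |>.mp (valuation_zPow A hζ k).le
  have hz' : (zPow ζ k)⁻¹ ∈ A :=
    A.valuation_le_one_iff _ |>.mp (by rw [map_inv₀, valuation_zPow A hζ k, inv_one])
  simp only [sSer, PowerSeries.coeff_mk]
  split_ifs
  · rw [← A.valuation_le_one_iff, map_div₀, map_pow, valuation_zPow A hζ,
      valuation_one_sub_zPow A hζ hpA hk]
    simp
  · exact sum_mem fun d _ => mul_mem (natCast_mem A d)
      (sub_mem (add_mem (pow_mem hz d) (pow_mem hz' d)) (natCast_mem A 2))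

include hζ hpA in
theorem valuation_constantCoeff_dSer (hp : 5 ≤ p) :
    A.valuation (PowerSeries.constantCoeff (dSer p ζ)) = 1 := by
  rw [dSer, map_prod, map_prod]
  refine Finset.prod_eq_one fun u _ => ?_
  have hu : (u : ZMod p) ≠ 0 := u.ne_zero
  have h2 : (2 : ZMod p) * u ≠ 0 := mul_ne_zero (two_ne_zero_zmod (by omega)) hu
  have h3 : (3 : ZMod p) ≠ 0 := fun e => by
    have := (Nat.prime_dvd_prime_iff_eq Fact.out Nat.prime_three).mp
      ((ZMod.natCast_eq_zero_iff 3 p).mp (by exact_mod_cast e))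
    omega
  have hz : ∀ a b : ZMod p, zPow ζ (a + b) = zPow ζ a * zPow ζ b := fun a b => by
    simp only [zPow, ← pow_add, ZMod.val_add, ← pow_eq_pow_mod _ hζ.pow_eq_one]
  have key : ∀ a b : K, (1 - a) ≠ 0 → (1 - b) ≠ 0 →
      a / (1 - a) ^ 2 - b / (1 - b) ^ 2 =
        (a - b) * (1 - a * b) / ((1 - a) ^ 2 * (1 - b) ^ 2) := by
    intro a b ha hb
    field_simp
    ring
  rw [map_sub, sSer, sSer, ← PowerSeries.coeff_zero_eq_constantCoeff_apply,
    ← PowerSeries.coeff_zero_eq_constantCoeff_apply, PowerSeries.coeff_mk, PowerSeries.coeff_mk,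
    if_pos rfl, if_pos rfl]
  have n1 := valuation_one_sub_zPow A hζ hpA hu
  have n2 := valuation_one_sub_zPow A hζ hpA h2
  have n1' : 1 - zPow ζ (u : ZMod p) ≠ 0 := fun e => by rw [e, map_zero] at n1; exact zero_ne_one n1
  have n2' : 1 - zPow ζ (2 * (u : ZMod p)) ≠ 0 := fun e => by
    rw [e, map_zero] at n2; exact zero_ne_one n2
  rw [key _ _ n1' n2', map_div₀, map_mul, map_mul, map_pow, map_pow, n1, n2, ← hz]
  rw [show zPow ζ (u : ZMod p) - zPow ζ (2 * (u : ZMod p)) =
      zPow ζ (u : ZMod p) * (1 - zPow ζ (u : ZMod p)) by rw [two_mul, hz]; ring,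
    map_mul, valuation_zPow A hζ, n1,
    valuation_one_sub_zPow A hζ hpA (show (u : ZMod p) + 2 * u ≠ 0 by
      rw [show (u : ZMod p) + 2 * u = 3 * u by ring]; exact mul_ne_zero h3 hu)]
  simp

include hζ hpA in
theorem dSer_mem_intPS (hp : p ≠ 2) : dSer p ζ ∈ intPS A :=
  prod_mem fun u _ => sub_mem (sSer_mem_intPS A hζ hpA u.ne_zero)
    (sSer_mem_intPS A hζ hpA (mul_ne_zero (two_ne_zero_zmod hp) u.ne_zero))

theorem exists_lift_single_mul {φ : PowerSeries K} (hφ : φ ∈ intPS A) (n : ℤ) :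
    ∃ y : LaurentSeries A, coeffMap A.subtype y =
      HahnSeries.single n 1 * HahnSeries.ofPowerSeries ℤ K φ := by
  obtain ⟨ψ, rfl⟩ := hφ
  refine ⟨HahnSeries.single n 1 * HahnSeries.ofPowerSeries ℤ A ψ, ?_⟩
  rw [map_mul, coeffMap_single, map_one, coeffMap_ofPowerSeries]

include hζ hpA in
/-- The series of `D³/Δ^m` is integral at a place away from `p`. -/
theorem exists_lift_uSer (hp : p ≠ 2) :
    ∃ y : LaurentSeries A, coeffMap A.subtype y = uSer p ζ :=
  exists_lift_single_mul A (mul_mem (pow_mem (dSer_mem_intPS A hζ hpA hp) 3)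
    (pow_mem (map_int_mem_intPS A dedekindEtaUnitInv) _)) _

include hζ hpA in
/-- The series of `E₄^m/D` is integral at a place away from `p`. -/
theorem exists_lift_fSer (hp : 5 ≤ p) :
    ∃ y : LaurentSeries A, coeffMap A.subtype y = fSer p ζ := by
  obtain ⟨y, hy⟩ := exists_lift_single_mul A
    (mul_mem (pow_mem (map_int_mem_intPS A eisenstein4) (half p))
      (inv_mem_intPS A (dSer_mem_intPS A hζ hpA (by omega))
        (valuation_constantCoeff_dSer A hζ hpA hp))) 0
  exact ⟨y, by rw [hy, HahnSeries.single_zero_one, one_mul]; rfl⟩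

end Integral

section Complex

open Complex Filter Function
open UpperHalfPlane hiding I
open scoped Real Topology ArithmeticFunction.sigma
open FLTAgent.EllParam

variable {p : ℕ} [NeZero p]

variable (p) in
/-- `exp(2πi/p)`. -/
def zetaP : ℂ := qe (1 / p)

omit [NeZero p] in
theorem zPow_zetaP (k : ZMod p) : zPow (zetaP p) k = qe ((((k.val : ℝ) / p : ℝ)) : ℂ) := by
  rw [zPow, zetaP, ← qe_nat_mul]
  congr 1
  push_cast
  ring

theorem isPrimitiveRoot_zetaP : IsPrimitiveRoot (zetaP p) p := by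
  have := Complex.isPrimitiveRoot_exp p (NeZero.ne p)
  convert this using 1
  rw [zetaP, qe]
  ring_nf

theorem expands_X {k : ZMod p} (hk : k ≠ 0) :
    Expands 1 (X p 0 k) (HahnSeries.ofPowerSeries ℤ ℂ
      (PowerSeries.C (1 / 12) + sSer (zPow (zetaP p) k))) := by
  set u : ℂ := qe ((((k.val : ℝ) / p : ℝ)) : ℂ) with hu
  have hcoef : ∀ N, PowerSeries.coeff N (PowerSeries.C (1 / 12) + sSer (zPow (zetaP p) k)) =
      nCoef u N := by
    intro N
    rw [zPow_zetaP, ← hu]
    rcases eq_or_ne N 0 with rfl | hN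
    · simp [sSer, nCoef_zero, Su]
    · simp [sSer, nCoef_of_ne_zero, hN, PowerSeries.coeff_C]
  have hev : ∀ᶠ q in 𝓝 (0 : ℂ), HasSum
      (fun N => PowerSeries.coeff N (PowerSeries.C (1 / 12) + sSer (zPow (zetaP p) k)) * q ^ N)
      (nFun u q) := by
    filter_upwards [Metric.ball_mem_nhds (0 : ℂ) one_pos] with q hq
    simp only [hcoef]
    exact (hasSum_double (norm_qe_real _) (by simpa using hq)).summable.hasSum
  obtain ⟨han, htay⟩ := taylorPS_eq_of_eventually_hasSum hev
  refine ⟨0, nFun u, han, by rw [htay, HahnSeries.single_zero_one, one_mul],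
    Eventually.of_forall fun τ => ?_⟩
  rw [zpow_zero, one_mul, X_zero_left, nP_eq_nFun τ (real_ne_int hk), ← hu]
  simp [Periodic.qParam, qe]

theorem qExpansion_E₆ :
    qExpansion 1 (ModularForm.E₆ : ℍ → ℂ) = e6Ser ℂ := by
  ext m
  have hb : bernoulli 6 = 1 / 42 := by
    rw [bernoulli_eq_bernoulli'_of_ne_one (by norm_num), bernoulli'_def]
    norm_num [Finset.sum_range_succ, Finset.sum_range_zero, Nat.choose,
      bernoulli'_eq_zero_of_odd (show Odd 5 by decide) (by norm_num)]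
  rw [EisensteinSeries.E_qExpansion_coeff _ ⟨3, rfl⟩, e6Ser, PowerSeries.coeff_mk]
  split_ifs with hm
  · rfl
  · rw [hb, ArithmeticFunction.sigma_apply]
    norm_num

theorem expands_E₆ :
    Expands 1 (ModularForm.E₆ : ℍ → ℂ) (HahnSeries.ofPowerSeries ℤ ℂ (e6Ser ℂ)) := by
  rw [← qExpansion_E₆]
  have := expands_qExpansion (h := 1) (f := (ModularForm.E₆ : ℍ → ℂ))
    (by
      simpa using SlashInvariantFormClass.periodic_comp_ofComplex ModularForm.E₆
        one_mem_strictPeriods_SL)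
    (ModularFormClass.holo _) (isBoundedAtImInfty_level_one _)
  rwa [Nat.cast_one] at this

theorem expands_prod {ι : Type*} (s : Finset ι) {F : ι → ℍ → ℂ} {Y : ι → PowerSeries ℂ}
    (h : ∀ i ∈ s, Expands 1 (F i) (HahnSeries.ofPowerSeries ℤ ℂ (Y i))) :
    Expands 1 (fun τ => ∏ i ∈ s, F i τ) (HahnSeries.ofPowerSeries ℤ ℂ (∏ i ∈ s, Y i)) := by
  classical
  induction s using Finset.induction_on with
  | empty => simpa [Pi.one_def] using Expands.one (h := 1)
  | insert a s ha ih =>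
    simp only [Finset.prod_insert ha, map_mul]
    exact (h a (Finset.mem_insert_self a s)).mul
      (ih fun i hi => h i (Finset.mem_insert_of_mem hi))

theorem expands_discriminant_inv :
    Expands 1 (ModularForm.discriminant : ℍ → ℂ)⁻¹
      (HahnSeries.single (-1 : ℤ) 1 * HahnSeries.ofPowerSeries ℤ ℂ (etaInvSer ℂ)) := by
  set D : PowerSeries ℂ := dedekindEtaUnit.map (Int.castRingHom ℂ)
  have hDD : HahnSeries.ofPowerSeries ℤ ℂ D * HahnSeries.ofPowerSeries ℤ ℂ (etaInvSer ℂ) = 1 := by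
    rw [← map_mul, etaInvSer, ← map_mul, dedekindEtaUnit_mul_inv, map_one, map_one]
  have hne : HahnSeries.single (1 : ℤ) (1 : ℂ) * HahnSeries.ofPowerSeries ℤ ℂ D ≠ 0 :=
    mul_ne_zero (HahnSeries.single_ne_zero one_ne_zero) (left_ne_zero_of_mul_eq_one hDD)
  have hinv : (HahnSeries.single (1 : ℤ) (1 : ℂ) * HahnSeries.ofPowerSeries ℤ ℂ D)⁻¹
      = HahnSeries.single (-1 : ℤ) 1 * HahnSeries.ofPowerSeries ℤ ℂ (etaInvSer ℂ) := by
    refine inv_eq_of_mul_eq_one_right ?_
    rw [mul_mul_mul_comm, hDD, HahnSeries.single_mul_single]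
    simp
  exact hinv ▸ expands_discriminant.inv hne

theorem expands_discriminant_inv_pow (m : ℕ) :
    Expands 1 ((ModularForm.discriminant : ℍ → ℂ)⁻¹ ^ m)
      (HahnSeries.single (-(m : ℤ)) 1 *
        HahnSeries.ofPowerSeries ℤ ℂ (etaInvSer ℂ ^ m)) := by
  have h := expands_discriminant_inv.pow m
  rw [mul_pow, HahnSeries.single_pow, one_pow, ← map_pow] at h
  simpa using h

variable [Fact p.Prime]

theorem expands_Dfun (hp : p ≠ 2) :
    Expands 1 (Dfun p) (HahnSeries.ofPowerSeries ℤ ℂ (dSer p (zetaP p))) := by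
  refine expands_prod _ fun u _ => ?_
  have h1 := expands_X (p := p) (k := (u : ZMod p)) u.ne_zero
  have h2 := expands_X (p := p) (k := 2 * (u : ZMod p))
    (mul_ne_zero (two_ne_zero_zmod hp) u.ne_zero)
  have h := h1.sub h2
  rw [← map_sub, add_sub_add_left_eq_sub] at h
  exact h

theorem expands_uFun (hp : p ≠ 2) : Expands 1 (uFun p) (uSer p (zetaP p)) := by
  have h := ((expands_Dfun hp).pow 3).mul (expands_discriminant_inv_pow (half p))
  rw [← map_pow, mul_left_comm, ← map_mul] at h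
  exact h.congr_fun' (Eventually.of_forall fun τ => by simp [uFun, div_eq_mul_inv])

theorem constantCoeff_dSer_ne_zero (hp : 5 ≤ p) :
    PowerSeries.constantCoeff (dSer p (zetaP p)) ≠ 0 := by
  intro h
  have := valuation_constantCoeff_dSer (⊤ : ValuationSubring ℂ)
    (isPrimitiveRoot_zetaP (p := p)) ?_ hp
  · rw [h, map_zero] at this
    exact zero_ne_one this
  · refine le_antisymm ((ValuationSubring.valuation_le_one_iff _ _).mpr trivial) ?_
    rw [← inv_inv (p : ℂ), map_inv₀]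
    refine one_le_inv_iff₀.mpr ⟨?_, (ValuationSubring.valuation_le_one_iff _ _).mpr trivial⟩
    simp [zero_lt_iff, NeZero.ne p]

theorem expands_fFun (hp : 5 ≤ p) : Expands 1 (fFun p) (fSer p (zetaP p)) := by
  have hD := expands_Dfun (p := p) (by omega)
  have hne : HahnSeries.ofPowerSeries ℤ ℂ (dSer p (zetaP p)) ≠ 0 := by
    intro e
    apply constantCoeff_dSer_ne_zero hp
    have := congrArg (fun s => s.coeff ((0 : ℕ) : ℤ)) e
    rw [HahnSeries.ofPowerSeries_apply_coeff, PowerSeries.coeff_zero_eq_constantCoeff_apply] at this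
    simpa using this
  have h := (expands_E₄.pow (half p)).mul (hD.inv hne)
  have hinv : (HahnSeries.ofPowerSeries ℤ ℂ (dSer p (zetaP p)))⁻¹ =
      HahnSeries.ofPowerSeries ℤ ℂ (dSer p (zetaP p))⁻¹ := by
    refine inv_eq_of_mul_eq_one_right ?_
    rw [← map_mul, PowerSeries.mul_inv_cancel _ (constantCoeff_dSer_ne_zero hp), map_one]
  rw [hinv, ← map_pow, ← map_mul] at h
  exact h.congr_fun' (Eventually.of_forall fun τ => by simp [fFun, div_eq_mul_inv])

theorem expands_hFun (a : ℂ) : Expands 1 (hFun p a) (hSer p a (zetaP p)) := by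
  have hN : Expands 1 (Hnum p a) (HahnSeries.ofPowerSeries ℤ ℂ (hPS p a (zetaP p))) := by
    refine expands_prod _ fun u _ => ?_
    have h := (((Expands.const 1 (12 : ℂ)).mul (expands_X (p := p) (k := (u : ZMod p))
      u.ne_zero)).mul expands_E₄).sub ((Expands.const 1 a).mul expands_E₆)
    rw [← HahnSeries.ofPowerSeries_C, ← HahnSeries.ofPowerSeries_C, ← map_mul, ← map_mul,
      ← map_mul, ← map_sub] at h
    exact h
  have h := hN.mul (expands_discriminant_inv_pow (half p))
  rw [mul_left_comm, ← map_mul] at h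
  exact h.congr_fun' (Eventually.of_forall fun τ => by simp [hFun, div_eq_mul_inv])

end Complex

end FLTAgent.Mazur
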