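/-
The functions `u`, `f`, `h_a` in `Q̄(j, j_p)` and the two cusps.
-/
import Mathlib.Analysis.Complex.Polynomial.Basic
import Fermat.Prelude.Def_ModularCurve_GenusNumerics
import Fermat.Agent.Mazur.Series
import Fermat.Agent.Genus.Export
import Fermat.Agent.JTors.FieldDescent
import Fermat.Agent.JTors.Generate
import Fermat.Agent.FunctionField.Degree

set_option autoImplicit false

noncomputable section

open ModularCurve AlgebraicCurve
open UpperHalfPlane hiding I

namespace FLTAgent.Mazur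

open FLTAgent.ModPoly FLTAgent.Genus

local notation "Qbar" => AlgebraicClosure ℚ

/-- A field embedding of `Q̄` in `ℂ`. -/
def iotaC : Qbar →+* ℂ :=
  haveI : Algebra.IsAlgebraic ℚ Qbar := AlgebraicClosure.isAlgebraic ℚ
  (IsAlgClosed.lift : Qbar →ₐ[ℚ] ℂ).toRingHom

/-- A series over `Q̄` expanding a modular function lies in the function field. -/
theorem mem_field_of_expands {N : ℕ} [NeZero N] {g : ℍ → ℂ} (hg : g ∈ modFunRing N)
    {Y : LaurentSeries Qbar} (hY : Expands 1 g (coeffMap iotaC Y)) :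
    Y ∈ modularFunctionFieldC Qbar N := by
  let : Algebra Qbar ℂ := iotaC.toAlgebra
  have h := JTors.qL_mem_laurentBaseChange (N := N) ⟨g, hg⟩
  rw [qL_eq_of_expands (g := ⟨g, hg⟩) hY] at h
  obtain ⟨y, hy, hyx⟩ := JTors.exists_coeffMap_eq_of_mem (K := Qbar) (L := ℂ)
    (modularFunctionFieldFull N) h fun k => ⟨Y.coeff k, (coeffMap_coeff _ _ _).symm⟩
  have : y = Y := HahnSeries.ext (funext fun k => iotaC.injective (by
    have := congrArg (fun s => s.coeff k) hyx
    simpa [coeffMap_coeff, RingHom.algebraMap_toAlgebra] using this))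
  rw [← laurentBaseChange_full_eq N Qbar]
  exact this ▸ hy

variable {p : ℕ} [NeZero p] [Fact p.Prime]

omit [Fact (Nat.Prime p)] in
theorem exists_zetaBar : ∃ ζ : Qbar, IsPrimitiveRoot ζ p ∧ iotaC ζ = zetaP p := by
  obtain ⟨ζ, hζ⟩ := HasEnoughRootsOfUnity.exists_primitiveRoot Qbar p
  obtain ⟨i, -, hi⟩ := (hζ.map_of_injective (f := iotaC) iotaC.injective).eq_pow_of_pow_eq_one
    (isPrimitiveRoot_zetaP (p := p)).pow_eq_one
  refine ⟨ζ ^ i, IsPrimitiveRoot.of_map_of_injective (f := iotaC) ?_ iotaC.injective, ?_⟩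
  · rw [map_pow, hi]
    exact isPrimitiveRoot_zetaP
  · rw [map_pow, hi]

variable (p) in
/-- The primitive root of unity with image `exp(2πi/p)`. -/
def zetaBar : Qbar := (exists_zetaBar (p := p)).choose

omit [Fact (Nat.Prime p)] in
theorem isPrimitiveRoot_zetaBar : IsPrimitiveRoot (zetaBar p) p :=
  (exists_zetaBar (p := p)).choose_spec.1

omit [Fact (Nat.Prime p)] in
theorem iotaC_zetaBar : iotaC (zetaBar p) = zetaP p := (exists_zetaBar (p := p)).choose_spec.2

/-- `Q̄(j, j_p)`. -/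
local notation "FF" => modularFunctionFieldC Qbar p

theorem expands_uBar (hp : 5 ≤ p) :
    Expands 1 (uFun p) (coeffMap iotaC (uSer p (zetaBar p))) := by
  rw [coeffMap_uSer, iotaC_zetaBar]
  exact expands_uFun (by omega)

theorem expands_fBar (hp : 5 ≤ p) :
    Expands 1 (fFun p) (coeffMap iotaC (fSer p (zetaBar p))) := by
  rw [coeffMap_fSer, iotaC_zetaBar]
  exact expands_fFun hp

theorem expands_hBar (a : ℤ) :
    Expands 1 (hFun p (a : ℂ)) (coeffMap iotaC (hSer p (a : Qbar) (zetaBar p))) := by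
  rw [coeffMap_hSer, iotaC_zetaBar, map_intCast]
  exact expands_hFun _

/-- `u` as an element of the field. -/
def uEl (hp : 5 ≤ p) : FF :=
  ⟨uSer p (zetaBar p), mem_field_of_expands (uFun_mem (by omega)) (expands_uBar hp)⟩

/-- `f` as an element of the field. -/
def fEl (hp : 5 ≤ p) : FF :=
  ⟨fSer p (zetaBar p), mem_field_of_expands (fFun_mem hp) (expands_fBar hp)⟩

/-- `h_a` as an element of the field. -/
def hEl (hp : 5 ≤ p) (a : ℤ) : FF :=
  ⟨hSer p (a : Qbar) (zetaBar p),
    mem_field_of_expands (hFun_mem (by omega) _) (expands_hBar a)⟩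

/-- An element is the expansion of a modular function. -/
def IsFunOf (e : FF) (g : modFunRing p) : Prop :=
  qL p g = coeffMap iotaC (e : LaurentSeries Qbar)

theorem isFunOf_uEl (hp : 5 ≤ p) : IsFunOf (uEl hp) ⟨uFun p, uFun_mem (by omega)⟩ :=
  qL_eq_of_expands (expands_uBar hp)

theorem isFunOf_fEl (hp : 5 ≤ p) : IsFunOf (fEl hp) ⟨fFun p, fFun_mem hp⟩ :=
  qL_eq_of_expands (expands_fBar hp)

theorem isFunOf_hEl (hp : 5 ≤ p) (a : ℤ) :
    IsFunOf (hEl hp a) ⟨hFun p (a : ℂ), hFun_mem (by omega) _⟩ :=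
  qL_eq_of_expands (expands_hBar a)

omit [Fact (Nat.Prime p)] in
theorem IsFunOf.sub_const {e : FF} {g : modFunRing p} (h : IsFunOf e g) (c : Qbar) :
    IsFunOf (e - algebraMap Qbar FF c) (g - algebraMap ℂ _ (iotaC c)) := by
  simp only [IsFunOf, map_sub, AlgHom.commutes, AddSubgroupClass.coe_sub, algebraMap_field_coe,
    coeffMap_single, algebraMap_laurentSeries_eq_single] at h ⊢
  rw [h]

omit [Fact (Nat.Prime p)] in
theorem IsFunOf.fieldEmb {e : FF} {g : modFunRing p} (h : IsFunOf e g)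
    (χ : modFunRing p →ₐ[ℂ] LaurentSeries ℂ) (hχ : Function.Injective χ) :
    Genus.fieldEmb iotaC χ hχ e = χ g :=
  fieldEmb_eq _ _ _ h

/-- The inclusion in the series. -/
def serHom : FF →+* LaurentSeries Qbar := (FF).val.toRingHom

omit [Fact (Nat.Prime p)] in
theorem over_serHom : Over (RingHom.id Qbar) (serHom (p := p)) := fun a =>
  algebraMap_field_coe (N := p) a

omit [Fact (Nat.Prime p)] in
theorem order_jEl_inv : (serHom (jEl Qbar p)⁻¹).order = 1 := by
  rw [map_inv₀, Genus.order_inv']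
  show -(jqModC Qbar).order = 1
  have h1 : (jqModC Qbar).coeff (-1) = 1 := coeff_jqModC_neg_one _
  rw [le_antisymm (HahnSeries.order_le_of_coeff_ne_zero (by rw [h1]; exact one_ne_zero))
    ((HahnSeries.le_order_iff_forall (HahnSeries.ne_zero_of_coeff_ne_zero
      (by rw [h1]; exact one_ne_zero))).mpr fun k hk => coeff_jqModC_of_lt _ hk)]
  ring

/-- The cusp of the `q`-expansion. -/
def placeInf : Place Qbar FF :=
  placeOfEmb serHom over_serHom ⟨(jEl Qbar p)⁻¹, by rw [order_jEl_inv]; exact one_pos⟩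

omit [Fact (Nat.Prime p)] in
theorem ord_placeInf (e : FF) :
    (placeInf (p := p)).ord e = (e : LaurentSeries Qbar).order := by
  obtain ⟨k, hk⟩ := exists_induces_placeOfEmb serHom (over_serHom (p := p))
    ⟨(jEl Qbar p)⁻¹, by rw [order_jEl_inv]; exact one_pos⟩
  have h1 := (hk.2 (jEl Qbar p)⁻¹).symm.trans order_jEl_inv
  have hk1 : k = 1 := Int.eq_one_of_mul_eq_one_right hk.1.le h1
  have h2 := hk.2 e
  rw [hk1, one_mul] at h2
  exact h2.symm

omit [NeZero p] in
theorem cuspCount_prime : cuspCount p = 2 := by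
  have hp : p.Prime := Fact.out
  rw [cuspCount, hp.divisors, Finset.sum_pair hp.one_lt.ne]
  simp [Nat.div_self hp.pos]

theorem order_uSer (hp : 5 ≤ p) :
    (uSer p (zetaBar p)).order = -(half p : ℤ) ∧ uSer p (zetaBar p) ≠ 0 := by
  set φ : PowerSeries Qbar := dSer p (zetaBar p) ^ 3 * etaInvSer Qbar ^ half p with hφ
  have hd : PowerSeries.constantCoeff (dSer p (zetaBar p)) ≠ 0 := by
    intro h0
    refine constantCoeff_dSer_ne_zero (p := p) hp ?_
    rw [← iotaC_zetaBar, ← map_dSer, ← PowerSeries.coeff_zero_eq_constantCoeff_apply,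
      PowerSeries.coeff_map, PowerSeries.coeff_zero_eq_constantCoeff_apply, h0, map_zero]
  have he : PowerSeries.constantCoeff (etaInvSer Qbar) = 1 := by
    rw [etaInvSer, ← PowerSeries.coeff_zero_eq_constantCoeff_apply, PowerSeries.coeff_map,
      PowerSeries.coeff_zero_eq_constantCoeff_apply, constantCoeff_dedekindEtaUnitInv]
    simp
  have hc : (uSer p (zetaBar p)).coeff (-(half p : ℤ)) ≠ 0 := by
    rw [uSer, HahnSeries.coeff_single_mul, one_mul, sub_self, ← hφ,
      show (0 : ℤ) = ((0 : ℕ) : ℤ) from rfl, HahnSeries.ofPowerSeries_apply_coeff,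
      PowerSeries.coeff_zero_eq_constantCoeff_apply, hφ, map_mul, map_pow, map_pow, he, one_pow,
      mul_one]
    exact pow_ne_zero 3 hd
  have hne := HahnSeries.ne_zero_of_coeff_ne_zero hc
  refine ⟨le_antisymm (HahnSeries.order_le_of_coeff_ne_zero hc)
    ((HahnSeries.le_order_iff_forall hne).mpr fun k hk => ?_), hne⟩
  rw [uSer, HahnSeries.coeff_single_mul, one_mul, ofPowerSeries_coeff_of_neg _ (by omega)]

theorem uEl_ne_zero (hp : 5 ≤ p) : uEl (p := p) hp ≠ 0 := fun h =>
  (order_uSer hp).2 (congrArg Subtype.val h)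

theorem ord_uEl_placeInf (hp : 5 ≤ p) : (placeInf (p := p)).ord (uEl hp) = -(half p : ℤ) :=
  (ord_placeInf _).trans (order_uSer hp).1

omit [NeZero p] [Fact (Nat.Prime p)] in
theorem half_pos (hp : 5 ≤ p) : 0 < half p := by
  simp only [half]
  omega

omit [Fact (Nat.Prime p)] in
theorem ord_point_nonneg {e : FF} {g : modFunRing p} (h : IsFunOf e g) {z : ℍ} {q : Cosets p}
    {v : Place Qbar FF} {k : ℤ}
    (hv : Induces (Genus.fieldEmb iotaC (Genus.pointHom z q) (pointHom_injective z q)) v k) :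
    0 ≤ v.ord e := by
  have := hv.2 e
  rw [h.fieldEmb, pointHom_apply] at this
  exact nonneg_of_mul_nonneg_right (this ▸ order_diskSeries_nonneg _ _) hv.1

theorem ord_uEl_of_not_cusp (hp : 5 ≤ p) {v : Place Qbar FF}
    (hv : ¬ 0 < v.ord (jEl Qbar p)⁻¹) : v.ord (uEl hp) = 0 := by
  rcases exists_point_or_cusp iotaC v with ⟨a, z, q, k, -, hk⟩ | ⟨q, k, hk⟩
  · have := hk.2 (uEl hp)
    rw [(isFunOf_uEl hp).fieldEmb, pointHom_apply,
      (order_diskSeries_eq_zero z (g := cosetFun q (uFun p)) (uFun_ne_zero hp _)).1] at this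
    exact (mul_eq_zero.mp this.symm).resolve_left hk.1.ne'
  · exfalso
    apply hv
    have h := hk.2 (jEl Qbar p)⁻¹
    rw [map_inv₀, fieldEmb_jEl, cuspHom_jFun, Genus.order_inv', order_qExpand_jqModC, neg_neg] at h
    exact pos_of_mul_pos_right (h ▸ Int.natCast_pos.mpr (Nat.pos_of_ne_zero (NeZero.ne p))) hk.1.le

theorem exists_placeZero (hp : 5 ≤ p) : ∃ w : Place Qbar FF,
    w ≠ placeInf ∧ w.ord (uEl hp) = half p ∧
      (∀ v, v ≠ w → v ≠ placeInf → v.ord (uEl hp) = 0) ∧
      (∀ v, 0 < v.ord (jEl Qbar p)⁻¹ → v = w ∨ v = placeInf) := by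
  classical
  have hres := hasResidueK_modular (K := Qbar) (N := p)
  have := isFunctionField_modularFunctionFieldC (K := Qbar) (N := p)
  have hmem := mem_cuspPlaces (K := Qbar) (N := p) iotaC
  have hinf : placeInf ∈ (cuspData (N := p) iotaC).placesOver := by
    rw [hmem, ord_placeInf, show (((jEl Qbar p)⁻¹ : FF) : LaurentSeries Qbar) =
      serHom (jEl Qbar p)⁻¹ from rfl, order_jEl_inv]
    exact one_pos
  have hcard := card_cusp_places (K := Qbar) (N := p) iotaC
  rw [cuspCount_prime] at hcard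
  obtain ⟨w, hw, hwne⟩ := Finset.exists_mem_ne (s := (cuspData (N := p) iotaC).placesOver)
    (by omega) (placeInf (p := p))
  have hcases : ∀ v, 0 < v.ord (jEl Qbar p)⁻¹ → v = w ∨ v = placeInf := by
    intro v hv
    have hsub : ({w, placeInf} : Finset (Place Qbar FF)) ⊆ (cuspData iotaC).placesOver := by
      simp [Finset.insert_subset_iff, hw, hinf]
    have := Finset.eq_of_subset_of_card_le hsub (by rw [hcard, Finset.card_pair hwne])
    have hv' := (hmem v).mpr hv
    rw [← this] at hv'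
    simpa using hv'
  have hzero : ∀ v, v ≠ w → v ≠ placeInf → v.ord (uEl hp) = 0 := fun v h1 h2 =>
    ord_uEl_of_not_cusp hp fun hv => (hcases v hv).elim h1 h2
  obtain ⟨D, hD, hdeg⟩ := HasPrincipalDivisors.exists_divisor (K := Qbar) (uEl (p := p) hp)
    (uEl_ne_zero hp)
  have hDeq : D = Finsupp.single w (w.ord (uEl hp)) + Finsupp.single placeInf (-(half p : ℤ)) := by
    ext v
    rw [hD v, Finsupp.add_apply]
    by_cases h1 : v = w
    · subst h1
      rw [Finsupp.single_eq_same, Finsupp.single_eq_of_ne hwne, add_zero]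
    by_cases h2 : v = placeInf
    · subst h2
      rw [Finsupp.single_eq_same, Finsupp.single_eq_of_ne (Ne.symm hwne), zero_add,
        ord_uEl_placeInf]
    rw [hzero v h1 h2, Finsupp.single_eq_of_ne h1, Finsupp.single_eq_of_ne h2, add_zero]
  rw [hDeq, map_add, Divisor.degree_single, Divisor.degree_single,
    FunctionField.deg_eq_one, FunctionField.deg_eq_one, Nat.cast_one, mul_one, mul_one] at hdeg
  exact ⟨w, hwne, by omega, hzero, hcases⟩

/-- The other cusp. -/
def placeZero (hp : 5 ≤ p) : Place Qbar FF := (exists_placeZero hp).choose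

theorem placeZero_ne (hp : 5 ≤ p) : placeZero (p := p) hp ≠ placeInf :=
  (exists_placeZero hp).choose_spec.1

theorem ord_uEl_placeZero (hp : 5 ≤ p) : (placeZero (p := p) hp).ord (uEl hp) = half p :=
  (exists_placeZero hp).choose_spec.2.1

theorem ord_uEl_eq_zero (hp : 5 ≤ p) {v : Place Qbar FF} (h : v ≠ placeZero hp)
    (h' : v ≠ placeInf) : v.ord (uEl hp) = 0 :=
  (exists_placeZero hp).choose_spec.2.2.1 v h h'

theorem eq_placeZero_of_ord_pos (hp : 5 ≤ p) {v : Place Qbar FF} (h : 0 < v.ord (uEl hp)) :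
    v = placeZero hp := by
  by_contra hne
  by_cases h' : v = placeInf
  · rw [h', ord_uEl_placeInf] at h
    omega
  · rw [ord_uEl_eq_zero hp hne h'] at h
    exact lt_irrefl _ h

theorem eq_cusp (hp : 5 ≤ p) {v : Place Qbar FF} (h : 0 < v.ord (jEl Qbar p)⁻¹) :
    v = placeZero hp ∨ v = placeInf :=
  (exists_placeZero hp).choose_spec.2.2.2 v h

/-- `f` is regular away from the cusp `0`. -/
theorem ord_fEl_nonneg (hp : 5 ≤ p) {v : Place Qbar FF} (hv : v ≠ placeZero hp) :
    0 ≤ v.ord (fEl hp) := by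
  by_cases h' : v = placeInf
  · subst h'
    rw [ord_placeInf]
    show 0 ≤ (fSer p (zetaBar p)).order
    rcases eq_or_ne (fSer p (zetaBar p)) 0 with h0 | h0
    · rw [h0, HahnSeries.order_zero]
    · exact (HahnSeries.le_order_iff_forall h0).mpr fun k hk => ofPowerSeries_coeff_of_neg _ hk
  rcases exists_point_or_cusp iotaC v with ⟨a, z, q, k, -, hk⟩ | ⟨q, k, hk⟩
  · exact ord_point_nonneg (isFunOf_fEl hp) hk
  · exfalso
    have h := hk.2 (jEl Qbar p)⁻¹
    rw [map_inv₀, fieldEmb_jEl, cuspHom_jFun, Genus.order_inv', order_qExpand_jqModC, neg_neg] at h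
    rcases eq_cusp hp (pos_of_mul_pos_right
      (h ▸ Int.natCast_pos.mpr (Nat.pos_of_ne_zero (NeZero.ne p))) hk.1.le) with e | e
    · exact hv e
    · exact h' e

end FLTAgent.Mazur
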