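/-
The cusps of `X₀(p)` in `modularFunctionFieldBar p` and their difference class.
-/
import Fermat.Prelude.Def_ModularCurve_ArithmeticGalois
import Fermat.Agent.Mazur.Field

set_option autoImplicit false

noncomputable section

open ModularCurve AlgebraicCurve

namespace FLTAgent.Mazur

open FLTAgent.ModPoly FLTAgent.Genus

section Transport

variable {K L : Type*} [Field K] [Field L] [Algebra K L] {F F' : IntermediateField K L}

/-- An element transported along an equality of intermediate fields. -/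
def transEl (h : F = F') (x : F) : F' := ⟨x, h ▸ x.2⟩

theorem transEl_eq (h : F = F') {x : F} {y : F'} (e : (x : L) = (y : L)) : transEl h x = y :=
  Subtype.ext e

/-- The inclusion given by an equality of intermediate fields. -/
def transHom (h : F = F') : F →+* F' where
  toFun := transEl h
  map_one' := rfl
  map_mul' _ _ := rfl
  map_zero' := rfl
  map_add' _ _ := rfl

theorem comap_transHom_self (v : Place K F) (h : F = F) :
    v.toValuationSubring.comap (transHom h) = v.toValuationSubring :=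
  SetLike.ext fun _ => Iff.rfl

/-- A place transported along an equality of intermediate fields. -/
def transPlace (h : F = F') (v : Place K F') : Place K F where
  toValuationSubring := v.toValuationSubring.comap (transHom h)
  algebraMap_mem' := by
    subst h
    rw [comap_transHom_self]
    exact v.algebraMap_mem'
  ne_top' := by
    subst h
    rw [comap_transHom_self]
    exact v.ne_top'
  isPrincipalIdealRing' := by
    subst h
    rw [comap_transHom_self]
    exact v.isPrincipalIdealRing'

theorem transPlace_self (v : Place K F) (h : F = F) : transPlace h v = v :=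
  Place.ext (comap_transHom_self v h)

theorem ord_transPlace (h : F = F') (v : Place K F') (x : F) :
    (transPlace h v).ord x = v.ord (transEl h x) := by
  subst h
  rw [transPlace_self]
  rfl

theorem transPlace_surjective (h : F = F') : Function.Surjective (transPlace (K := K) h) := by
  subst h
  exact fun v => ⟨v, transPlace_self v rfl⟩

theorem place_ext_of_ord {F₁ : Type*} [Field F₁] [Algebra K F₁] {v w : Place K F₁}
    (h : ∀ f, v.ord f = w.ord f) : v = w :=
  Place.ext (SetLike.ext fun f => by rw [mem_iff_ord_nonneg, mem_iff_ord_nonneg, h])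

end Transport

local notation "Qbar" => AlgebraicClosure ℚ

variable {p : ℕ} [NeZero p] [Fact p.Prime]

local notation "FB" => modularFunctionFieldBar p

omit [Fact (Nat.Prime p)] in
theorem bar_eq : FB = modularFunctionFieldC Qbar p := modularFunctionFieldBar_eq p

/-- Transport of a place to `modularFunctionFieldBar p`. -/
def toBar (v : Place Qbar (modularFunctionFieldC Qbar p)) : Place Qbar FB := transPlace bar_eq v

/-- An element seen in `Q̄(j, j_p)`. -/
def ofBar (x : FB) : modularFunctionFieldC Qbar p :=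
  transEl bar_eq x

theorem ord_toBar (v : Place Qbar (modularFunctionFieldC Qbar p)) (x : FB) :
    (toBar v).ord x = v.ord (ofBar x) :=
  ord_transPlace bar_eq v x

variable (p) in
/-- The cusp of the `q`-expansion. -/
def cuspInf : Place Qbar FB := toBar placeInf

/-- The other cusp. -/
def cuspZero (hp : 5 ≤ p) : Place Qbar FB := toBar (placeZero hp)

theorem ord_cuspInf (x : FB) : (cuspInf p).ord x = (x : LaurentSeries Qbar).order :=
  (ord_toBar _ _).trans (ord_placeInf _)

theorem uSer_mem (hp : 5 ≤ p) : uSer p (zetaBar p) ∈ FB :=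
  (bar_eq (p := p)).symm ▸ (uEl (p := p) hp).2

theorem fSer_mem (hp : 5 ≤ p) : fSer p (zetaBar p) ∈ FB :=
  (bar_eq (p := p)).symm ▸ (fEl (p := p) hp).2

/-- The unit `D³/Δ^m`. -/
def uBar (hp : 5 ≤ p) : FB := ⟨uSer p (zetaBar p), uSer_mem hp⟩

/-- `E₄^m/D`. -/
def fBar (hp : 5 ≤ p) : FB := ⟨fSer p (zetaBar p), fSer_mem hp⟩

theorem ofBar_uBar (hp : 5 ≤ p) : ofBar (uBar (p := p) hp) = uEl hp := transEl_eq bar_eq rfl

theorem ofBar_fBar (hp : 5 ≤ p) : ofBar (fBar (p := p) hp) = fEl hp := transEl_eq bar_eq rfl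

theorem toBar_surjective : Function.Surjective (toBar (p := p)) := transPlace_surjective bar_eq

theorem uBar_ne_zero (hp : 5 ≤ p) : uBar (p := p) hp ≠ 0 := fun h =>
  (order_uSer hp).2 (congrArg Subtype.val h)

theorem ord_uBar_cuspInf (hp : 5 ≤ p) : (cuspInf p).ord (uBar hp) = -(half p : ℤ) :=
  by rw [cuspInf, ord_toBar, ofBar_uBar, ord_uEl_placeInf]

theorem ord_uBar_cuspZero (hp : 5 ≤ p) : (cuspZero (p := p) hp).ord (uBar hp) = half p :=
  by rw [cuspZero, ord_toBar, ofBar_uBar, ord_uEl_placeZero]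

theorem cuspZero_ne (hp : 5 ≤ p) : cuspZero (p := p) hp ≠ cuspInf p := fun e => by
  have h1 := ord_uBar_cuspZero (p := p) hp
  rw [e, ord_uBar_cuspInf] at h1
  have := half_pos hp
  omega

theorem eq_cuspZero_of_ord_pos (hp : 5 ≤ p) {v : Place Qbar FB} (h : 0 < v.ord (uBar hp)) :
    v = cuspZero hp := by
  obtain ⟨v, rfl⟩ := toBar_surjective v
  rw [ord_toBar, ofBar_uBar] at h
  exact congrArg toBar (eq_placeZero_of_ord_pos hp h)

theorem ord_uBar_eq_zero (hp : 5 ≤ p) {v : Place Qbar FB} (h : v ≠ cuspZero hp)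
    (h' : v ≠ cuspInf p) : v.ord (uBar hp) = 0 := by
  obtain ⟨v, rfl⟩ := toBar_surjective v
  rw [ord_toBar, ofBar_uBar]
  exact ord_uEl_eq_zero hp (fun e => h (congrArg toBar e)) fun e => h' (congrArg toBar e)

theorem ord_fBar_nonneg (hp : 5 ≤ p) {v : Place Qbar FB} (h : v ≠ cuspZero hp) :
    0 ≤ v.ord (fBar hp) := by
  obtain ⟨v, rfl⟩ := toBar_surjective v
  rw [ord_toBar, ofBar_fBar]
  exact ord_fEl_nonneg hp fun e => h (congrArg toBar e)

theorem deg_eq_one_bar (v : Place Qbar FB) : v.deg = 1 := by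
  have key : ∀ (F : IntermediateField Qbar (LaurentSeries Qbar)),
      F = modularFunctionFieldC Qbar p → ∀ v : Place Qbar F, v.deg = 1 := by
    rintro F rfl v
    have := isFunctionField_modularFunctionFieldC (K := Qbar) (N := p)
    exact FunctionField.deg_eq_one v
  exact key _ bar_eq v

theorem exists_galois_unit (σ : Qbar ≃ₐ[ℚ] Qbar) :
    ∃ u : (ZMod p)ˣ, σ (zetaBar p) = zPow (zetaBar p) (u : ZMod p) := by
  have hζ := isPrimitiveRoot_zetaBar (p := p)
  obtain ⟨i, hi, he⟩ := hζ.eq_pow_of_pow_eq_one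
    (ξ := σ (zetaBar p)) (by rw [← map_pow, hζ.pow_eq_one, map_one])
  have hne : (i : ZMod p) ≠ 0 := fun h0 => by
    have hi0 : i = 0 := Nat.eq_zero_of_dvd_of_lt ((ZMod.natCast_eq_zero_iff i p).mp h0) hi
    rw [hi0, pow_zero] at he
    exact hζ.ne_one (Fact.out : p.Prime).one_lt (σ.injective (by rw [← he, map_one]))
  exact ⟨Units.mk0 _ hne, by rw [Units.val_mk0, zPow, ZMod.val_natCast_of_lt hi, he]⟩

theorem coeffMap_galois_uSer (σ : Qbar ≃ₐ[ℚ] Qbar) :
    coeffMap (σ : Qbar →+* Qbar) (uSer p (zetaBar p)) = uSer p (zetaBar p) := by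
  obtain ⟨u, hu⟩ := exists_galois_unit (p := p) σ
  rw [coeffMap_uSer, show (σ : Qbar →+* Qbar) (zetaBar p) = zPow (zetaBar p) (u : ZMod p) from hu,
    uSer, dSer_zPow isPrimitiveRoot_zetaBar.pow_eq_one]
  rfl

theorem coeffMap_galois_hSer (σ : Qbar ≃ₐ[ℚ] Qbar) (a : ℤ) :
    coeffMap (σ : Qbar →+* Qbar) (hSer p (a : Qbar) (zetaBar p)) =
      hSer p (a : Qbar) (zetaBar p) := by
  obtain ⟨u, hu⟩ := exists_galois_unit (p := p) σ
  rw [coeffMap_hSer, map_intCast,
    show (σ : Qbar →+* Qbar) (zetaBar p) = zPow (zetaBar p) (u : ZMod p) from hu,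
    hSer, hPS_zPow _ isPrimitiveRoot_zetaBar.pow_eq_one]
  rfl

theorem order_coeffMap_galois (σ : Qbar ≃ₐ[ℚ] Qbar) (x : LaurentSeries Qbar) :
    (coeffMap (σ : Qbar →+* Qbar) x).order = x.order := by
  rcases eq_or_ne x 0 with rfl | hx
  · simp
  have hne : coeffMap (σ : Qbar →+* Qbar) x ≠ 0 := (map_ne_zero _).mpr hx
  refine le_antisymm ?_ ?_
  · refine HahnSeries.order_le_of_coeff_ne_zero ?_
    rw [coeffMap_coeff]
    exact (map_ne_zero _).mpr (HahnSeries.coeff_order_eq_zero.not.mpr hx)
  · refine (HahnSeries.le_order_iff_forall hne).mpr fun k hk => ?_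
    rw [coeffMap_coeff, HahnSeries.coeff_eq_zero_of_lt_order hk, map_zero]

theorem galois_smul_cuspInf (σ : Qbar ≃ₐ[ℚ] Qbar) :
    arithmeticGalois (modularFunctionFieldFull p) σ • cuspInf p = cuspInf p := by
  set g := arithmeticGalois (modularFunctionFieldFull p) σ
  refine place_ext_of_ord fun f => ?_
  have := SemilinearAut.ord_smul g (cuspInf p) (g⁻¹ • f)
  rw [smul_inv_smul] at this
  rw [this, ord_cuspInf, ord_cuspInf]
  conv_rhs => rw [← smul_inv_smul g f]
  rw [coe_arithmeticGalois_smul, order_coeffMap_galois]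

theorem galois_smul_uBar (hp : 5 ≤ p) (σ : Qbar ≃ₐ[ℚ] Qbar) :
    arithmeticGalois (modularFunctionFieldFull p) σ • uBar (p := p) hp = uBar hp :=
  Subtype.ext ((coe_arithmeticGalois_smul _ σ _).trans (coeffMap_galois_uSer σ))

theorem galois_smul_cuspZero (hp : 5 ≤ p) (σ : Qbar ≃ₐ[ℚ] Qbar) :
    arithmeticGalois (modularFunctionFieldFull p) σ • cuspZero (p := p) hp = cuspZero hp := by
  set g := arithmeticGalois (modularFunctionFieldFull p) σ
  refine eq_cuspZero_of_ord_pos hp ?_
  have := SemilinearAut.ord_smul g (cuspZero (p := p) hp) (uBar hp)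
  rw [galois_smul_uBar hp σ] at this
  rw [this, ord_uBar_cuspZero]
  exact_mod_cast half_pos hp

/-- `v - w` as a divisor of degree zero. -/
def diffDiv (v w : Place Qbar FB) : Divisor.degZero (K := Qbar) (F := FB) :=
  ⟨Finsupp.single v 1 - Finsupp.single w 1, by
    rw [Divisor.mem_degZero, map_sub, Divisor.degree_single, Divisor.degree_single,
      deg_eq_one_bar, deg_eq_one_bar, sub_self]⟩

/-- The class of `v - w`. -/
def diffClass (v w : Place Qbar FB) : JZero p := Pic0.mk (diffDiv v w)

/-- The class of `∞ - 0`. -/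
def cuspClass (hp : 5 ≤ p) : JZero p := diffClass (cuspInf p) (cuspZero hp)

theorem galois_smul_diffClass {v w : Place Qbar FB} (σ : Qbar ≃ₐ[ℚ] Qbar)
    (hv : arithmeticGalois (modularFunctionFieldFull p) σ • v = v)
    (hw : arithmeticGalois (modularFunctionFieldFull p) σ • w = w) :
    σ • diffClass v w = diffClass v w := by
  rw [galois_smul_pic0_def, diffClass, SemilinearAut.pic0_smul_mk]
  refine congrArg Pic0.mk (Subtype.ext ?_)
  rw [SemilinearAut.coe_degZeroSMulHom, diffDiv, smul_sub, SemilinearAut.smul_single,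
    SemilinearAut.smul_single, hv, hw]

theorem galois_smul_cuspClass (hp : 5 ≤ p) (σ : Qbar ≃ₐ[ℚ] Qbar) :
    σ • cuspClass (p := p) hp = cuspClass hp :=
  galois_smul_diffClass σ (galois_smul_cuspInf σ) (galois_smul_cuspZero hp σ)

theorem half_nsmul_cuspClass (hp : 5 ≤ p) : half p • cuspClass (p := p) hp = 0 := by
  have hk : half p • diffDiv (cuspInf p) (cuspZero hp) ∈
      (Divisor.principal (K := Qbar) (F := FB)).addSubgroupOf
        (Divisor.degZero (K := Qbar) (F := FB)) := by
    rw [AddSubgroup.mem_addSubgroupOf, AddSubgroupClass.coe_nsmul]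
    refine ⟨(uBar (p := p) hp)⁻¹, inv_ne_zero (uBar_ne_zero hp), fun v => ?_⟩
    rw [Finsupp.smul_apply, diffDiv, Finsupp.sub_apply, v.ord_inv]
    have hne := cuspZero_ne (p := p) hp
    by_cases h1 : v = cuspInf p
    · subst h1
      rw [Finsupp.single_eq_same, Finsupp.single_eq_of_ne (Ne.symm hne), ord_uBar_cuspInf]
      simp
    by_cases h2 : v = cuspZero hp
    · subst h2
      rw [Finsupp.single_eq_same, Finsupp.single_eq_of_ne hne, ord_uBar_cuspZero]
      simp
    rw [Finsupp.single_eq_of_ne h1, Finsupp.single_eq_of_ne h2, ord_uBar_eq_zero hp h2 h1]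
    simp
  exact (QuotientAddGroup.eq_zero_iff _).mpr hk

end FLTAgent.Mazur
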