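/-
A place where an integral function takes a non-integral value reduces to its pole.
-/
import Fermat.Prelude.Def_ModularCurve_ReductionModL
import Fermat.Agent.FunctionField.Principal
import Fermat.Agent.Mazur.Cusps

set_option autoImplicit false
set_option synthInstance.maxHeartbeats 400000

noncomputable section

open ModularCurve AlgebraicCurve

namespace FLTAgent.Mazur

open FLTAgent.ModPoly FLTAgent.Genus

local notation "Qbar" => AlgebraicClosure ℚ

variable {p : ℕ} [NeZero p] [Fact p.Prime]

local notation "FB" => modularFunctionFieldBar p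

omit [Fact p.Prime] in
theorem hasPrincipalDivisors_bar : HasPrincipalDivisors Qbar FB := by
  have key : ∀ (F : IntermediateField Qbar (LaurentSeries Qbar)),
      F = modularFunctionFieldC Qbar p → HasPrincipalDivisors Qbar F := by
    rintro F rfl
    have := isFunctionField_modularFunctionFieldC (K := Qbar) (N := p)
    infer_instance
  exact key _ (modularFunctionFieldBar_eq p)

omit [Fact p.Prime] in
/-- The rational functions with a pole at one place only: `r` sends the fibre over a value that is
not integral to the reduction of the pole. -/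
theorem reduction_eq_of_pole {A : ValuationSubring Qbar}
    {r : Place Qbar (laurentBaseChange Qbar (modularFunctionFieldFull p)) →
      Place (IsLocalRing.ResidueField A) (modularFunctionFieldFullC (IsLocalRing.ResidueField A) p)}
    (hr : IsPlaceReductionModL A p r) {g : FB}
    (hlift : ∃ y : LaurentSeries A, coeffMap A.subtype y = (g : LaurentSeries Qbar))
    {a : Qbar} (ha : a ∉ A) {x c : Place Qbar FB}
    (hx : g - algebraMap Qbar FB a = 0 ∨ 0 < x.ord (g - algebraMap Qbar FB a))
    (hpole : ∀ v : Place Qbar FB, v ≠ c → 0 ≤ v.ord g) :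
    r x = r c := by
  classical
  obtain ⟨y, hy⟩ := hlift
  set z := g - algebraMap Qbar FB a with hz
  have hz0 : z ≠ 0 := by
    intro h
    have h1 : (g : LaurentSeries Qbar) = algebraMap Qbar (LaurentSeries Qbar) a :=
      congrArg Subtype.val (sub_eq_zero.mp h)
    refine ha ?_
    have h2 := congrArg (fun s : LaurentSeries Qbar => s.coeff 0) (hy.trans h1)
    simp only [coeffMap_coeff, algebraMap_laurentSeries_eq_single, HahnSeries.coeff_single_same]
      at h2
    exact h2 ▸ (y.coeff 0).2
  replace hx := hx.resolve_left hz0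
  have haA : a⁻¹ ∈ A := (A.mem_or_inv_mem a).resolve_left ha
  have ha0 : a ≠ 0 := fun h => ha (h ▸ zero_mem A)
  set y' : LaurentSeries A := HahnSeries.single 0 (⟨a⁻¹, haA⟩ : A) * y - 1 with hy'
  set g' : FB := algebraMap Qbar FB a⁻¹ * z with hg'
  have hy'' : coeffMap A.subtype y' = (g' : LaurentSeries Qbar) := by
    rw [hy', map_sub, map_mul, map_one, coeffMap_single, hy, hg', hz]
    push_cast
    rw [mul_sub]
    congr 1
    · congr 1
      rw [← map_inv₀, algebraMap_laurentSeries_eq_single]
      rfl
    · rw [← map_inv₀, ← map_mul, inv_mul_cancel₀ ha0, map_one]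
  have hred : coeffMap (IsLocalRing.residue A) y' = -1 := by
    have hu : IsLocalRing.residue A (⟨a⁻¹, haA⟩ : A) = 0 := by
      rw [IsLocalRing.residue_eq_zero_iff, IsLocalRing.mem_maximalIdeal, mem_nonunits_iff]
      intro hu
      obtain ⟨w, hw⟩ := hu.exists_left_inv
      refine ha ?_
      have e := congrArg Subtype.val hw
      push_cast at e
      rw [← div_eq_mul_inv, div_eq_one_iff_eq ha0] at e
      exact e ▸ w.2
    rw [hy', map_sub, map_mul, map_one, coeffMap_single, hu, HahnSeries.single_eq_zero,
      zero_mul, zero_sub]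
  have hmem : coeffMap A.subtype y' ∈ laurentBaseChange Qbar (modularFunctionFieldFull p) :=
    hy'' ▸ g'.2
  have hmemk : coeffMap (IsLocalRing.residue A) y' ∈
      modularFunctionFieldFullC (IsLocalRing.ResidueField A) p := hred ▸ neg_mem (one_mem _)
  have := hasPrincipalDivisors_bar (p := p)
  obtain ⟨D, hD, -⟩ := HasPrincipalDivisors.exists_divisor (K := Qbar) z hz0
  have hD' : ∀ v : Place Qbar FB, D v = v.ord (⟨coeffMap A.subtype y', hmem⟩ : FB) := by
    intro v
    rw [show (⟨coeffMap A.subtype y', hmem⟩ : FB) = g' from Subtype.ext hy'', hg',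
      v.ord_mul ((map_ne_zero _).mpr (inv_ne_zero ha0)) hz0, FLTAgent.FunctionField.ord_algebraMap, zero_add, hD]
  have hmap := hr.2 y' hmem hmemk (hred ▸ neg_ne_zero.mpr one_ne_zero) D hD' (r x)
  have hord : (r x).ord (⟨coeffMap (IsLocalRing.residue A) y', hmemk⟩ :
      modularFunctionFieldFullC (IsLocalRing.ResidueField A) p) = 0 := by
    rw [show (⟨coeffMap (IsLocalRing.residue A) y', hmemk⟩ :
      modularFunctionFieldFullC (IsLocalRing.ResidueField A) p) = -1 from Subtype.ext hred,
      FLTAgent.FunctionField.ord_neg, Place.ord_one]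
  rw [hord] at hmap
  by_contra hne
  have hnn : ∀ v : Place Qbar FB, v ≠ c → 0 ≤ D v := by
    intro v hv
    rw [hD, ← FLTAgent.Genus.mem_iff_ord_nonneg, hz]
    exact sub_mem ((FLTAgent.Genus.mem_iff_ord_nonneg v g).mpr (hpole v hv)) (v.algebraMap_mem' a)
  rw [Finsupp.mapDomain, Finsupp.sum, Finsupp.finsetSum_apply] at hmap
  refine hmap.not_gt (Finset.sum_pos' (fun v _ => ?_) ⟨x, ?_, ?_⟩)
  · rw [Finsupp.single_apply]
    split_ifs with e
    · exact hnn v fun hvc => hne (hvc ▸ e.symm)
    · exact le_rfl
  · rw [Finsupp.mem_support_iff, hD]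
    exact hx.ne'
  · rw [Finsupp.single_eq_same, hD]
    exact hx

end FLTAgent.Mazur
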