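/-
The values of `u`, `f`, `h_a` at the point of `X₀(p)` given by a rational point of order `p`.
-/
import Fermat.Prelude.Def_FLTPrelim_GaloisRep
import Fermat.Agent.Reduction.IntModel
import Fermat.Agent.Mazur.Field

set_option autoImplicit false

noncomputable section

open WeierstrassCurve
open WeierstrassCurve.Affine (Point)
open UpperHalfPlane hiding I
open scoped Real

namespace FLTAgent.Mazur

open FLTAgent.EllParam FLTAgent.ModPoly
open FLTAgent.Reduction (WQbar WQbar_eq)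

local notation "Qbar" => AlgebraicClosure ℚ

/-- The abscissa of a point (`0` for the origin). -/
def xCoord {K : Type*} [CommRing K] {W : Affine K} : W.Point → K
  | .zero => 0
  | .some x _ _ => x

theorem xCoord_some {K : Type*} [CommRing K] {W : Affine K} {x y : K} (h : W.Nonsingular x y) :
    xCoord (.some x y h) = x := rfl

variable {p : ℕ} [NeZero p] (W : WeierstrassCurve ℤ) (Q : (WQbar W).toAffine.Point)

/-- `x(kQ)`. -/
def xk (k : ZMod p) : Qbar := xCoord (k.val • Q)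

/-- `∏ (x(kQ) - x(2kQ))`. -/
def pVal [Fact p.Prime] : Qbar :=
  ∏ k : (ZMod p)ˣ, (xk W Q (k : ZMod p) - xk W Q (2 * (k : ZMod p)))

variable (p) in
/-- The value of `u`. -/
def uVal [Fact p.Prime] : Qbar := pVal (p := p) W Q ^ 3 / (W.Δ : Qbar) ^ half p

variable (p) in
/-- The value of `f`. -/
def fVal [Fact p.Prime] : Qbar := (W.c₄ : Qbar) ^ half p / pVal (p := p) W Q

variable (p) in
/-- The value of `h_a`. -/
def hVal [Fact p.Prime] (a : ℤ) : Qbar :=
  (∏ k : (ZMod p)ˣ, ((12 * xk W Q (k : ZMod p) + W.b₂) * W.c₄ + a * W.c₆)) /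
    (W.Δ : Qbar) ^ half p

omit [NeZero p] in
theorem galois_xk (σ : Qbar ≃ₐ[ℚ] Qbar) (hQ : σ • Q = Q) (k : ZMod p) :
    σ (xk W Q k) = xk W Q k := by
  have h : σ • (k.val • Q) = k.val • Q :=
    (map_nsmul (DistribSMul.toAddMonoidHom _ σ) k.val Q).trans (congrArg (k.val • ·) hQ)
  unfold xk
  cases hP : k.val • Q with
  | zero => exact map_zero σ
  | some x y hxy =>
    rw [hP, Reduction.smul_some] at h
    exact (Point.some.inj h).1

theorem galois_hVal [Fact p.Prime] (σ : Qbar ≃ₐ[ℚ] Qbar) (hQ : σ • Q = Q) (a : ℤ) :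
    σ (hVal p W Q a) = hVal p W Q a := by
  simp [hVal, map_prod, galois_xk W Q σ hQ, map_ofNat]

theorem exists_point_map [Fact p.Prime] (hΔ : W.Δ ≠ 0) (hc4 : W.c₄ ≠ 0) (hc6 : W.c₆ ≠ 0)
    (hQ : addOrderOf Q = p) :
    ∃ (τ : ℍ) (κ : ℂ), κ ≠ 0 ∧
      jFun τ = iotaC ((W.c₄ : Qbar) ^ 3 / (W.Δ : Qbar)) ∧
      (W.c₄ : ℂ) = κ ^ 2 * ModularForm.E₄ τ ∧
      (W.c₆ : ℂ) = -(κ ^ 3 * ModularForm.E₆ τ) ∧
      (W.Δ : ℂ) = κ ^ 6 * ModularForm.discriminant τ ∧
      ∀ k : (ZMod p)ˣ, iotaC (xk W Q (k : ZMod p)) + (W.b₂ : ℂ) / 12 =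
        κ * X p 0 (k : ZMod p) τ := by
  classical
  let f : Qbar →ₐ[ℚ] ℂ := iotaC.toRatAlgHom
  let WC : Affine ℂ := (W.map (Int.castRingHom ℚ))⁄ℂ
  have hWC : WC = W.map (Int.castRingHom ℂ) := by
    simp only [WC, WeierstrassCurve.baseChange, WeierstrassCurve.map_map]
    congr 1
  have hΔC : WeierstrassCurve.Δ WC = (W.Δ : ℂ) := by rw [hWC, map_Δ, eq_intCast]
  have h4C : WeierstrassCurve.c₄ WC = (W.c₄ : ℂ) := by rw [hWC, map_c₄, eq_intCast]
  have h6C : WeierstrassCurve.c₆ WC = (W.c₆ : ℂ) := by rw [hWC, map_c₆, eq_intCast]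
  have h2C : WeierstrassCurve.b₂ WC = (W.b₂ : ℂ) := by rw [hWC, map_b₂, eq_intCast]
  have : WC.IsElliptic := ⟨by rw [hΔC]; exact isUnit_iff_ne_zero.mpr (by exact_mod_cast hΔ)⟩
  let φ : (WQbar W).toAffine.Point →+ WC.Point :=
    Point.map (W' := (W.map (Int.castRingHom ℚ)).toAffine) f
  have hφinj : Function.Injective φ := Point.map_injective f
  have hp : p.Prime := Fact.out
  have hpQ : p • φ Q = 0 := by rw [← map_nsmul, ← hQ, addOrderOf_nsmul_eq_zero, map_zero]
  have hQ0 : φ Q ≠ 0 := fun e => by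
    rw [hφinj (e.trans (map_zero φ).symm), addOrderOf_zero] at hQ
    exact hp.one_lt.ne hQ
  obtain ⟨τ, w, hw, h, hwQ, hj⟩ := exists_uniformises_point WC
    (by rw [h4C]; exact_mod_cast hc4) (by rw [h6C]; exact_mod_cast hc6) hp hpQ hQ0
  have hπ : (2 * (π : ℂ) * Complex.I) ≠ 0 := by simp [Real.pi_ne_zero]
  have hI : (Complex.I : ℂ) ^ 2 = -1 := Complex.I_sq
  have e4 := h.g₂_eq
  have e6 := h.g₃_eq
  rw [h4C, tauPair_g₂, stdPair_g₂] at e4
  rw [h6C, tauPair_g₃, stdPair_g₃] at e6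
  have hc4' : (W.c₄ : ℂ) = ((2 * π * Complex.I) ^ 2 / w ^ 2) ^ 2 * ModularForm.E₄ τ := by
    rw [← e4]
    field_simp
    simp only [show Complex.I ^ 4 = 1 by rw [show 4 = 2 * 2 from rfl, pow_mul, hI]; norm_num]
    ring
  have hc6' : (W.c₆ : ℂ) = -(((2 * π * Complex.I) ^ 2 / w ^ 2) ^ 3 * ModularForm.E₆ τ) := by
    rw [← e6]
    field_simp
    simp only [show Complex.I ^ 6 = -1 by rw [show 6 = 2 * 3 from rfl, pow_mul, hI]; norm_num]
    ring
  refine ⟨τ, (2 * π * Complex.I) ^ 2 / w ^ 2, div_ne_zero (pow_ne_zero 2 hπ) (pow_ne_zero 2 hw),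
    ?_, hc4', hc6', ?_, fun k => ?_⟩
  · rw [hj, h4C, hΔC, map_div₀, map_pow, map_intCast, map_intCast]
  · have hrel : (1728 : ℂ) * (W.Δ : ℂ) = (W.c₄ : ℂ) ^ 3 - (W.c₆ : ℂ) ^ 2 := by
      exact_mod_cast congrArg (Int.cast : ℤ → ℂ) W.c_relation
    rw [hc4', hc6'] at hrel
    rw [ModularForm.discriminant_eq_E₄_cube_sub_E₆_sq]
    linear_combination hrel / 1728
  · set n := (k : ZMod p).val with hn
    have hmul : φ (n • Q) = pointFun h ((n : ℂ) * (w / p)) := by
      have key : ∀ (D : DecidableEq ℂ) (m : ℕ),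
          pointFun h ((m : ℂ) * (w / p)) = m • pointFun h (w / p) := by
        intro D m
        induction m with
        | zero => simp [pointFun_of_mem h (zero_mem _)]
        | succ m ih =>
          rw [succ_nsmul, ← ih, Nat.cast_succ, add_mul, one_mul]
          obtain rfl : D = Classical.decEq ℂ := Subsingleton.elim _ _
          exact pointFun_add h _ _
      rw [map_nsmul, key, hwQ]
    have hnot : (n : ℂ) * (w / p) ∉ (tauPair τ w hw).lattice := by
      intro hm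
      refine notMem_lattice (p := p) τ (a := 0) (b := (k : ZMod p)) (fun e => k.ne_zero e.2) ?_
      rw [stdPair_scale τ hw]
      convert hm using 1
      simp only [ZMod.val_zero, Nat.cast_zero, zero_mul, zero_add]
      rw [← hn]
      ring
    rw [pointFun_of_notMem h hnot] at hmul
    unfold xk
    rw [← hn]
    cases hP : n • Q with
    | zero =>
      rw [hP, ← Point.zero_def, map_zero] at hmul
      exact absurd hmul.symm (Point.some_ne_zero _)
    | some x y hxy =>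
      rw [hP] at hmul
      have hx : iotaC x = px (tauPair τ w hw) WC ((n : ℂ) * (w / p)) := (Point.some.inj hmul).1
      rw [xCoord_some, hx, px, h2C, sub_add_cancel,
        show (n : ℂ) * (w / p) = w * ((n : ℂ) / p) by ring, wp_tauPair]
      simp only [X, nP, ZMod.val_zero, Nat.cast_zero, zero_mul, zero_add, ← hn]
      field_simp

variable [Fact p.Prime]

theorem c₄_ne_zero_of_not_dvd {n : ℤ} (h : ¬ n ∣ W.c₄) : W.c₄ ≠ 0 := fun e => h (e ▸ dvd_zero n)

/-- The point of the upper half plane and the values of the test functions there. -/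
theorem exists_tau_values (hp : 5 ≤ p) (hΔ : W.Δ ≠ 0) (hc4 : W.c₄ ≠ 0) (hc6 : W.c₆ ≠ 0)
    (hQ : addOrderOf Q = p) :
    ∃ τ : ℍ, jFun τ = iotaC ((W.c₄ : Qbar) ^ 3 / (W.Δ : Qbar)) ∧
      uFun p τ = iotaC (uVal p W Q) ∧ fFun p τ = iotaC (fVal p W Q) ∧
      (∀ a : ℤ, hFun p (a : ℂ) τ = iotaC (hVal p W Q a)) ∧
      ModularForm.E₄ τ ≠ 0 ∧ ModularForm.E₆ τ ≠ 0 ∧ pVal (p := p) W Q ≠ 0 := by
  obtain ⟨τ, κ, hκ, hj, h4, h6, hD, hx⟩ := exists_point_map (p := p) W Q hΔ hc4 hc6 hQ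
  have hE4 : ModularForm.E₄ τ ≠ 0 := fun e => by
    rw [e, mul_zero] at h4
    exact hc4 (by exact_mod_cast h4)
  have hE6 : ModularForm.E₆ τ ≠ 0 := fun e => by
    rw [e, mul_zero, neg_zero] at h6
    exact hc6 (by exact_mod_cast h6)
  have hp2 : p ≠ 2 := by omega
  have hcard : (Finset.univ : Finset (ZMod p)ˣ).card = 2 * half p := card_units_zmod hp2
  have hP : iotaC (pVal (p := p) W Q) = κ ^ (2 * half p) * Dfun p τ := by
    rw [pVal, map_prod, Dfun, ← hcard, Finset.pow_card_mul_prod]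
    refine Finset.prod_congr rfl fun k _ => ?_
    have h2 := hx ((Units.mk0 2 (two_ne_zero_zmod hp2)) * k)
    simp only [Units.val_mul, Units.val_mk0] at h2
    rw [map_sub, mul_sub, ← hx k, ← h2]
    ring
  have hDne := Dfun_ne_zero hp τ
  have hPne : pVal (p := p) W Q ≠ 0 := fun e => by
    rw [e, map_zero] at hP
    exact mul_ne_zero (pow_ne_zero _ hκ) hDne hP.symm
  refine ⟨τ, hj, ?_, ?_, fun a => ?_, hE4, hE6, hPne⟩
  · rw [uVal, map_div₀, map_pow, map_pow, map_intCast, hP, hD, uFun, mul_pow, ← pow_mul, mul_pow,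
      ← pow_mul, show 2 * half p * 3 = 6 * half p by ring, mul_div_mul_left _ _ (pow_ne_zero _ hκ)]
  · rw [fVal, map_div₀, map_pow, map_intCast, hP, h4, fFun, mul_pow, ← pow_mul,
      mul_div_mul_left _ _ (pow_ne_zero _ hκ)]
  · have hH : iotaC (∏ k : (ZMod p)ˣ, ((12 * xk W Q (k : ZMod p) + W.b₂) * W.c₄ + a * W.c₆)) =
        κ ^ (6 * half p) * Hnum p (a : ℂ) τ := by
      rw [map_prod, Hnum, show 6 * half p = 3 * (Finset.univ : Finset (ZMod p)ˣ).card by
        rw [hcard]; ring, pow_mul, Finset.pow_card_mul_prod]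
      refine Finset.prod_congr rfl fun k _ => ?_
      simp only [map_add, map_mul, map_ofNat, map_intCast]
      rw [h4, h6]
      linear_combination (12 * (κ ^ 2 * ModularForm.E₄ τ)) * hx k
    rw [hVal, map_div₀, map_pow, map_intCast, hH, hD, hFun, mul_pow, ← pow_mul,
      mul_div_mul_left _ _ (pow_ne_zero _ hκ)]

end FLTAgent.Mazur
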