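/-
The rational point of `X₀(p)` attached to a rational point of order `p` on a curve.
-/
import Fermat.Agent.Mazur.Cusps
import Fermat.Agent.Mazur.PointData

set_option autoImplicit false

noncomputable section

open ModularCurve AlgebraicCurve
open UpperHalfPlane hiding I
open scoped MatrixGroups

namespace FLTAgent.Mazur

open FLTAgent.ModPoly FLTAgent.Genus
open FLTAgent.Reduction (WQbar)

section Transport

variable {K L : Type*} [Field K] [Field L] [Algebra K L] {F F' : IntermediateField K L}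

theorem transEl_eq_zero_iff (h : F = F') {x : F} : transEl h x = 0 ↔ x = 0 := by
  subst h
  exact Iff.rfl

theorem transEl_sub_algebraMap (h : F = F') {x : F} {y : F'} (e : (x : L) = (y : L)) (c : K) :
    transEl h (x - algebraMap K F c) = y - algebraMap K F' c := by
  subst h
  obtain rfl := Subtype.ext e
  rfl

end Transport

local notation "Qbar" => AlgebraicClosure ℚ

variable {p : ℕ} [NeZero p] [Fact p.Prime]

local notation "FB" => modularFunctionFieldBar p
local notation "FC" => modularFunctionFieldC Qbar p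

omit [Fact (Nat.Prime p)] in
theorem value_of_induces {e : FC} {g : modFunRing p} (h : IsFunOf e g) {c : Qbar} {z : ℍ}
    {q : Cosets p} {v : Place Qbar FC} {k : ℤ}
    (hv : Induces (Genus.fieldEmb iotaC (Genus.pointHom z q) (pointHom_injective z q)) v k)
    (hpos : e - algebraMap Qbar FC c = 0 ∨ 0 < v.ord (e - algebraMap Qbar FC c)) :
    (g : ℍ → ℂ) (q.out⁻¹ • z) = iotaC c := by
  have hfun := h.sub_const c
  have hval : cosetFun q ((g - algebraMap ℂ _ (iotaC c) : modFunRing p) : ℍ → ℂ) z = 0 := by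
    refine (coeff_diskSeries_zero z _).symm.trans ?_
    rw [← pointHom_apply z q, ← hfun.fieldEmb _ (pointHom_injective z q)]
    rcases hpos with h0 | h0
    · rw [h0, map_zero, HahnSeries.coeff_zero]
    · refine HahnSeries.coeff_eq_zero_of_lt_order ?_
      rw [hv.2]
      exact mul_pos hv.1 h0
  exact sub_eq_zero.mp hval

omit [Fact (Nat.Prime p)] in
theorem pos_of_value {e : FC} {g : modFunRing p} (h : IsFunOf e g) {c : Qbar} {z : ℍ}
    (hval : (g : ℍ → ℂ) z = iotaC c) {v : Place Qbar FC} {k : ℤ}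
    (hv : Induces (Genus.fieldEmb iotaC (Genus.pointHom z (QuotientGroup.mk (1 : SL(2, ℤ))))
      (pointHom_injective z _)) v k) :
    e - algebraMap Qbar FC c = 0 ∨ 0 < v.ord (e - algebraMap Qbar FC c) := by
  rcases eq_or_ne (e - algebraMap Qbar FC c) 0 with h0 | h0
  · exact Or.inl h0
  right
  have hfun := h.sub_const c
  have hne : Genus.fieldEmb iotaC (Genus.pointHom z (QuotientGroup.mk (1 : SL(2, ℤ))))
      (pointHom_injective z _) (e - algebraMap Qbar FC c) ≠ 0 := (map_ne_zero _).mpr h0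
  have hord := hv.2 (e - algebraMap Qbar FC c)
  rw [hfun.fieldEmb, pointHom_apply] at hne hord
  have h1 := one_le_order_diskSeries z (g := cosetFun (QuotientGroup.mk (1 : SL(2, ℤ)))
    ((g - algebraMap ℂ _ (iotaC c) : modFunRing p) : ℍ → ℂ)) ?_ hne
  · rw [hord] at h1
    exact pos_of_mul_pos_right (lt_of_lt_of_le one_pos h1) hv.1.le
  · simp only [cosetFun_mk (g - algebraMap ℂ _ (iotaC c) : modFunRing p).2, inv_one, one_smul]
    exact sub_eq_zero.mpr hval

theorem X_eq_of_hFun_eq {τ : ℍ} {γ : SL(2, ℤ)} (hE4 : ModularForm.E₄ τ ≠ 0)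
    (hE6 : ModularForm.E₆ τ ≠ 0) (hp : p ≠ 2)
    (h : ∀ a : ℤ, hFun p (a : ℂ) (γ • τ) = hFun p (a : ℂ) τ) :
    γ ∈ CongruenceSubgroup.Gamma0 p := by
  have hH : ∀ a : ℤ, HAt (p := p) (a : ℂ) γ τ = Hnum p (a : ℂ) τ := by
    intro a
    have e := h a
    rw [hFun, hFun, Hnum_smul hp, discriminant_smul, mul_pow, ← pow_mul,
      mul_div_mul_left _ _ (pow_ne_zero _ (den_ne_zero γ τ)),
      div_left_inj' (pow_ne_zero _ (ModularForm.discriminant_ne_zero τ))] at e
    exact e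
  let P : (ZMod p)ˣ → Polynomial ℂ := fun k =>
    Polynomial.C (12 * X p 0 (k : ZMod p) τ * ModularForm.E₄ τ) -
      Polynomial.X * Polynomial.C (ModularForm.E₆ τ)
  let P' : (ZMod p)ˣ → Polynomial ℂ := fun k =>
    Polynomial.C (12 * X p ((k : ZMod p) * γ 1 0) ((k : ZMod p) * γ 1 1) τ * ModularForm.E₄ τ) -
      Polynomial.X * Polynomial.C (ModularForm.E₆ τ)
  have heq : ∏ k, P' k = ∏ k, P k := by
    refine Polynomial.eq_of_infinite_eval_eq _ _ ((Set.infinite_range_of_injective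
      (fun a b e => Int.cast_injective e : Function.Injective fun a : ℤ => (a : ℂ))).mono ?_)
    rintro _ ⟨a, rfl⟩
    simp only [Set.mem_ofPred_eq, Polynomial.eval_prod, P, P', Polynomial.eval_sub,
      Polynomial.eval_mul, Polynomial.eval_C, Polynomial.eval_X]
    exact hH a
  set a₀ := 12 * X p ((((1 : (ZMod p)ˣ) : ZMod p)) * γ 1 0) ((((1 : (ZMod p)ˣ) : ZMod p)) * γ 1 1) τ *
    ModularForm.E₄ τ / ModularForm.E₆ τ with ha₀
  have hz : (∏ k, P k).eval a₀ = 0 := by
    rw [← heq, Polynomial.eval_prod]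
    refine Finset.prod_eq_zero (Finset.mem_univ (1 : (ZMod p)ˣ)) ?_
    simp only [P', Polynomial.eval_sub, Polynomial.eval_mul, Polynomial.eval_C, Polynomial.eval_X,
      ha₀, div_mul_cancel₀ _ hE6, sub_self]
  rw [Polynomial.eval_prod, Finset.prod_eq_zero_iff] at hz
  obtain ⟨k, -, hk⟩ := hz
  simp only [P, Polynomial.eval_sub, Polynomial.eval_mul, Polynomial.eval_C, Polynomial.eval_X,
    ha₀, div_mul_cancel₀ _ hE6, sub_eq_zero, Units.val_one, one_mul] at hk
  have hX : X p 0 (k : ZMod p) τ = X p (γ 1 0 : ZMod p) (γ 1 1 : ZMod p) τ := by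
    have := mul_right_cancel₀ hE4 hk
    exact mul_left_cancel₀ (by norm_num) this
  have hne := row_ne_zero γ (one_ne_zero (α := ZMod p))
  simp only [one_mul] at hne
  rw [CongruenceSubgroup.Gamma0_mem]
  rcases (X_eq_iff τ (fun e => k.ne_zero e.2) hne).mp hX with ⟨h0, -⟩ | ⟨h0, -⟩
  · exact h0.symm
  · exact neg_eq_zero.mp h0.symm

theorem exists_rationalPlace_C (hp : 5 ≤ p) {τ : ℍ} {j₀ : Qbar} (hj : jFun τ = iotaC j₀)
    (h0 : j₀ ≠ 0) (h1728 : j₀ ≠ 1728) (hE4 : ModularForm.E₄ τ ≠ 0)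
    (hE6 : ModularForm.E₆ τ ≠ 0) :
    ∃ v : Place Qbar FC,
      (∀ (e : FC) (g : modFunRing p) (c : Qbar), IsFunOf e g → (g : ℍ → ℂ) τ = iotaC c →
        e - algebraMap Qbar FC c = 0 ∨ 0 < v.ord (e - algebraMap Qbar FC c)) ∧
      ∀ (c : ℤ → Qbar), (∀ a : ℤ, hFun p (a : ℂ) τ = iotaC (c a)) →
        ∀ w : Place Qbar FC, 0 < w.ord (jEl Qbar p - algebraMap Qbar FC j₀) →
          (∀ a : ℤ, hEl hp a - algebraMap Qbar FC (c a) = 0 ∨
            0 < w.ord (hEl hp a - algebraMap Qbar FC (c a))) → w = v := by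
  have hjm : jMult (iotaC j₀) = 1 := by
    unfold jMult
    rw [if_neg (fun e => h0 ((map_eq_zero iotaC).mp e)),
      if_neg (fun e => h1728 (iotaC.injective (e.trans (map_ofNat iotaC 1728).symm)))]
  have hprim : IsPrimitiveRoot (Units.mk0 (rotNum 1 τ) (rotNum_ne_zero 1 τ))
      (jMult (iotaC j₀)) := by
    rw [hjm]
    exact IsPrimitiveRoot.one_right_iff.mpr (Units.ext (by simp [rotNum]))
  set R := pointData (N := p) iotaC j₀ τ hj 1 (one_smul _ _) hprim
  refine ⟨R.place (QuotientGroup.mk 1), fun e g c hfun hval =>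
    pos_of_value hfun hval (R.induces _), fun c hc w hw hh => ?_⟩
  obtain ⟨q, hq⟩ := R.exists_place_eq hasResidueK_modular (sum_ord_le_card j₀) hw
  have hind := R.induces q
  rw [hq] at hind
  have hγ : (q.out⁻¹ : SL(2, ℤ)) ∈ CongruenceSubgroup.Gamma0 p :=
    X_eq_of_hFun_eq hE4 hE6 (by omega) fun a => by
      rw [hc a]
      exact value_of_induces (isFunOf_hEl hp a) hind (hh a)
  have hq1 : q = QuotientGroup.mk 1 := by
    rw [← QuotientGroup.out_eq' q, QuotientGroup.eq, mul_one]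
    exact hγ
  rw [← hq, hq1]

omit [Fact (Nat.Prime p)] in
theorem jqModC_mem_bar : jqModC Qbar ∈ FB :=
  (bar_eq (p := p)).symm ▸ jqModC_mem Qbar p

theorem hSer_mem (hp : 5 ≤ p) (a : ℤ) : hSer p (a : Qbar) (zetaBar p) ∈ FB :=
  (bar_eq (p := p)).symm ▸ (hEl (p := p) hp a).2

/-- `h_a` in `modularFunctionFieldBar p`. -/
def hBar (hp : 5 ≤ p) (a : ℤ) : FB := ⟨hSer p (a : Qbar) (zetaBar p), hSer_mem hp a⟩

/-- `j` in `modularFunctionFieldBar p`. -/
def jBar : FB := ⟨jqModC Qbar, jqModC_mem_bar⟩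

omit [Fact (Nat.Prime p)] in
theorem ofBar_sub_algebraMap {x : FB} {y : FC} (e : (x : LaurentSeries Qbar) = y) (c : Qbar) :
    ofBar (x - algebraMap Qbar FB c) = y - algebraMap Qbar FC c :=
  transEl_sub_algebraMap bar_eq e c

omit [Fact (Nat.Prime p)] in
theorem ofBar_eq_zero_iff {x : FB} : ofBar x = 0 ↔ x = 0 :=
  transEl_eq_zero_iff bar_eq

omit [NeZero p] [Fact (Nat.Prime p)] in
theorem galois_sub_algebraMap (σ : Qbar ≃ₐ[ℚ] Qbar) {x : FB}
    (hx : coeffMap (σ : Qbar →+* Qbar) (x : LaurentSeries Qbar) = x) {c : Qbar} (hc : σ c = c) :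
    arithmeticGalois (modularFunctionFieldFull p) σ • (x - algebraMap Qbar FB c) =
      x - algebraMap Qbar FB c := by
  refine Subtype.ext ((coe_arithmeticGalois_smul _ σ _).trans ?_)
  rw [AddSubgroupClass.coe_sub, map_sub, hx]
  congr 1
  show coeffMap _ (algebraMap Qbar (LaurentSeries Qbar) c) = algebraMap Qbar (LaurentSeries Qbar) c
  rw [coeffMap_algebraMap]
  exact congrArg _ hc

/-- The place of `X₀(p)` of a rational point of order `p`, with its values. -/
theorem exists_rationalPlace (hp : 5 ≤ p) (W : WeierstrassCurve ℤ)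
    (Q : (WQbar W).toAffine.Point) (hΔ : W.Δ ≠ 0) (hc4 : W.c₄ ≠ 0) (hc6 : W.c₆ ≠ 0)
    (hQ : addOrderOf Q = p) (hfix : ∀ σ : Qbar ≃ₐ[ℚ] Qbar, σ • Q = Q) :
    pVal (p := p) W Q ≠ 0 ∧ ∃ x : Place Qbar FB,
      (∀ σ : Qbar ≃ₐ[ℚ] Qbar, arithmeticGalois (modularFunctionFieldFull p) σ • x = x) ∧
      (uBar hp - algebraMap Qbar FB (uVal p W Q) = 0 ∨
        0 < x.ord (uBar hp - algebraMap Qbar FB (uVal p W Q))) ∧
      (fBar hp - algebraMap Qbar FB (fVal p W Q) = 0 ∨
        0 < x.ord (fBar hp - algebraMap Qbar FB (fVal p W Q))) := by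
  obtain ⟨τ, hj, hu, hf, hh, hE4, hE6, hP⟩ := exists_tau_values W Q hp hΔ hc4 hc6 hQ
  set j₀ : Qbar := (W.c₄ : Qbar) ^ 3 / (W.Δ : Qbar) with hj₀
  have hΔ' : (W.Δ : Qbar) ≠ 0 := by exact_mod_cast hΔ
  have h0 : j₀ ≠ 0 := div_ne_zero (pow_ne_zero _ (by exact_mod_cast hc4)) hΔ'
  have h1728 : j₀ ≠ 1728 := by
    rw [hj₀, Ne, div_eq_iff hΔ']
    intro e
    have e' : W.c₄ ^ 3 = 1728 * W.Δ := by exact_mod_cast e
    have := W.c_relation
    exact pow_ne_zero 2 hc6 (by linarith)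
  obtain ⟨v, hval, huniq⟩ := exists_rationalPlace_C hp hj h0 h1728 hE4 hE6
  have tr : ∀ (x : FB) (y : FC) (c : Qbar), (x : LaurentSeries Qbar) = y →
      (y - algebraMap Qbar FC c = 0 ∨ 0 < v.ord (y - algebraMap Qbar FC c)) →
      (x - algebraMap Qbar FB c = 0 ∨ 0 < (toBar v).ord (x - algebraMap Qbar FB c)) := by
    intro x y c e h
    rw [← ofBar_eq_zero_iff, ord_toBar, ofBar_sub_algebraMap e]
    exact h
  refine ⟨hP, toBar v, fun σ => ?_, tr _ _ _ rfl (hval _ _ _ (isFunOf_uEl hp) hu),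
    tr _ _ _ rfl (hval _ _ _ (isFunOf_fEl hp) hf)⟩
  set g := arithmeticGalois (modularFunctionFieldFull p) σ
  obtain ⟨w, hw⟩ := toBar_surjective (g • toBar v)
  have key : ∀ (x : FB) (y : FC) (c : Qbar), (x : LaurentSeries Qbar) = y → σ c = c →
      coeffMap (σ : Qbar →+* Qbar) (x : LaurentSeries Qbar) = x →
      w.ord (y - algebraMap Qbar FC c) = v.ord (y - algebraMap Qbar FC c) := by
    intro x y c e hc hx
    have h2 := SemilinearAut.ord_smul g (toBar v) (x - algebraMap Qbar FB c)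
    rw [galois_sub_algebraMap σ hx hc, ← hw, ord_toBar, ord_toBar, ofBar_sub_algebraMap e] at h2
    exact h2
  have hjv : 0 < v.ord (jEl Qbar p - algebraMap Qbar FC j₀) := by
    rcases hval (jEl Qbar p) ⟨jFun, jFun_mem⟩ j₀
      (by rw [IsFunOf, qL_jFun]; exact (Genus.coeffMap_jqModC iotaC).symm) hj with h | h
    · exact absurd ((sub_eq_zero.mp h) ▸ isAlgebraic_algebraMap j₀) transcendental_jEl
    · exact h
  rw [← hw]
  refine congrArg toBar (huniq (fun a => hVal p W Q a) hh w ?_ fun a => ?_)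
  · rw [key jBar (jEl Qbar p) j₀ rfl (by simp [hj₀])
      (ModularCurve.coeffMap_jqModC (σ : Qbar →+* Qbar))]
    exact hjv
  · rcases hval (hEl hp a) _ _ (isFunOf_hEl hp a) (hh a) with h | h
    · exact Or.inl h
    · refine Or.inr ?_
      rw [key (hBar hp a) (hEl hp a) _ rfl (galois_hVal W Q σ (hfix σ) a)
        (coeffMap_galois_hSer σ a)]
      exact h

end FLTAgent.Mazur
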