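/-
Sizes of the values `u`, `f` at a place of multiplicative reduction.
-/
import Fermat.Agent.Mazur.PointData
import Fermat.Agent.Reduction.Torsion
import Fermat.Agent.Reduction.NodeExists
import Mathlib.FieldTheory.Galois.Infinite
import Mathlib.FieldTheory.IsSepClosed
import Mathlib.Algebra.CharP.Algebra

set_option autoImplicit false

noncomputable section

open WeierstrassCurve IsLocalRing
open WeierstrassCurve.Affine (Point)

namespace FLTAgent.Mazur

open FLTAgent.Reduction (WQbar WQbar_eq integralAt redCurve intCurve zeroSubgroup oneSubgroup InZero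
  InOne redPt)

local notation "Qbar" => AlgebraicClosure ℚ

/-- Two singular points of a cubic have the same abscissa. -/
theorem singular_abscissa_unique {k : Type*} [Field k] (V : WeierstrassCurve k) {x₀ y₀ x₁ y₁ : k}
    (h₀ : V.toAffine.Equation x₀ y₀) (n₀ : ¬ V.toAffine.Nonsingular x₀ y₀)
    (h₁ : V.toAffine.Equation x₁ y₁) (n₁ : ¬ V.toAffine.Nonsingular x₁ y₁) : x₀ = x₁ := by
  have part : ∀ {x y : k}, V.toAffine.Equation x y → ¬ V.toAffine.Nonsingular x y →
      V.a₁ * y - (3 * x ^ 2 + 2 * V.a₂ * x + V.a₄) = 0 ∧ 2 * y + V.a₁ * x + V.a₃ = 0 := by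
    intro x y h n
    rw [Affine.nonsingular_iff', not_and] at n
    have := n h
    simp only [ne_eq, not_or, not_not] at this
    exact this
  obtain ⟨a₀, b₀⟩ := part h₀ n₀
  obtain ⟨a₁, b₁⟩ := part h₁ n₁
  rw [Affine.equation_iff] at h₀ h₁
  refine (sub_eq_zero.mp ((pow_eq_zero_iff three_ne_zero).mp (?_ : (x₁ - x₀) ^ 3 = 0))).symm
  linear_combination 2 * h₁ - 2 * h₀ - (x₁ - x₀) * a₀ - (y₁ - y₀) * b₀ - (x₁ - x₀) * a₁
    - (y₁ - y₀) * b₁

section Points

variable {L : Type*} [Field L] [DecidableEq L] {A : ValuationSubring L} {E : WeierstrassCurve L}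
  (hE : FLTAgent.Reduction.IntegralAt A E)

omit [DecidableEq L] in
theorem xCoord_mem_of_not_inZero {P : E.toAffine.Point} (h : ¬ InZero hE P) : xCoord P ∈ A := by
  rcases P with _ | ⟨x, y, hxy⟩
  · exact absurd trivial h
  · by_contra hx
    exact h (Or.inl hx)

omit [DecidableEq L] in
/-- Points outside `E₀` have the same abscissa modulo the maximal ideal. -/
theorem v_sub_lt_one_of_not_inZero {P P' : E.toAffine.Point} (h : ¬ InZero hE P)
    (h' : ¬ InZero hE P') : A.valuation (xCoord P - xCoord P') < 1 := by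
  rcases P with _ | ⟨x, y, hxy⟩
  · exact absurd trivial h
  rcases P' with _ | ⟨x', y', hxy'⟩
  · exact absurd trivial h'
  simp only [InZero, not_or, not_not, not_exists] at h h'
  obtain ⟨hx, hns⟩ := h
  obtain ⟨hx', hns'⟩ := h'
  have hy := Reduction.y_mem_of_x_mem hE hxy.1 hx
  have hy' := Reduction.y_mem_of_x_mem hE hxy'.1 hx'
  exact Reduction.residue_eq_iff_v_sub_lt_one.mp (singular_abscissa_unique _
    (Reduction.equation_red hE (x := ⟨x, hx⟩) (y := ⟨y, hy⟩) hxy.1) (hns hx hy)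
    (Reduction.equation_red hE (x := ⟨x', hx'⟩) (y := ⟨y', hy'⟩) hxy'.1) (hns' hx' hy'))

variable {p : ℕ} (hp : (p : ResidueField A) ≠ 0)

include hE hp

theorem not_inOne_of_nsmul {P : E.toAffine.Point} (h : p • P = 0) (hne : P ≠ 0) : ¬ InOne A P :=
  fun h1 => hne (Reduction.eq_zero_of_mem_oneSubgroup hE (P := P) h1 hp h)

theorem xCoord_mem_of_nsmul {P : E.toAffine.Point} (h : p • P = 0) (hne : P ≠ 0) :
    xCoord P ∈ A := by
  have h1 := not_inOne_of_nsmul hE hp h hne
  rcases P with _ | ⟨x, y, hxy⟩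
  · exact absurd rfl hne
  · exact not_not.mp h1

/-- The reduction is injective on torsion of `E₀` of order prime to the residue characteristic. -/
theorem eq_or_neg_of_v_sub_lt_one {P P' : E.toAffine.Point} (h : p • P = 0) (hne : P ≠ 0)
    (h' : p • P' = 0) (hne' : P' ≠ 0) (h0 : InZero hE P) (h0' : InZero hE P')
    (hv : A.valuation (xCoord P - xCoord P') < 1) : P = P' ∨ P = -P' := by
  classical
  have t : ∀ {R : E.toAffine.Point}, p • R = 0 → InOne A R → R = 0 := fun hR h1 =>
    Reduction.eq_zero_of_mem_oneSubgroup hE h1 hp hR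
  rcases h0.cases with h1 | ⟨x, y, hxy, rfl, hns⟩
  · exact absurd (t h h1) hne
  rcases h0'.cases with h1 | ⟨x', y', hxy', rfl, hns'⟩
  · exact absurd (t h' h1) hne'
  rw [xCoord_some, xCoord_some, ← Reduction.residue_eq_iff_v_sub_lt_one] at hv
  rcases Affine.Y_eq_of_X_eq hns.1 hns'.1 hv with hy | hy
  · left
    refine sub_eq_zero.mp (t (by rw [nsmul_sub, h, h', sub_zero]) ?_)
    refine Reduction.sub_mem_oneSubgroup hE h0 h0' ?_
    rw [Reduction.redPt_coe hE hxy hns, Reduction.redPt_coe hE hxy' hns']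
    simp only [Point.some.injEq]
    exact ⟨hv, hy⟩
  · right
    refine eq_neg_of_add_eq_zero_left (t (by rw [nsmul_add, h, h', add_zero]) ?_)
    have hn := (Reduction.inZero_add_and_redPt_add hE h0 h0')
    refine (Reduction.redPt_eq_zero_iff hE hn.1).mp ?_
    rw [hn.2, Reduction.redPt_coe hE hxy hns, Reduction.redPt_coe hE hxy' hns']
    exact Point.add_of_Y_eq hv hy

end Points

variable {p : ℕ} [Fact p.Prime] {q : ℕ} {A : ValuationSubring Qbar} {W : WeierstrassCurve ℤ}
  {Q : (WQbar W).toAffine.Point}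

theorem val_nsmul_ne_zero (hQ : addOrderOf Q = p) {k : ZMod p} (hk : k ≠ 0) : k.val • Q ≠ 0 := by
  intro h
  have := addOrderOf_dvd_of_nsmul_eq_zero h
  rw [hQ, ← ZMod.natCast_eq_zero_iff, ZMod.natCast_zmod_val] at this
  exact hk this

omit [Fact (Nat.Prime p)] in
theorem nsmul_val_nsmul (hQ : addOrderOf Q = p) (k : ZMod p) : p • k.val • Q = 0 := by
  rw [smul_comm]
  exact (congrArg (k.val • ·) (hQ ▸ addOrderOf_nsmul_eq_zero Q)).trans (nsmul_zero _)

theorem val_nsmul_injective (hQ : addOrderOf Q = p) {k k' : ZMod p}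
    (h : k.val • Q = k'.val • Q) : k = k' := by
  rw [nsmul_eq_nsmul_iff_modEq, hQ, ← ZMod.natCast_eq_natCast_iff, ZMod.natCast_zmod_val,
    ZMod.natCast_zmod_val] at h
  exact h

theorem val_nsmul_add (hQ : addOrderOf Q = p) (k k' : ZMod p) :
    k.val • Q + k'.val • Q = (k + k').val • Q := by
  rw [← add_nsmul, nsmul_eq_nsmul_iff_modEq, hQ, ← ZMod.natCast_eq_natCast_iff]
  simp

theorem inZero_val_nsmul_iff (hQ : addOrderOf Q = p) {k : ZMod p} (hk : k ≠ 0) :
    k.val • Q ∈ zeroSubgroup (integralAt W A) ↔ Q ∈ zeroSubgroup (integralAt W A) := by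
  refine ⟨fun h => ?_, fun h => nsmul_mem h _⟩
  have h1 : (k⁻¹ : ZMod p).val • k.val • Q = Q := by
    rw [← mul_nsmul']
    conv_rhs => rw [← one_nsmul Q]
    rw [nsmul_eq_nsmul_iff_modEq, hQ, ← ZMod.natCast_eq_natCast_iff]
    simp [inv_mul_cancel₀ hk]
  exact h1 ▸ nsmul_mem h _

variable (hA : A.LiesOverPrime q) (hq : q.Prime)

include hA hq

theorem residue_natCast_prime_ne_zero (hqp : q ≠ p) : (p : ResidueField A) ≠ 0 := fun h =>
  hqp ((Nat.prime_dvd_prime_iff_eq hq Fact.out).mp
    ((Reduction.residue_natCast_eq_zero_iff hA hq p).mp h))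

/-- Outside `E₀` the value of `f` has a pole. -/
theorem one_lt_v_fVal (hc₄ : ¬ (q : ℤ) ∣ W.c₄) (hQ : addOrderOf Q = p)
    (hP : pVal (p := p) W Q ≠ 0) (hp3 : 3 ≤ p) (h : ¬ InZero (integralAt W A) Q) :
    1 < A.valuation (fVal p W Q) := by
  have h2 : (2 : ZMod p) ≠ 0 := by
    rw [show (2 : ZMod p) = ((2 : ℕ) : ZMod p) by norm_num, Ne, ZMod.natCast_eq_zero_iff]
    exact fun hd => absurd (Nat.le_of_dvd two_pos hd) (by omega)
  have hk : ∀ k : (ZMod p)ˣ,
      A.valuation (xk W Q (k : ZMod p) - xk W Q (2 * (k : ZMod p))) < 1 := fun k =>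
    v_sub_lt_one_of_not_inZero (integralAt W A)
      (fun h' => h ((inZero_val_nsmul_iff hQ k.ne_zero).mp h'))
      (fun h' => h ((inZero_val_nsmul_iff hQ (mul_ne_zero h2 k.ne_zero)).mp h'))
  have hlt : A.valuation (pVal (p := p) W Q) < 1 := by
    rw [pVal, ← Finset.mul_prod_erase _ _ (Finset.mem_univ (1 : (ZMod p)ˣ)), map_mul, map_prod]
    exact lt_of_le_of_lt (mul_le_of_le_one_right'
      (Finset.prod_le_one' fun i _ => (hk i).le)) (hk 1)
  have h0 : 0 < A.valuation (pVal (p := p) W Q) :=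
    lt_of_le_of_ne zero_le ((map_ne_zero _).mpr hP).symm
  rw [fVal, map_div₀, map_pow, Reduction.v_intCast_eq_one hA hq hc₄, one_pow, one_div]
  exact (one_lt_inv₀ h0).mpr hlt

/-- In `E₀` the value of `u` has a pole. -/
theorem one_lt_v_uVal (hΔ : (q : ℤ) ∣ W.Δ) (hΔ0 : W.Δ ≠ 0) (hqp : q ≠ p)
    (hQ : addOrderOf Q = p) (hp5 : 5 ≤ p) (h : InZero (integralAt W A) Q) :
    1 < A.valuation (uVal p W Q) := by
  have hn : ∀ m : ℕ, m ≠ 0 → m < p → (m : ZMod p) ≠ 0 := fun m h0 hm e =>
    absurd (Nat.le_of_dvd (Nat.pos_of_ne_zero h0) ((ZMod.natCast_eq_zero_iff m p).mp e)) (by omega)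
  have h2 : (2 : ZMod p) ≠ 0 := by simpa using hn 2 two_ne_zero (by omega)
  have h3 : (3 : ZMod p) ≠ 0 := by simpa using hn 3 three_ne_zero (by omega)
  have hp := residue_natCast_prime_ne_zero hA hq hqp
  have hk : ∀ k : (ZMod p)ˣ,
      A.valuation (xk W Q (k : ZMod p) - xk W Q (2 * (k : ZMod p))) = 1 := by
    intro k
    have h2k := mul_ne_zero h2 k.ne_zero
    have ha := nsmul_val_nsmul hQ (k : ZMod p)
    have hb := nsmul_val_nsmul hQ (2 * (k : ZMod p))
    have hmem := fun (j : ZMod p) (hj : j ≠ 0) =>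
      xCoord_mem_of_nsmul (integralAt W A) hp (nsmul_val_nsmul hQ j) (val_nsmul_ne_zero hQ hj)
    refine le_antisymm ?_ (not_lt.mp fun hv => ?_)
    · exact Reduction.v_le_one (sub_mem (hmem _ k.ne_zero) (hmem _ h2k))
    rcases eq_or_neg_of_v_sub_lt_one (integralAt W A) hp ha (val_nsmul_ne_zero hQ k.ne_zero) hb
      (val_nsmul_ne_zero hQ h2k) ((inZero_val_nsmul_iff hQ k.ne_zero).mpr h)
      ((inZero_val_nsmul_iff hQ h2k).mpr h) hv with e | e
    · have := val_nsmul_injective hQ e
      exact k.ne_zero (by linear_combination -this)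
    · rw [eq_neg_iff_add_eq_zero, val_nsmul_add hQ] at e
      refine val_nsmul_ne_zero hQ (k := (k : ZMod p) + 2 * k) ?_ e
      rw [show (k : ZMod p) + 2 * k = 3 * k by ring]
      exact mul_ne_zero h3 k.ne_zero
  have hP : A.valuation (pVal (p := p) W Q) = 1 := by
    rw [pVal, map_prod, Finset.prod_eq_one fun k _ => hk k]
  have hΔlt : A.valuation (W.Δ : Qbar) < 1 := (Reduction.v_intCast_lt_one_iff hA hq _).mpr hΔ
  have h0 : 0 < A.valuation (W.Δ : Qbar) :=
    lt_of_le_of_ne zero_le ((map_ne_zero _).mpr (by exact_mod_cast hΔ0)).symm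
  rw [uVal, map_div₀, map_pow, map_pow, hP, one_pow, one_div]
  refine (one_lt_inv₀ (pow_pos h0 _)).mpr (pow_lt_one₀ zero_le hΔlt ?_)
  rw [half]
  omega

omit [Fact p.Prime] in
/-- An element of `A` fixed by Galois has its residue in the prime field. -/
theorem exists_residue_eq_intCast {x : Qbar} (hx : x ∈ A)
    (hfix : ∀ σ : Qbar ≃ₐ[ℚ] Qbar, σ x = x) :
    ∃ a b : ℤ, ¬ (q : ℤ) ∣ b ∧ residue A ⟨x, hx⟩ = (a : ResidueField A) / (b : ResidueField A) := by
  have : Algebra.IsAlgebraic ℚ Qbar := AlgebraicClosure.isAlgebraic ℚ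
  have : IsAlgClosure ℚ Qbar := ⟨inferInstance, inferInstance⟩
  have : Normal ℚ Qbar := IsAlgClosure.normal ℚ Qbar
  have : IsGalois ℚ Qbar := ⟨⟩
  obtain ⟨r, rfl⟩ := (InfiniteGalois.mem_range_algebraMap_iff_fixed x).mpr hfix
  have hden : ¬ (q : ℤ) ∣ (r.den : ℤ) := by
    intro hd
    have hnum : ¬ (q : ℤ) ∣ r.num := fun hn' => by
      have h1 : q ∣ r.num.natAbs := Int.natCast_dvd.mp hn'
      have h2 : q ∣ r.den := Int.natCast_dvd_natCast.mp hd
      exact hq.ne_one (Nat.dvd_one.mp (r.reduced.gcd_eq_one ▸ Nat.dvd_gcd h1 h2))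
    refine absurd (Reduction.v_le_one hx) (not_le.mpr ?_)
    rw [eq_ratCast, Rat.cast_def, map_div₀, Reduction.v_intCast_eq_one hA hq hnum, one_div]
    have h0 : 0 < A.valuation ((r.den : ℤ) : Qbar) :=
      lt_of_le_of_ne zero_le ((map_ne_zero _).mpr (by exact_mod_cast r.den_ne_zero)).symm
    rw [Int.cast_natCast] at h0
    exact (one_lt_inv₀ h0).mpr (by simpa using (Reduction.v_intCast_lt_one_iff hA hq _).mpr hd)
  have hne : ((r.den : ℤ) : ResidueField A) ≠ 0 := by
    rw [Int.cast_natCast, Ne, Reduction.residue_natCast_eq_zero_iff hA hq]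
    exact fun hd => hden (Int.natCast_dvd_natCast.mpr hd)
  refine ⟨r.num, r.den, hden, ?_⟩
  rw [eq_div_iff hne, Int.cast_natCast, ← map_intCast (residue A), ← map_natCast (residue A),
    ← map_mul]
  congr 1
  refine Subtype.ext ?_
  push_cast
  rw [eq_ratCast]
  exact_mod_cast r.mul_den_eq_num

/-- The residual abscissas bound `(p - 1)/2` by the residue characteristic. -/
theorem not_dvd_half (hΔ : (q : ℤ) ∣ W.Δ) (hc₄ : ¬ (q : ℤ) ∣ W.c₄) (hqp : q ≠ p)
    (hQ : addOrderOf Q = p) (hp5 : 5 ≤ p) (hfix : ∀ σ : Qbar ≃ₐ[ℚ] Qbar, σ • Q = Q)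
    (h : InZero (integralAt W A) Q) : ¬ q ∣ half p := by
  have := Fact.mk hq
  have hp := residue_natCast_prime_ne_zero hA hq hqp
  have : CharP (ResidueField A) q :=
    ⟨fun n => Reduction.residue_natCast_eq_zero_iff hA hq n⟩
  let ι : ZMod q →+* ResidueField A := ZMod.castHom dvd_rfl _
  have hΔq : (W.map (Int.castRingHom (ZMod q))).Δ = 0 := by
    rwa [map_Δ, eq_intCast, ZMod.intCast_zmod_eq_zero_iff_dvd]
  have hcq : (W.map (Int.castRingHom (ZMod q))).c₄ ≠ 0 := by
    rwa [map_c₄, eq_intCast, ne_eq, ZMod.intCast_zmod_eq_zero_iff_dvd]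
  obtain ⟨s, t, he, hy, hx⟩ := Reduction.exists_singular_point _ hΔq hcq
  have hcurve : (W.map (Int.castRingHom (ZMod q))).map ι = redCurve (integralAt W A) := by
    rw [Reduction.redCurve_integralAt, WeierstrassCurve.map_map]
    congr 1
    exact RingHom.ext_int _ _
  have hnode : (redCurve (integralAt W A)).toAffine.Equation (ι s) (ι t) ∧
      ¬ (redCurve (integralAt W A)).toAffine.Nonsingular (ι s) (ι t) := by
    rw [← hcurve]
    refine ⟨((W.map (Int.castRingHom (ZMod q))).toAffine.map_equation ι.injective s t).mpr he, fun hn => ?_⟩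
    rw [(W.map (Int.castRingHom (ZMod q))).toAffine.map_nonsingular ι.injective, Affine.nonsingular_iff'] at hn
    rcases hn.2 with h' | h'
    · exact h' (by linear_combination -hx)
    · exact h' hy
  have key : ∀ k : ZMod p, k ≠ 0 → ∃ (c : ZMod q) (hm : xk W Q k ∈ A),
      c ≠ s ∧ residue A ⟨xk W Q k, hm⟩ = ι c := by
    intro k hk
    have hne := val_nsmul_ne_zero hQ hk
    have hm : xk W Q k ∈ A :=
      xCoord_mem_of_nsmul (integralAt W A) hp (nsmul_val_nsmul hQ k) hne
    obtain ⟨a, b, hb, hab⟩ :=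
      exists_residue_eq_intCast hA hq hm fun σ => galois_xk W Q σ (hfix σ) k
    refine ⟨(a : ZMod q) / (b : ZMod q), hm, fun hc => ?_,
      by rw [map_div₀, map_intCast, map_intCast, hab]⟩
    have hres : residue A ⟨xk W Q k, hm⟩ = ι s := by
      rw [← hc, map_div₀, map_intCast, map_intCast, hab]
    have h0 : InZero (integralAt W A) (k.val • Q) := (inZero_val_nsmul_iff hQ hk).mpr h
    rcases h0.cases with h1 | ⟨x, y, hxy, e, hns⟩
    · exact not_inOne_of_nsmul (integralAt W A) hp (nsmul_val_nsmul hQ k) hne h1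
    have hxk : (⟨xk W Q k, hm⟩ : A) = x := Subtype.ext (by
      show xCoord (k.val • Q) = (x : Qbar)
      rw [e, xCoord_some])
    rw [hxk] at hres
    have hself : (redCurve (integralAt W A)).toAffine.negY (ι s) (ι t) = ι t := by
      have hy' := congrArg ι hy
      rw [Affine.negY, ← hcurve]
      simp only [map_a₁, map_a₃]
      simp only [map_add, map_mul, map_ofNat, map_zero, map_a₁, map_a₃] at hy'
      linear_combination -hy'
    have hyt : residue A y = ι t := by
      rcases Affine.Y_eq_of_X_eq hns.1 hnode.1 hres with e' | e'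
      · exact e'
      · rwa [hself] at e'
    rw [hres, hyt] at hns
    exact hnode.2 hns
  choose g hgm hgs hg using key
  have hlt : half p ≤ q - 1 := by
    have hne : ∀ i ∈ Finset.Icc 1 (half p), ((i : ℕ) : ZMod p) ≠ 0 := fun i hi e => by
      rw [Finset.mem_Icc] at hi
      have := Nat.le_of_dvd hi.1 ((ZMod.natCast_eq_zero_iff i p).mp e)
      unfold half at hi
      omega
    have hcard : ((Finset.univ : Finset (ZMod q)).erase s).card = q - 1 := by
      rw [Finset.card_erase_of_mem (Finset.mem_univ s), Finset.card_univ, ZMod.card]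
    calc half p = ((Finset.Icc 1 (half p)).attach).card := by simp
      _ ≤ ((Finset.univ : Finset (ZMod q)).erase s).card := by
          refine Finset.card_le_card_of_injOn (fun i => g _ (hne i.1 i.2))
            (fun i _ => Finset.mem_erase.mpr ⟨hgs _ (hne i.1 i.2), Finset.mem_univ _⟩) ?_
          rintro ⟨i, hi⟩ - ⟨j, hj⟩ - hij
          have hres := (hg _ (hne i hi)).trans ((congrArg ι hij).trans (hg _ (hne j hj)).symm)
          rw [Reduction.residue_eq_iff_v_sub_lt_one] at hres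
          have hi' := Finset.mem_Icc.mp hi
          have hj' := Finset.mem_Icc.mp hj
          have hm : 2 * half p < p := by unfold half; omega
          rcases eq_or_neg_of_v_sub_lt_one (integralAt W A) hp (nsmul_val_nsmul hQ _)
            (val_nsmul_ne_zero hQ (hne i hi)) (nsmul_val_nsmul hQ _)
            (val_nsmul_ne_zero hQ (hne j hj)) ((inZero_val_nsmul_iff hQ (hne i hi)).mpr h)
            ((inZero_val_nsmul_iff hQ (hne j hj)).mpr h) hres with e | e
          · have := val_nsmul_injective hQ e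
            rw [ZMod.natCast_eq_natCast_iff'] at this
            rw [Nat.mod_eq_of_lt (by omega), Nat.mod_eq_of_lt (by omega)] at this
            exact Subtype.ext this
          · rw [eq_neg_iff_add_eq_zero, val_nsmul_add hQ] at e
            refine absurd e (val_nsmul_ne_zero hQ ?_)
            rw [← Nat.cast_add, Ne, ZMod.natCast_eq_zero_iff]
            exact fun hd => absurd (Nat.le_of_dvd (by omega) hd) (by omega)
      _ = q - 1 := hcard
  have hpos : 0 < half p := by unfold half; omega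
  intro hd
  have := Nat.le_of_dvd hpos hd
  have := hq.one_lt
  omega

end FLTAgent.Mazur
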