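/-
Reduction of the place of a rational point of order `p` at a multiplicative prime.
-/
import Fermat.Agent.Mazur.ValueSize
import Fermat.Agent.Mazur.RationalPlace
import Fermat.Agent.Mazur.PlaceZeros

set_option autoImplicit false
set_option synthInstance.maxHeartbeats 400000

noncomputable section

open ModularCurve AlgebraicCurve

namespace FLTAgent.Mazur

open FLTAgent.ModPoly FLTAgent.Genus
open FLTAgent.Reduction (WQbar integralAt InZero)

local notation "Qbar" => AlgebraicClosure ℚ

variable {p : ℕ} [NeZero p] [Fact p.Prime]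

local notation "FB" => modularFunctionFieldBar p

theorem ord_uBar_nonneg (hp : 5 ≤ p) {v : Place Qbar FB} (h : v ≠ cuspInf p) :
    0 ≤ v.ord (uBar hp) := by
  rcases eq_or_ne v (cuspZero hp) with rfl | h'
  · rw [ord_uBar_cuspZero]; exact_mod_cast Nat.zero_le _
  · exact (ord_uBar_eq_zero hp h' h).ge

/-- The two possible reductions of the place. -/
theorem reduction_rationalPlace (hp : 5 ≤ p) {W : WeierstrassCurve ℤ}
    {Q : (WQbar W).toAffine.Point} (hQ : addOrderOf Q = p) (hP : pVal (p := p) W Q ≠ 0)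
    {x : Place Qbar FB}
    (hu : uBar hp - algebraMap Qbar FB (uVal p W Q) = 0 ∨
      0 < x.ord (uBar hp - algebraMap Qbar FB (uVal p W Q)))
    (hf : fBar hp - algebraMap Qbar FB (fVal p W Q) = 0 ∨
      0 < x.ord (fBar hp - algebraMap Qbar FB (fVal p W Q)))
    {q : ℕ} (hq : q.Prime) (hqp : q ≠ p) {A : ValuationSubring Qbar} (hA : A.LiesOverPrime q)
    (hΔ : (q : ℤ) ∣ W.Δ) (hΔ0 : W.Δ ≠ 0) (hc₄ : ¬ (q : ℤ) ∣ W.c₄)
    {r : Place Qbar (laurentBaseChange Qbar (modularFunctionFieldFull p)) →
      Place (IsLocalRing.ResidueField A) (modularFunctionFieldFullC (IsLocalRing.ResidueField A) p)}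
    (hr : IsPlaceReductionModL A p r) :
    (W.InZeroComponentAt A Q → r x = r (cuspInf p)) ∧
      (¬ W.InZeroComponentAt A Q → r x = r (cuspZero hp)) := by
  have hpA : A.valuation (p : Qbar) = 1 := by
    have := Reduction.v_intCast_eq_one hA hq (m := (p : ℤ)) fun hd =>
      hqp ((Nat.prime_dvd_prime_iff_eq hq Fact.out).mp (Int.natCast_dvd_natCast.mp hd))
    rwa [Int.cast_natCast] at this
  refine ⟨fun h => ?_, fun h => ?_⟩
  · refine reduction_eq_of_pole hr (exists_lift_uSer A isPrimitiveRoot_zetaBar hpA (by omega))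
      (Reduction.one_lt_v_iff.mp ?_) hu fun v hv => ord_uBar_nonneg hp hv
    exact one_lt_v_uVal hA hq hΔ hΔ0 hqp hQ hp
      ((Reduction.inZeroComponentAt_iff W Q).mp h)
  · refine reduction_eq_of_pole hr (exists_lift_fSer A isPrimitiveRoot_zetaBar hpA hp)
      (Reduction.one_lt_v_iff.mp ?_) hf fun v hv => ord_fBar_nonneg hp hv
    exact one_lt_v_fVal hA hq hc₄ hQ hP (by omega)
      fun h' => h ((Reduction.inZeroComponentAt_iff W Q).mpr h')

end FLTAgent.Mazur
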