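/-
Assembly of the third step of Mazur's argument from the Eisenstein endomorphism and reduction.
-/
import Fermat.Prelude.Def_EllipticCurve_ZeroComponentAt
import Fermat.Prelude.Def_FLTPrelim_Ramification
import Fermat.Agent.Mazur.PointReduction

set_option autoImplicit false
set_option synthInstance.maxHeartbeats 400000

noncomputable section

open ModularCurve AlgebraicCurve

namespace FLTAgent.Mazur

open FLTAgent.Reduction (WQbar)

local notation "Qbar" => AlgebraicClosure ℚ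

/-- Every prime other than `p` has good reduction inputs. -/
def ReductionInputsAway (p : ℕ) : Prop :=
  ∀ q : ℕ, q.Prime → q ≠ p → ∀ A : ValuationSubring Qbar, A.LiesOverPrime q →
    ReductionInputsModL A p

/-- Reduction is injective on torsion prime to the residue characteristic. -/
def TorsionInjectiveAway (p : ℕ) : Prop :=
  ∀ q : ℕ, q.Prime → q ≠ p → ∀ A : ValuationSubring Qbar, A.LiesOverPrime q →
    ∀ (m : ℕ) (z : JZero p), ¬ q ∣ m → m • z = 0 → reductionModL A p z = 0 → z = 0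

/-- An endomorphism killing rational points up to torsion but not the cuspidal class. -/
def EisensteinEndExists (p : ℕ) [NeZero p] [Fact p.Prime] (hp : 5 ≤ p) : Prop :=
  ∃ e : JZero p →+ JZero p,
    (∀ q : ℕ, q.Prime → q ≠ p → ∀ A : ValuationSubring Qbar, A.LiesOverPrime q →
      ∀ z : JZero p, reductionModL A p z = 0 → reductionModL A p (e z) = 0) ∧
    (∀ z : JZero p, (∀ σ : Qbar ≃ₐ[ℚ] Qbar, σ • z = z) → ∃ n : ℕ, n ≠ 0 ∧ n • e z = 0) ∧
    e (cuspClass hp) ≠ 0

variable {p : ℕ} [NeZero p] [Fact p.Prime]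

local notation "FB" => modularFunctionFieldBar p

theorem reductionModL_diffClass {A : ValuationSubring Qbar} (h : ReductionInputsModL A p)
    {v w : Place Qbar FB} (e : placeReductionModL h v = placeReductionModL h w) :
    reductionModL A p (diffClass v w) = 0 := by
  rw [diffClass, reductionModL_mk h, show reductionDegZeroAlong (placeReductionModL h)
    (isPlaceReductionModL_placeReductionModL h).1 (diffDiv v w) = 0 from Subtype.ext (by
      rw [coe_reductionDegZeroAlong, diffDiv, Finsupp.mapDomain_sub, Finsupp.mapDomain_single,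
        Finsupp.mapDomain_single, e, sub_self]
      rfl)]
  rfl

theorem diffClass_sub (u v w : Place Qbar FB) :
    diffClass u v = diffClass u w - diffClass v w := by
  have e : diffDiv u v = diffDiv u w - diffDiv v w := Subtype.ext (by
    simp only [diffDiv, AddSubgroupClass.coe_sub]
    abel)
  rw [diffClass, diffClass, diffClass, e]
  rfl

omit [NeZero p] [Fact (Nat.Prime p)] in
/-- A torsion class reducing to `0` at `2` and at `3` vanishes. -/
theorem eq_zero_of_red_two_three (hinj : TorsionInjectiveAway p) (hp : 5 ≤ p) {z : JZero p}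
    {n : ℕ} (hn : n ≠ 0) (hz : n • z = 0)
    {A₂ A₃ : ValuationSubring Qbar} (hA₂ : A₂.LiesOverPrime 2) (hA₃ : A₃.LiesOverPrime 3)
    (h₂ : reductionModL A₂ p z = 0) (h₃ : reductionModL A₃ p z = 0) : z = 0 := by
  obtain ⟨a, n', hn', rfl⟩ := Nat.exists_eq_pow_mul_and_not_dvd hn 2 (by norm_num)
  have h1 : 2 ^ a • z = 0 :=
    hinj 2 Nat.prime_two (by omega) A₂ hA₂ n' _ hn'
      (by rw [smul_smul, mul_comm, hz]) (by rw [map_nsmul, h₂, smul_zero])
  exact hinj 3 Nat.prime_three (by omega) A₃ hA₃ (2 ^ a) z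
    (fun hd => by
      have := Nat.prime_three.dvd_of_dvd_pow hd
      omega) h1 h₃

/-- The third step of Mazur's argument. -/
theorem stepThree (hp : 5 ≤ p) (hin : ReductionInputsAway p) (hinj : TorsionInjectiveAway p)
    (he : EisensteinEndExists p hp) (W : WeierstrassCurve ℤ) (hΔ : W.Δ ≠ 0)
    (Q : (WQbar W).toAffine.Point) (hQfix : ∀ σ : Qbar ≃ₐ[ℚ] Qbar, σ • Q = Q)
    (hQord : addOrderOf Q = p)
    (h2Δ : (2 : ℤ) ∣ W.Δ) (h2c₄ : ¬ (2 : ℤ) ∣ W.c₄)
    {A₂ : ValuationSubring Qbar} (hA₂ : A₂.LiesOverPrime 2) (h2 : ¬ W.InZeroComponentAt A₂ Q)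
    (h3Δ : (3 : ℤ) ∣ W.Δ) (h3c₄ : ¬ (3 : ℤ) ∣ W.c₄)
    {A₃ : ValuationSubring Qbar} (hA₃ : A₃.LiesOverPrime 3) (h3 : ¬ W.InZeroComponentAt A₃ Q)
    {l : ℕ} (hl : l.Prime) (hlp : l ≠ p) (hlΔ : (l : ℤ) ∣ W.Δ) (hlc₄ : ¬ (l : ℤ) ∣ W.c₄)
    {A : ValuationSubring Qbar} (hA : A.LiesOverPrime l) :
    ¬ W.InZeroComponentAt A Q := by
  intro hQ0
  have hc4 : W.c₄ ≠ 0 := fun e => h2c₄ (e ▸ dvd_zero _)
  have hc6 : W.c₆ ≠ 0 := fun e => by
    have h := W.c_relation
    rw [e] at h
    refine h2c₄ (Int.prime_two.dvd_of_dvd_pow (n := 3) ?_)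
    exact ⟨864 * W.Δ, by linarith⟩
  obtain ⟨hP, x, hxfix, hu, hf⟩ := exists_rationalPlace hp W Q hΔ hc4 hc6 hQord hQfix
  obtain ⟨e, hcomm, htor, hne⟩ := he
  set z := diffClass x (cuspZero hp)
  have red : ∀ {q : ℕ}, q.Prime → q ≠ p → (q : ℤ) ∣ W.Δ → ¬ (q : ℤ) ∣ W.c₄ →
      ∀ {B : ValuationSubring Qbar}, B.LiesOverPrime q → ¬ W.InZeroComponentAt B Q →
      reductionModL B p z = 0 := fun {q} hq hqp hqΔ hqc₄ {B} hB h =>
    reductionModL_diffClass (hin q hq hqp B hB) <|
      (reduction_rationalPlace hp hQord hP hu hf hq hqp hB hqΔ hΔ hqc₄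
        (isPlaceReductionModL_placeReductionModL (hin _ hq hqp B hB))).2 h
  obtain ⟨n, hn, hnz⟩ := htor z fun σ =>
    galois_smul_diffClass σ (hxfix σ) (galois_smul_cuspZero hp σ)
  have hz : e z = 0 := eq_zero_of_red_two_three hinj hp hn hnz hA₂ hA₃
    (hcomm 2 Nat.prime_two (by omega) A₂ hA₂ z
      (red Nat.prime_two (by omega) h2Δ h2c₄ hA₂ h2))
    (hcomm 3 Nat.prime_three (by omega) A₃ hA₃ z
      (red Nat.prime_three (by omega) h3Δ h3c₄ hA₃ h3))
  have hinA := hin l hl hlp A hA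
  have hl0 : reductionModL A p (e (diffClass x (cuspInf p))) = 0 :=
    hcomm l hl hlp A hA _ <| reductionModL_diffClass hinA <|
      (reduction_rationalPlace hp hQord hP hu hf hl hlp hA hlΔ hΔ hlc₄
        (isPlaceReductionModL_placeReductionModL hinA)).1 hQ0
  rw [diffClass_sub x (cuspInf p) (cuspZero hp), map_sub, hz, zero_sub, map_neg, neg_eq_zero,
    ← cuspClass] at hl0
  refine hne (hinj l hl hlp A hA (half p) _ ?_ ?_ hl0)
  · exact not_dvd_half hA hl hlΔ hlc₄ hlp hQord hp hQfix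
      ((Reduction.inZeroComponentAt_iff W Q).mp hQ0)
  · rw [← map_nsmul, half_nsmul_cuspClass, map_zero]

end FLTAgent.Mazur
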