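/-
At most `2q + 1` points of `E₀` of order prime to `q` are fixed by a Frobenius element at `q`.
-/
import Fermat.Agent.Mazur.ValueSize
import Fermat.Agent.Reduction.GoodPrime
import Fermat.Agent.Frobenius.Lifting
import Fermat.Prelude.Def_EllipticCurve_FrobeniusTrace

set_option autoImplicit false

noncomputable section

open WeierstrassCurve IsLocalRing
open WeierstrassCurve.Affine (Point)

namespace FLTAgent.Mazur

open FLTAgent.Reduction (WQbar integralAt zeroSubgroup InZero InOne)

local notation "Qbar" => AlgebraicClosure ℚ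

variable {A : ValuationSubring Qbar} {q : ℕ} {W : WeierstrassCurve ℤ}

/-- The residue of the abscissa of a point fixed by Frobenius is a root of `X ^ q - X`. -/
theorem residue_pow_eq_of_fixed {σ : Qbar ≃ₐ[ℚ] Qbar} (hσ : A.IsFrobeniusAt σ q)
    {P : (WQbar W).toAffine.Point} (hfix : σ • P = P) (hx : xCoord P ∈ A) :
    residue A ⟨xCoord P, hx⟩ ^ q = residue A ⟨xCoord P, hx⟩ := by
  have h1 : σ (xCoord P) = xCoord P := by
    rcases P with _ | ⟨x, y, h⟩
    · exact map_zero σ
    · rw [Reduction.smul_some] at hfix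
      exact (Point.some.inj hfix).1
  rw [← hσ.smul_residue_eq, ← ResidueField.residue_smul]
  exact congrArg (residue A) (Subtype.ext h1)

/-- A group of points of `E₀` of order prime to `q` fixed by Frobenius has at most `2q + 1`
elements. -/
theorem natCard_le_of_fixed (hA : A.LiesOverPrime q) (hq : q.Prime) {σ : Qbar ≃ₐ[ℚ] Qbar}
    (hσ : A.IsFrobeniusAt σ q) {N : ℕ} (hqN : ¬ q ∣ N)
    (H : AddSubgroup (WQbar W).toAffine.Point) [Finite H]
    (h0 : ∀ P ∈ H, P ∈ zeroSubgroup (integralAt W A)) (hN : ∀ P ∈ H, N • P = 0)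
    (hfix : ∀ P ∈ H, σ • P = P) : Nat.card H ≤ 2 * q + 1 := by
  classical
  have := Fintype.ofFinite H
  have hN' : (N : ResidueField A) ≠ 0 := mt (Reduction.residue_natCast_eq_zero_iff hA hq N).1 hqN
  set s : Finset H := Finset.univ.erase 0 with hs
  have hmem : ∀ P : H, P ≠ 0 → xCoord (P : (WQbar W).toAffine.Point) ∈ A := fun P hP =>
    xCoord_mem_of_nsmul (integralAt W A) hN' (hN _ P.2) fun e => hP (Subtype.ext e)
  set f : H → ResidueField A := fun P =>
    if hP : P ≠ 0 then residue A ⟨_, hmem P hP⟩ else 0 with hf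
  have hne : (Polynomial.X ^ q - Polynomial.X : Polynomial (ResidueField A)) ≠ 0 :=
    FiniteField.X_pow_card_sub_X_ne_zero _ hq.one_lt
  have himg : (s.image f).card ≤ q := by
    refine le_trans (Finset.card_le_card (t := (Polynomial.X ^ q - Polynomial.X :
      Polynomial (ResidueField A)).roots.toFinset) ?_) ?_
    · intro a ha
      obtain ⟨P, hP, rfl⟩ := Finset.mem_image.mp ha
      have hP0 := Finset.ne_of_mem_erase hP
      rw [Multiset.mem_toFinset, Polynomial.mem_roots hne, Polynomial.IsRoot,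
        Polynomial.eval_sub, Polynomial.eval_pow, Polynomial.eval_X, sub_eq_zero, hf]
      simp only [dif_pos hP0]
      exact residue_pow_eq_of_fixed hσ (hfix _ P.2) _
    · refine (Multiset.toFinset_card_le _).trans ((Polynomial.card_roots' _).trans ?_)
      rw [FiniteField.X_pow_card_sub_X_natDegree_eq _ hq.one_lt]
  have hfib : ∀ b ∈ s.image f, (s.filter fun P => f P = b).card ≤ 2 := by
    intro b hb
    obtain ⟨P, hP, rfl⟩ := Finset.mem_image.mp hb
    refine le_trans (Finset.card_le_card (t := {P, -P}) ?_) Finset.card_le_two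
    intro P' hP'
    obtain ⟨hP's, he⟩ := Finset.mem_filter.mp hP'
    have hP0 := Finset.ne_of_mem_erase hP
    have hP0' := Finset.ne_of_mem_erase hP's
    simp only [hf, dif_pos hP0, dif_pos hP0', Reduction.residue_eq_iff_v_sub_lt_one] at he
    rw [Finset.mem_insert, Finset.mem_singleton]
    exact (eq_or_neg_of_v_sub_lt_one (integralAt W A) hN' (hN _ P'.2)
      (fun e => hP0' (Subtype.ext e)) (hN _ P.2) (fun e => hP0 (Subtype.ext e)) (h0 _ P'.2)
      (h0 _ P.2) he).imp Subtype.ext fun e => Subtype.ext e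
  have hcard := Finset.card_le_mul_card_image (f := f) s 2 hfib
  rw [hs, Finset.card_erase_of_mem (Finset.mem_univ 0), Finset.card_univ] at hcard
  rw [hs] at himg
  rw [Nat.card_eq_fintype_card]
  omega

/-- A rational point of `E₀` of prime order `p ≠ q` forces `p ≤ 2q + 1`. -/
theorem prime_le_of_fixed_mem (hA : A.LiesOverPrime q) (hq : q.Prime) {p : ℕ} (hp : p.Prime)
    (hqp : q ≠ p) {Q : (WQbar W).toAffine.Point} (hQ : addOrderOf Q = p)
    (hfix : ∀ σ : Qbar ≃ₐ[ℚ] Qbar, σ • Q = Q) (h0 : Q ∈ zeroSubgroup (integralAt W A)) :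
    p ≤ 2 * q + 1 := by
  obtain ⟨σ, hσ⟩ := FLTAgent.Frobenius.exists_isFrobeniusAt hq hA
  have hfin : Finite (AddSubgroup.zmultiples Q) :=
    Nat.finite_of_card_ne_zero (by rw [Nat.card_zmultiples, hQ]; exact hp.ne_zero)
  have := natCard_le_of_fixed hA hq hσ (N := p)
    (fun hd => hqp ((Nat.prime_dvd_prime_iff_eq hq hp).1 hd)) (AddSubgroup.zmultiples Q)
    (fun P hP => AddSubgroup.zmultiples_le_of_mem h0 hP)
    (fun P hP => by
      obtain ⟨m, rfl⟩ := AddSubgroup.mem_zmultiples_iff.1 hP
      rw [smul_comm, ← hQ, addOrderOf_nsmul_eq_zero, smul_zero])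
    (fun P hP => by
      obtain ⟨m, rfl⟩ := AddSubgroup.mem_zmultiples_iff.1 hP
      rw [Affine.Point.algEquiv_smul_zsmul, hfix])
  rwa [Nat.card_zmultiples, hQ] at this

end FLTAgent.Mazur
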