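/-
The sums `∑ w` and `∑ w²` of `w = z/(1 - z)²` over the nontrivial `p`-th roots of unity.
-/
import Mathlib.Algebra.Field.GeomSum
import Mathlib.RingTheory.RootsOfUnity.PrimitiveRoots
import Mathlib.Tactic.FieldSimp
import Mathlib.Tactic.LinearCombination

set_option autoImplicit false

open Finset

namespace FLTAgent.Mazur

section Powers

variable {k : Type*} [CommRing k] (z : k)

theorem one_sub_mul_sum_mul_pow (n : ℕ) :
    (1 - z) * ∑ i ∈ range n, (i : k) * z ^ i =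
      (∑ i ∈ range n, z ^ i) - 1 - ((n : k) - 1) * z ^ n := by
  induction n with
  | zero => simp
  | succ n ih =>
    rw [sum_range_succ, sum_range_succ, mul_add, ih, pow_succ]
    push_cast
    ring

theorem one_sub_mul_sum_sq_mul_pow (n : ℕ) :
    (1 - z) * ∑ i ∈ range n, (i : k) ^ 2 * z ^ i =
      2 * (∑ i ∈ range n, (i : k) * z ^ i) - (∑ i ∈ range n, z ^ i) + 1
        - ((n : k) - 1) ^ 2 * z ^ n := by
  induction n with
  | zero => simp
  | succ n ih =>
    rw [sum_range_succ, sum_range_succ, sum_range_succ, mul_add, ih, pow_succ]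
    push_cast
    ring

end Powers

variable {k : Type*} [Field k]

/-- `z ↦ z/(1 - z)²`. -/
def nodeW (z : k) : k := z / (1 - z) ^ 2

theorem sum_weights_mul_pow {z : k} {p : ℕ} (hz : z ^ p = 1) (h1 : z ≠ 1) :
    ∑ i ∈ range p, (i : k) * ((p : k) - i) * z ^ i = 2 * (p : k) * nodeW z := by
  have hz1 : (1 - z) ^ 2 ≠ 0 := pow_ne_zero 2 (sub_ne_zero.mpr (Ne.symm h1))
  have hG : ∑ i ∈ range p, z ^ i = 0 := by rw [geom_sum_eq h1, hz, sub_self, zero_div]
  have h := one_sub_mul_sum_mul_pow z p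
  have h' := one_sub_mul_sum_sq_mul_pow z p
  rw [hz, hG] at h h'
  have e : ∑ i ∈ range p, (i : k) * ((p : k) - i) * z ^ i =
      (p : k) * (∑ i ∈ range p, (i : k) * z ^ i) - ∑ i ∈ range p, (i : k) ^ 2 * z ^ i := by
    rw [mul_sum, ← sum_sub_distrib]
    exact sum_congr rfl fun i _ => by ring
  rw [nodeW, ← mul_div_assoc, eq_div_iff hz1, e]
  linear_combination ((p : k) * (1 - z) - 2) * h - (1 - z) * h'

theorem sum_weights (n : ℕ) (c : k) :
    6 * ∑ i ∈ range n, (i : k) * (c - i) =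
      3 * c * n * ((n : k) - 1) - n * ((n : k) - 1) * (2 * n - 1) := by
  induction n with
  | zero => simp
  | succ n ih =>
    rw [sum_range_succ, mul_add, ih]
    push_cast
    ring

theorem sum_weights_sq (n : ℕ) (c : k) :
    30 * ∑ i ∈ range n, ((i : k) * (c - i)) ^ 2 =
      5 * c ^ 2 * n * ((n : k) - 1) * (2 * n - 1) - 15 * c * (n : k) ^ 2 * ((n : k) - 1) ^ 2
        + n * ((n : k) - 1) * (2 * n - 1) * (3 * (n : k) ^ 2 - 3 * n - 1) := by
  induction n with
  | zero => simp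
  | succ n ih =>
    rw [sum_range_succ, mul_add, ih]
    push_cast
    ring

/-- `1 + 120 ∑ (6w² + w) = p⁴` over the nontrivial `p`-th roots of unity. -/
theorem one_add_sum_nodeW {ζ : k} {p : ℕ} (hζ : IsPrimitiveRoot ζ p) (hp : (p : k) ≠ 0) :
    1 + 120 * ∑ j ∈ Ico 1 p, (6 * nodeW (ζ ^ j) ^ 2 + nodeW (ζ ^ j)) = (p : k) ^ 4 := by
  rcases Nat.eq_zero_or_pos p with rfl | hpos
  · simp at hp
  set a : ℕ → k := fun i => (i : k) * ((p : k) - i) with ha
  have hz : ∀ j, (ζ ^ j) ^ p = 1 := fun j => by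
    rw [← pow_mul, mul_comm, pow_mul, hζ.pow_eq_one, one_pow]
  have hne : ∀ j ∈ Ico 1 p, ζ ^ j ≠ 1 := fun j hj =>
    hζ.pow_ne_one_of_pos_of_lt (by have := (mem_Ico.mp hj).1; omega) (mem_Ico.mp hj).2
  have key : ∀ j ∈ Ico 1 p, ∑ i ∈ range p, a i * (ζ ^ j) ^ i = 2 * (p : k) * nodeW (ζ ^ j) :=
    fun j hj => sum_weights_mul_pow (hz j) (hne j hj)
  have orth : ∀ i, ∑ j ∈ Ico 1 p, (ζ ^ j) ^ i = (if p ∣ i then (p : k) else 0) - 1 := by
    intro i
    have h0 : ∑ j ∈ Ico 1 p, (ζ ^ j) ^ i = (∑ j ∈ range p, (ζ ^ i) ^ j) - 1 := by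
      rw [range_eq_Ico, sum_eq_sum_Ico_succ_bot hpos, pow_zero, add_sub_cancel_left]
      exact sum_congr rfl fun j _ => by rw [← pow_mul, mul_comm, pow_mul]
    rw [h0]
    split_ifs with hd
    · rw [(hζ.pow_eq_one_iff_dvd i).mpr hd]
      simp
    · rw [geom_sum_eq (fun e => hd ((hζ.pow_eq_one_iff_dvd i).mp e)),
        show (ζ ^ i) ^ p = 1 from hz i, sub_self, zero_div]
  have ha0 : a 0 = 0 := by simp [ha]
  have hw1 : 2 * (p : k) * ∑ j ∈ Ico 1 p, nodeW (ζ ^ j) = -∑ i ∈ range p, a i := by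
    rw [mul_sum, ← sum_congr rfl key, sum_comm, ← sum_neg_distrib]
    refine sum_congr rfl fun i hi => ?_
    rw [← mul_sum, orth]
    split_ifs with hd
    · rw [Nat.eq_zero_of_dvd_of_lt hd (mem_range.mp hi), ha0]; simp
    · simp
  have hw2 : 4 * (p : k) ^ 2 * ∑ j ∈ Ico 1 p, nodeW (ζ ^ j) ^ 2 =
      (p : k) * (∑ i ∈ range p, a i ^ 2) - (∑ i ∈ range p, a i) ^ 2 := by
    rw [mul_sum, sq (∑ i ∈ range p, a i), sum_mul_sum, mul_sum, ← sum_sub_distrib]
    rw [sum_congr rfl fun j hj => show 4 * (p : k) ^ 2 * nodeW (ζ ^ j) ^ 2 =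
      ∑ i ∈ range p, ∑ i' ∈ range p, a i * a i' * (ζ ^ j) ^ (i + i') by
        rw [show 4 * (p : k) ^ 2 * nodeW (ζ ^ j) ^ 2 = (2 * (p : k) * nodeW (ζ ^ j)) ^ 2 by ring,
          ← key j hj, sq, sum_mul_sum]
        exact sum_congr rfl fun i _ => sum_congr rfl fun i' _ => by ring]
    rw [sum_comm]
    refine sum_congr rfl fun i hi => ?_
    rw [sum_comm]
    simp_rw [← mul_sum, orth, mul_sub, mul_one, sum_sub_distrib]
    rw [← mul_sum]
    congr 1
    rcases Nat.eq_zero_or_pos i with rfl | hi0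
    · simp [ha0]
    have hlt := mem_range.mp hi
    rw [sum_eq_single_of_mem (p - i) (mem_range.mpr (by omega))]
    · rw [Nat.add_sub_cancel' hlt.le, if_pos dvd_rfl]
      simp only [ha, Nat.cast_sub hlt.le]
      ring
    · intro i' hi' hne'
      rw [if_neg, mul_zero]
      intro hd
      obtain ⟨c, hc⟩ := hd
      have h' := mem_range.mp hi'
      rcases c with _ | _ | c
      · omega
      · omega
      · nlinarith
  refine mul_left_cancel₀ (pow_ne_zero 2 hp) ?_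
  rw [sum_add_distrib, ← mul_sum]
  have s1 : 6 * ∑ i ∈ range p, a i = _ := sum_weights p (p : k)
  have s2 : 30 * ∑ i ∈ range p, a i ^ 2 = _ := sum_weights_sq p (p : k)
  linear_combination 180 * hw2 + 60 * (p : k) * hw1 + 6 * (p : k) * s2
    - (30 * (∑ i ∈ range p, a i) + 10 * (p : k) + 5 * ((p : k) ^ 3 - p)) * s1

end FLTAgent.Mazur
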