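/-
The nonsingular points of a nodal cubic form the multiplicative group, and Vélu's sum on a
subgroup of prime order.
-/
import Fermat.Agent.Mazur.RootSum
import Mathlib.AlgebraicGeometry.EllipticCurve.Affine.Point

set_option autoImplicit false

open WeierstrassCurve
open WeierstrassCurve.Affine (Point)

namespace FLTAgent.Mazur

variable {k : Type*} [Field k]

/-- A node with one of its tangents. -/
structure NodeAt (V : WeierstrassCurve k) (x₀ y₀ α : k) : Prop where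
  eqn : V.toAffine.Equation x₀ y₀
  dy : 2 * y₀ + V.a₁ * x₀ + V.a₃ = 0
  dx : 3 * x₀ ^ 2 + 2 * V.a₂ * x₀ + V.a₄ - V.a₁ * y₀ = 0
  root : α ^ 2 + V.a₁ * α = V.a₂ + 3 * x₀
  ne : 2 * α + V.a₁ ≠ 0

/-- The branch coordinate. -/
def nodeF (x₀ y₀ α x y : k) : k := y - y₀ - α * (x - x₀)

variable {V : WeierstrassCurve k} {x₀ y₀ α : k} (h : NodeAt V x₀ y₀ α)

/-- The multiplicative parameter, `1` at infinity. -/
def nodeParam (_ : NodeAt V x₀ y₀ α) : V.toAffine.Point → k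
  | .zero => 1
  | .some x y _ =>
    nodeF x₀ y₀ α x y / (nodeF x₀ y₀ α x y + (2 * α + V.a₁) * (x - x₀))

include h

theorem NodeAt.c₄_eq : V.c₄ = (2 * α + V.a₁) ^ 4 := by
  simp only [WeierstrassCurve.c₄, WeierstrassCurve.b₂, WeierstrassCurve.b₄]
  linear_combination (-24 * V.a₁) * h.dy - 48 * h.dx
    - (4 * (V.a₁ ^ 2 + 4 * V.a₂ + 12 * x₀) + 4 * (2 * α + V.a₁) ^ 2) * h.root

theorem NodeAt.fg {x y : k} (he : V.toAffine.Equation x y) :
    nodeF x₀ y₀ α x y * (nodeF x₀ y₀ α x y + (2 * α + V.a₁) * (x - x₀)) = (x - x₀) ^ 3 := by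
  have e := (Affine.equation_iff _ _).mp he
  have e₀ := (Affine.equation_iff _ _).mp h.eqn
  simp only [nodeF]
  linear_combination e - e₀ - (y - y₀) * h.dy + (x - x₀) * h.dx - (x - x₀) ^ 2 * h.root

theorem NodeAt.x_ne {x y : k} (hn : V.toAffine.Nonsingular x y) : x ≠ x₀ := by
  rintro rfl
  obtain ⟨he, hd⟩ := (Affine.nonsingular_iff' _ _).mp hn
  have hf := h.fg he
  rw [sub_self, mul_zero, add_zero, zero_pow three_ne_zero, mul_self_eq_zero] at hf
  have hy : y = y₀ := by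
    simp only [nodeF, sub_self, mul_zero, sub_zero, sub_eq_zero] at hf
    exact hf
  subst hy
  rcases hd with hd | hd
  · exact hd (by linear_combination -h.dx)
  · exact hd h.dy

/-- The point is `(κ²z/(1-z)², κ³z²/(1-z)³)` in the coordinates `(x - x₀, f)`. -/
theorem NodeAt.param {x y : k} (hn : V.toAffine.Nonsingular x y) :
    nodeParam h (.some _ _ hn) ≠ 0 ∧ nodeParam h (.some _ _ hn) ≠ 1 ∧
      x - x₀ = (2 * α + V.a₁) ^ 2 * nodeW (nodeParam h (.some _ _ hn)) ∧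
      nodeF x₀ y₀ α x y = (2 * α + V.a₁) ^ 3 * nodeParam h (.some _ _ hn) ^ 2 /
        (1 - nodeParam h (.some _ _ hn)) ^ 3 := by
  have hX : x - x₀ ≠ 0 := sub_ne_zero.mpr (h.x_ne hn)
  have hfg := h.fg hn.1
  have hκ := h.ne
  simp only [nodeParam]
  generalize nodeF x₀ y₀ α x y = f at hfg ⊢
  generalize 2 * α + V.a₁ = κ at hfg hκ ⊢
  generalize x - x₀ = X at hX hfg ⊢
  have hg : f + κ * X ≠ 0 := fun e => by
    rw [e, mul_zero] at hfg
    exact pow_ne_zero 3 hX hfg.symm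
  have hf : f ≠ 0 := fun e => by
    rw [e, zero_mul] at hfg
    exact pow_ne_zero 3 hX hfg.symm
  have h1 : 1 - f / (f + κ * X) = κ * X / (f + κ * X) := by
    field_simp
    ring
  refine ⟨div_ne_zero hf hg, fun e => mul_ne_zero hκ hX ?_, ?_, ?_⟩
  · rw [div_eq_one_iff_eq hg] at e
    linear_combination -e
  · rw [nodeW, h1]
    field_simp
    linear_combination -hfg
  · rw [h1]
    field_simp
    linear_combination -hfg

theorem NodeAt.param_neg (P : V.toAffine.Point) : nodeParam h (-P) = (nodeParam h P)⁻¹ := by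
  rcases P with _ | ⟨x, y, hn⟩
  · exact inv_one.symm
  rw [Point.neg_some]
  simp only [nodeParam, inv_div]
  have e : nodeF x₀ y₀ α x (V.toAffine.negY x y) =
      -(nodeF x₀ y₀ α x y + (2 * α + V.a₁) * (x - x₀)) := by
    simp only [nodeF, Affine.negY]
    linear_combination -h.dy
  rw [e, show -(nodeF x₀ y₀ α x y + (2 * α + V.a₁) * (x - x₀)) + (2 * α + V.a₁) * (x - x₀) =
    -nodeF x₀ y₀ α x y by ring, neg_div_neg_eq]

variable [DecidableEq k]

/-- The slope of the chord, seen from the tangent `α`. -/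
theorem NodeAt.param_add_some {x₁ y₁ x₂ y₂ : k} (h₁ : V.toAffine.Nonsingular x₁ y₁)
    (h₂ : V.toAffine.Nonsingular x₂ y₂) (hxy : ¬(x₁ = x₂ ∧ y₁ = V.toAffine.negY x₂ y₂)) :
    nodeParam h (.some _ _ h₁ + .some _ _ h₂) =
      nodeParam h (.some _ _ h₁) * nodeParam h (.some _ _ h₂) := by
  obtain ⟨z10, z11, hx1, hf1⟩ := h.param h₁
  obtain ⟨z20, z21, hx2, hf2⟩ := h.param h₂
  have hnn : nodeParam h (.some _ _ h₁) * nodeParam h (.some _ _ h₂) ≠ 1 := by
    intro e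
    apply hxy
    have e' : nodeParam h (.some _ _ h₁) = (nodeParam h (.some _ _ h₂))⁻¹ :=
      eq_inv_of_mul_eq_one_left e
    rw [← h.param_neg, Point.neg_some] at e'
    obtain ⟨-, -, hx3, hf3⟩ := h.param ((Affine.nonsingular_neg x₂ y₂).mpr h₂)
    rw [← e', ← hx1] at hx3
    rw [← e', ← hf1] at hf3
    have hx : x₁ = x₂ := by linear_combination -hx3
    refine ⟨hx, ?_⟩
    simp only [nodeF] at hf3
    linear_combination -hf3 + α * hx
  set ℓ := V.toAffine.slope x₁ x₂ y₁ y₂ - α with hℓ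
  have hκ := h.ne
  set κ := 2 * α + V.a₁ with hκdef
  have hX3 : V.toAffine.addX x₁ x₂ (V.toAffine.slope x₁ x₂ y₁ y₂) - x₀ =
      ℓ ^ 2 + κ * ℓ - (x₁ - x₀) - (x₂ - x₀) := by
    simp only [Affine.addX, hℓ, hκdef]
    linear_combination h.root
  have hF3 : nodeF x₀ y₀ α (V.toAffine.addX x₁ x₂ (V.toAffine.slope x₁ x₂ y₁ y₂))
      (V.toAffine.addY x₁ x₂ y₁ (V.toAffine.slope x₁ x₂ y₁ y₂)) =
      -(ℓ * ((ℓ ^ 2 + κ * ℓ - (x₁ - x₀) - (x₂ - x₀)) - (x₁ - x₀)) + nodeF x₀ y₀ α x₁ y₁) -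
        κ * (ℓ ^ 2 + κ * ℓ - (x₁ - x₀) - (x₂ - x₀)) := by
    rw [← hX3]
    simp only [nodeF, Affine.addY, Affine.negAddY, Affine.negY, hℓ, hκdef]
    linear_combination -h.dy
  rw [Point.add_some hxy]
  generalize hz₁ : nodeParam h (.some _ _ h₁) = u at z10 z11 hx1 hf1 hnn ⊢
  generalize hz₂ : nodeParam h (.some _ _ h₂) = v at z20 z21 hx2 hf2 hnn ⊢
  have hu : 1 - u ≠ 0 := sub_ne_zero.mpr (Ne.symm z11)
  have hv : 1 - v ≠ 0 := sub_ne_zero.mpr (Ne.symm z21)
  have huv : 1 - u * v ≠ 0 := sub_ne_zero.mpr (Ne.symm hnn)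
  clear_value ℓ κ
  -- the slope
  have hl : ℓ = κ * (u + v + u * v * (u * v - 3)) / ((1 - u) * (1 - v) * (1 - u * v)) := by
    rw [eq_div_iff (mul_ne_zero (mul_ne_zero hu hv) huv)]
    by_cases hx : x₁ = x₂
    · obtain rfl : y₁ = y₂ := (Affine.Y_eq_of_X_eq h₁.1 h₂.1 hx).resolve_right
        fun e => hxy ⟨hx, e⟩
      subst hx
      have hu2 : u = v := hz₁.symm.trans hz₂
      subst hu2
      have hy : y₁ ≠ V.toAffine.negY x₁ y₁ := fun e => hxy ⟨rfl, e⟩
      have hs := Affine.slope_of_Y_ne (W := V.toAffine) (x₂ := x₁) (y₂ := y₁) rfl hy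
      have hden : y₁ - V.toAffine.negY x₁ y₁ ≠ 0 := sub_ne_zero.mpr hy
      rw [eq_div_iff hden] at hs
      have hden' : y₁ - V.toAffine.negY x₁ y₁ =
          2 * nodeF x₀ y₀ α x₁ y₁ + κ * (x₁ - x₀) := by
        simp only [nodeF, Affine.negY, hκdef]
        linear_combination h.dy
      have hlin : ℓ * (2 * nodeF x₀ y₀ α x₁ y₁ + κ * (x₁ - x₀)) =
          3 * (x₁ - x₀) ^ 2 - κ * nodeF x₀ y₀ α x₁ y₁ := by
        have hd2 := hden'
        simp only [Affine.negY] at hd2 hs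
        rw [hℓ, sub_mul, ← hd2, hs]
        simp only [nodeF, hκdef]
        linear_combination h.dx + (-α) * h.dy - 2 * (x₁ - x₀) * h.root
      rw [hf1, hx1, nodeW] at hlin
      field_simp at hlin
      have hκ3 : κ ^ 3 * u * (1 + u) ≠ 0 := by
        rw [hden', hf1, hx1, nodeW] at hden
        intro e
        apply hden
        field_simp
        linear_combination e
      refine mul_left_cancel₀ hκ3 ?_
      linear_combination (κ ^ 3 * u * (1 + u) * (1 - u) ^ 2) * hlin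
    · have hs : ℓ * (x₁ - x₂) = nodeF x₀ y₀ α x₁ y₁ - nodeF x₀ y₀ α x₂ y₂ := by
        rw [hℓ, Affine.slope_of_X_ne hx, sub_mul, div_mul_cancel₀ _ (sub_ne_zero.mpr hx)]
        simp only [nodeF]
        ring
      rw [show x₁ - x₂ = (x₁ - x₀) - (x₂ - x₀) by ring, hx1, hx2, hf1, hf2, nodeW, nodeW] at hs
      field_simp at hs
      have hne : κ ^ 2 * (u - v) ≠ 0 := by
        refine mul_ne_zero (pow_ne_zero 2 hκ) (sub_ne_zero.mpr fun e => hx ?_)
        subst e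
        linear_combination hx1 - hx2
      refine mul_left_cancel₀ hne ?_
      linear_combination κ ^ 2 * hs
  simp only [nodeParam, ← hκdef]
  have h₃ := Affine.nonsingular_add h₁ h₂ hxy
  have hden : nodeF x₀ y₀ α (V.toAffine.addX x₁ x₂ (V.toAffine.slope x₁ x₂ y₁ y₂))
      (V.toAffine.addY x₁ x₂ y₁ (V.toAffine.slope x₁ x₂ y₁ y₂)) +
        κ * (V.toAffine.addX x₁ x₂ (V.toAffine.slope x₁ x₂ y₁ y₂) - x₀) ≠ 0 := fun e => by
    have hfg := h.fg h₃.1
    rw [← hκdef, e, mul_zero] at hfg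
    exact pow_ne_zero 3 (sub_ne_zero.mpr (h.x_ne h₃)) hfg.symm
  rw [div_eq_iff hden, hX3, hF3, hf1, hx1, hx2, hl, nodeW, nodeW]
  field_simp
  ring

theorem NodeAt.param_add (P P' : V.toAffine.Point) :
    nodeParam h (P + P') = nodeParam h P * nodeParam h P' := by
  rcases P with _ | ⟨x₁, y₁, h₁⟩
  · exact ((congrArg (nodeParam h) (zero_add P')).trans (one_mul _).symm)
  rcases P' with _ | ⟨x₂, y₂, h₂⟩
  · exact ((congrArg (nodeParam h) (add_zero _)).trans (mul_one _).symm)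
  by_cases hxy : x₁ = x₂ ∧ y₁ = V.toAffine.negY x₂ y₂
  · rw [Point.add_of_Y_eq hxy.1 hxy.2]
    have e : Point.some _ _ h₁ = -Point.some _ _ h₂ := by
      rw [Point.neg_some, Point.some.injEq]
      exact hxy
    rw [e, h.param_neg, inv_mul_cancel₀ (h.param h₂).1]
    rfl
  · exact h.param_add_some h₁ h₂ hxy

/-- Vélu's sum on a subgroup of prime order in the nonsingular locus: `c₄` is multiplied by
`p⁴`. -/
theorem NodeAt.c₄_add_sum {p : ℕ} (hp : p.Prime) (hpk : (p : k) ≠ 0) {P : V.toAffine.Point}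
    (hP : P ≠ 0) (hpP : p • P = 0) {x : ℕ → k} {y : ℕ → k}
    (hx : ∀ j ∈ Finset.Ico 1 p, ∃ hn, j • P = Point.some (x j) (y j) hn) :
    V.c₄ + 120 * ∑ j ∈ Finset.Ico 1 p, (6 * x j ^ 2 + V.b₂ * x j + V.b₄) =
      (p : k) ^ 4 * (2 * α + V.a₁) ^ 4 := by
  have hb : V.b₂ = (2 * α + V.a₁) ^ 2 - 12 * x₀ := by
    simp only [WeierstrassCurve.b₂]
    linear_combination -4 * h.root
  have hb4 : V.b₄ = -6 * x₀ ^ 2 - V.b₂ * x₀ := by
    simp only [WeierstrassCurve.b₂, WeierstrassCurve.b₄]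
    linear_combination 2 * h.dx + V.a₁ * h.dy
  have hpow : ∀ j : ℕ, nodeParam h (j • P) = nodeParam h P ^ j := by
    intro j
    induction j with
    | zero => rw [zero_nsmul, pow_zero]; rfl
    | succ j ih => rw [succ_nsmul, h.param_add, ih, pow_succ]
  have hζ : IsPrimitiveRoot (nodeParam h P) p := by
    have := Fact.mk hp
    have h1 : nodeParam h P ^ p = 1 := by rw [← hpow, hpP]; rfl
    rw [← orderOf_eq_prime h1 (fun e => ?_)]
    · exact IsPrimitiveRoot.orderOf _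
    · rcases P with _ | ⟨a, b, hn⟩
      · exact hP rfl
      · exact (h.param hn).2.1 e
  have key : ∀ j ∈ Finset.Ico 1 p, 6 * x j ^ 2 + V.b₂ * x j + V.b₄ =
      (2 * α + V.a₁) ^ 4 * (6 * nodeW (nodeParam h P ^ j) ^ 2 + nodeW (nodeParam h P ^ j)) := by
    intro j hj
    obtain ⟨hn, e⟩ := hx j hj
    obtain ⟨-, -, hxj, -⟩ := h.param hn
    rw [← e, hpow] at hxj
    rw [hb4, hb, show x j = x j - x₀ + x₀ by ring, hxj]
    ring
  rw [Finset.sum_congr rfl key, ← Finset.mul_sum, h.c₄_eq, ← one_add_sum_nodeW hζ hpk]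
  ring

end FLTAgent.Mazur
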