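/-
Sums over a subgroup of odd prime order of functions invariant under negation.
-/
import Mathlib.Algebra.BigOperators.Intervals
import Mathlib.GroupTheory.OrderOfElement
import Mathlib.GroupTheory.SpecificGroups.Cyclic
import Mathlib.SetTheory.Cardinal.Finite
import Mathlib.Tactic.Ring

set_option autoImplicit false

open Finset

namespace FLTAgent.Mazur

variable {G R : Type*} [AddCommGroup G] [CommRing R]

theorem exists_gen_of_prime_card {M : AddSubgroup G} {p : ℕ} (hp : p.Prime)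
    (hM : Nat.card M = p) : ∃ g ∈ M, addOrderOf g = p ∧ M = AddSubgroup.zmultiples g := by
  have : Finite M := Nat.finite_of_card_ne_zero (by rw [hM]; exact hp.ne_zero)
  have hne : M ≠ ⊥ := by
    rintro rfl
    rw [AddSubgroup.card_bot] at hM
    exact hp.ne_one hM.symm
  obtain ⟨g, hg, hg0⟩ := (AddSubgroup.ne_bot_iff_exists_ne_zero.mp hne).elim
    fun x hx => (⟨x.1, x.2, fun e => hx (Subtype.ext e)⟩ : ∃ g ∈ M, g ≠ 0)
  have hle : AddSubgroup.zmultiples g ≤ M := AddSubgroup.zmultiples_le_of_mem hg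
  have hord : addOrderOf g = p := by
    have hd : addOrderOf g ∣ p := by
      rw [← Nat.card_zmultiples, ← hM]
      exact AddSubgroup.card_dvd_of_le hle
    exact ((Nat.dvd_prime hp).mp hd).resolve_left (fun e => hg0 (AddMonoid.addOrderOf_eq_one_iff.mp e))
  refine ⟨g, hg, hord, (AddSubgroup.eq_of_le_of_card_ge hle ?_).symm⟩
  rw [Nat.card_zmultiples, hord, hM]

theorem sum_subgroup_eq_range {M : AddSubgroup G} [Fintype M] {g : G} {p : ℕ}
    (hord : addOrderOf g = p) (hM : M = AddSubgroup.zmultiples g) (hp : 0 < p) (f : G → R) :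
    ∑ T : M, f (T : G) = ∑ j ∈ range p, f (j • g) := by
  classical
  subst hM
  have hfin : IsOfFinAddOrder g := addOrderOf_pos_iff.mp (hord ▸ hp)
  refine (Finset.sum_bij (fun j _ => (⟨j • g, AddSubgroup.nsmul_mem _
    (AddSubgroup.mem_zmultiples g) j⟩ : AddSubgroup.zmultiples g))
    (fun _ _ => mem_univ _) ?_ ?_ fun _ _ => rfl).symm
  · intro a ha b hb e
    have := nsmul_eq_nsmul_iff_modEq.mp (congrArg Subtype.val e :)
    rw [hord, Nat.ModEq, Nat.mod_eq_of_lt (mem_range.mp ha),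
      Nat.mod_eq_of_lt (mem_range.mp hb)] at this
    exact this
  · rintro ⟨x, hx⟩ -
    obtain ⟨n, rfl⟩ := (hfin.mem_multiples_iff_mem_zmultiples (y := x)).mpr hx
    exact ⟨n % p, mem_range.mpr (Nat.mod_lt _ hp),
      Subtype.ext (by rw [← hord]; exact mod_addOrderOf_nsmul g n)⟩

theorem sum_range_eq_two_mul {g : G} {m : ℕ} (hord : addOrderOf g = 2 * m + 1) (f : G → R)
    (h0 : f 0 = 0) (hneg : ∀ x, f (-x) = f x) :
    ∑ j ∈ range (2 * m + 1), f (j • g) = 2 * ∑ j ∈ Ico 1 (m + 1), f (j • g) := by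
  rw [Finset.range_eq_Ico, sum_eq_sum_Ico_succ_bot (by omega), zero_nsmul, h0, zero_add,
    ← sum_Ico_consecutive (M := R) (fun j : ℕ => f (j • g)) (m := 0 + 1) (n := m + 1)
      (k := 2 * m + 1) (by omega) (by omega), two_mul (∑ j ∈ Ico 1 (m + 1), f (j • g))]
  congr 1
  refine Finset.sum_bij' (M := R) (fun j _ => 2 * m + 1 - j) (fun j _ => 2 * m + 1 - j) ?_ ?_ ?_ ?_ ?_
  · intro j hj; simp only [mem_Ico] at hj ⊢; omega
  · intro j hj; simp only [mem_Ico] at hj ⊢; omega
  · intro j hj; simp only [mem_Ico] at hj; omega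
  · intro j hj; simp only [mem_Ico] at hj; omega
  · intro j hj
    simp only [mem_Ico] at hj
    rw [← hneg (j • g)]
    congr 1
    refine neg_eq_of_add_eq_zero_right ?_
    rw [← add_nsmul, Nat.add_sub_cancel' (by omega), ← hord, addOrderOf_nsmul_eq_zero]

end FLTAgent.Mazur
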