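/-
An integral model of the quotient by a stable line, with Vélu's `c₄`.
-/
import Fermat.Agent.Isogeny.Quotient
import Fermat.Agent.Mazur.VeluSum
import Fermat.Agent.Mazur.ValueSize
import Fermat.Agent.Reduction.VariableChange
import Fermat.Agent.Reduction.LocalTorsion
import Fermat.Agent.Char.IntegralPlace

set_option autoImplicit false

noncomputable section

open scoped WeierstrassCurve.Affine
open WeierstrassCurve
open WeierstrassCurve.Affine (Point)

namespace FLTAgent.Mazur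

open FLTAgent.Isogeny (ptX ptPsi veluV veluT veluW velu evX evY)
open FLTAgent.Reduction (WQbar integralAt vcEquiv vcX vcY)

local notation "Qbar" => AlgebraicClosure ℚ

/-- The scaling by `D`. -/
def scaleVC (D : Qbar) (hD : D ≠ 0) : VariableChange Qbar := ⟨(Units.mk0 D hD)⁻¹, 0, 0, 0⟩

theorem scaleVC_smul (D : Qbar) (hD : D ≠ 0) (V : WeierstrassCurve Qbar) :
    scaleVC D hD • V = ⟨D * V.a₁, D ^ 2 * V.a₂, D ^ 3 * V.a₃, D ^ 4 * V.a₄, D ^ 6 * V.a₆⟩ := by
  ext <;> simp [scaleVC, variableChange_a₁, variableChange_a₂, variableChange_a₃,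
    variableChange_a₄, variableChange_a₆]

theorem eq_prime_pow_den {p : ℕ} {r : ℚ}
    (h : ∀ l : ℕ, l.Prime → l ≠ p → ∀ A : ValuationSubring Qbar, A.LiesOverPrime l →
      (r : Qbar) ∈ A) : ∃ k : ℕ, r.den = p ^ k := by
  refine ⟨_, Nat.eq_prime_pow_of_unique_prime_dvd r.den_ne_zero fun {d} hd hdr => ?_⟩
  by_contra hne
  obtain ⟨A, hA⟩ := GalChar.exists_valuationSubring_liesOverPrime hd
  have hnum : ¬ (d : ℤ) ∣ r.num := fun hn' =>
    hd.ne_one (Nat.dvd_one.mp (r.reduced.gcd_eq_one ▸ Nat.dvd_gcd (Int.natCast_dvd.mp hn') hdr))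
  refine absurd (Reduction.v_le_one (h d hd hne A hA)) (not_le.mpr ?_)
  rw [Rat.cast_def, map_div₀, Reduction.v_intCast_eq_one hA hd hnum, one_div]
  have h0 : 0 < A.valuation ((r.den : ℤ) : Qbar) :=
    lt_of_le_of_ne zero_le ((map_ne_zero _).mpr (by exact_mod_cast r.den_ne_zero)).symm
  rw [Int.cast_natCast] at h0
  exact (one_lt_inv₀ h0).mpr (by
    simpa using (Reduction.v_intCast_lt_one_iff hA hd _).mpr (Int.natCast_dvd_natCast.mpr hdr))

theorem exists_scaled_int {p e n : ℕ} {r : ℚ} (h : r.den ∣ p ^ e) (hn : n ≠ 0) :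
    ∃ z : ℤ, (z : Qbar) = ((p : Qbar) ^ e) ^ n * (r : Qbar) := by
  obtain ⟨c, hc⟩ := h.trans (dvd_pow_self _ hn)
  refine ⟨r.num * c, ?_⟩
  have e1 : ((p : Qbar) ^ e) ^ n = (r.den : Qbar) * (c : Qbar) := by exact_mod_cast congrArg (Nat.cast (R := Qbar)) hc
  have hd : (r.den : Qbar) ≠ 0 := by exact_mod_cast r.den_ne_zero
  rw [e1, Rat.cast_def]
  push_cast
  field_simp

variable {W : WeierstrassCurve ℤ}

theorem veluV_neg {V : WeierstrassCurve.Affine Qbar} (P : V.Point) : veluV (-P) = veluV P := by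
  cases P <;> rfl

theorem ptPsi_sq_neg {V : WeierstrassCurve.Affine Qbar} (P : V.Point) :
    ptPsi (-P) ^ 2 = ptPsi P ^ 2 := by
  cases P with
  | zero => rfl
  | some x y h =>
    rw [Point.neg_some]
    simp only [ptPsi, Affine.negY]
    ring

/-- Away from the residue characteristic the coordinates of torsion are integral. -/
theorem velu_terms_mem {A : ValuationSubring Qbar} {p : ℕ}
    (hp : (p : IsLocalRing.ResidueField A) ≠ 0) {P : (WQbar W).toAffine.Point} (hP : p • P = 0) :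
    ptX P ∈ A ∧ veluV P ∈ A ∧ ptPsi P ^ 2 ∈ A := by
  rcases P with _ | ⟨x, y, h⟩
  · exact ⟨zero_mem A, zero_mem A, by simp [ptPsi]⟩
  have hW := integralAt W A
  have hx : x ∈ A := xCoord_mem_of_nsmul hW hp hP (Point.some_ne_zero h)
  have hy : y ∈ A := Reduction.y_mem_of_x_mem hW h.1 hx
  have := hW.a₁; have := hW.a₂; have := hW.a₃; have := hW.a₄
  have hn := fun n : ℕ => natCast_mem A n
  have : (6 : Qbar) ∈ A := by exact_mod_cast hn 6
  have : (4 : Qbar) ∈ A := by exact_mod_cast hn 4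
  have : (2 : Qbar) ∈ A := by exact_mod_cast hn 2
  refine ⟨hx, ?_, ?_⟩ <;> simp only [veluV, ptPsi]
  · repeat' first | assumption | apply pow_mem | apply add_mem | apply mul_mem
  · repeat' first | assumption | apply pow_mem | apply add_mem | apply mul_mem

theorem velu_parts_mem {M : AddSubgroup (WQbar W).toAffine.Point} [Fintype M] {p : ℕ}
    (hp : p.Prime) (hp2 : p ≠ 2) (hM : Nat.card M = p) {l : ℕ} (hl : l.Prime) (hlp : l ≠ p)
    {A : ValuationSubring Qbar} (hA : A.LiesOverPrime l) : veluT M ∈ A ∧ veluW M ∈ A := by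
  obtain ⟨g, -, hord, hMg⟩ := exists_gen_of_prime_card hp hM
  obtain ⟨m, rfl⟩ := hp.odd_of_ne_two hp2
  have hres : (((2 * m + 1 : ℕ)) : IsLocalRing.ResidueField A) ≠ 0 := fun h =>
    hlp ((Nat.prime_dvd_prime_iff_eq hl hp).mp
      ((Reduction.residue_natCast_eq_zero_iff hA hl _).mp h))
  have half : ∀ f : (WQbar W).toAffine.Point → Qbar, f 0 = 0 → (∀ x, f (-x) = f x) →
      (∀ P, (2 * m + 1) • P = 0 → f P ∈ A) → (∑ T : M, f T) / 2 ∈ A := by
    intro f h0 hneg hmem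
    rw [sum_subgroup_eq_range hord hMg hp.pos, sum_range_eq_two_mul hord f h0 hneg,
      mul_div_cancel_left₀ _ two_ne_zero]
    exact sum_mem fun j _ => hmem _ (by rw [smul_comm, ← hord, addOrderOf_nsmul_eq_zero, smul_zero])
  refine ⟨half veluV rfl veluV_neg fun P hP => (velu_terms_mem hres hP).2.1,
    half (fun P => veluV P * ptX P + ptPsi P ^ 2) ?_ (fun P => ?_) fun P hP => ?_⟩
  · show (0 : Qbar) * 0 + (0 : Qbar) ^ 2 = 0
    ring
  · show veluV (-P) * ptX (-P) + ptPsi (-P) ^ 2 = _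
    rw [veluV_neg, Isogeny.ptX_neg, ptPsi_sq_neg]
  · exact add_mem (mul_mem (velu_terms_mem hres hP).2.1 (velu_terms_mem hres hP).1)
      (velu_terms_mem hres hP).2.2

/-- Quotient by a stable line of odd prime order `p`, with an integral model. -/
theorem exists_veluModel {p : ℕ} (hp : p.Prime) (hp2 : p ≠ 2) (hΔ : W.Δ ≠ 0)
    (M : AddSubgroup (WQbar W).toAffine.Point) [Fintype M] (hM : Nat.card M = p)
    (hst : ∀ (σ : Qbar ≃ₐ[ℚ] Qbar), ∀ P ∈ M, σ • P ∈ M) :
    ∃ (W' : WeierstrassCurve ℤ) (φ : (WQbar W).toAffine.Point →+ (WQbar W').toAffine.Point)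
      (e : ℕ), W'.Δ ≠ 0 ∧ φ.ker = M ∧ Function.Surjective φ ∧
      (∀ (σ : Qbar ≃ₐ[ℚ] Qbar) (P : (WQbar W).toAffine.Point), φ (σ • P) = σ • φ P) ∧
      (W'.c₄ : Qbar) = ((p : Qbar) ^ e) ^ 4 * ((W.c₄ : Qbar) + 240 * veluT M) := by
  classical
  have hQ : Algebra.IsAlgebraic ℚ Qbar := AlgebraicClosure.isAlgebraic ℚ
  have : IsAlgClosure ℚ Qbar := ⟨inferInstance, hQ⟩
  have : Normal ℚ Qbar := IsAlgClosure.normal ℚ Qbar
  have : IsGalois ℚ Qbar := ⟨⟩
  have hWℚ : (W.map (Int.castRingHom ℚ)).IsElliptic := by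
    refine ⟨isUnit_iff_ne_zero.2 ?_⟩
    rw [map_Δ, eq_intCast]; exact Int.cast_ne_zero.2 hΔ
  have : (WQbar W).IsElliptic := Reduction.isElliptic_WQbar hΔ
  obtain ⟨t, ht⟩ := (InfiniteGalois.mem_range_algebraMap_iff_fixed (k := ℚ) (veluT M)).2
    fun σ => Isogeny.map_veluT hst σ
  obtain ⟨w, hw⟩ := (InfiniteGalois.mem_range_algebraMap_iff_fixed (k := ℚ) (veluW M)).2
    fun σ => Isogeny.map_veluW hst σ
  rw [eq_ratCast] at ht hw
  obtain ⟨kt, hkt⟩ := eq_prime_pow_den (p := p) (r := t) fun l hl hlp A hA =>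
    ht ▸ (velu_parts_mem hp hp2 hM hl hlp hA).1
  obtain ⟨kw, hkw⟩ := eq_prime_pow_den (p := p) (r := w) fun l hl hlp A hA =>
    hw ▸ (velu_parts_mem hp hp2 hM hl hlp hA).2
  set e := kt + kw
  obtain ⟨zt4, hzt4⟩ := exists_scaled_int (p := p) (e := e) (n := 4) (r := t)
    (hkt ▸ pow_dvd_pow p (Nat.le_add_right _ _)) (by norm_num)
  obtain ⟨zt6, hzt6⟩ := exists_scaled_int (p := p) (e := e) (n := 6) (r := t)
    (hkt ▸ pow_dvd_pow p (Nat.le_add_right _ _)) (by norm_num)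
  obtain ⟨zw6, hzw6⟩ := exists_scaled_int (p := p) (e := e) (n := 6) (r := w)
    (hkw ▸ pow_dvd_pow p (Nat.le_add_left _ _)) (by norm_num)
  set d : ℤ := (p : ℤ) ^ e with hd
  set D : Qbar := (p : Qbar) ^ e with hD
  have hD0 : D ≠ 0 := pow_ne_zero _ (by exact_mod_cast hp.ne_zero)
  have hdD : (d : Qbar) = D := by rw [hd, hD]; push_cast; rfl
  set W' : WeierstrassCurve ℤ := ⟨d * W.a₁, d ^ 2 * W.a₂, d ^ 3 * W.a₃,
    d ^ 4 * W.a₄ - 5 * zt4, d ^ 6 * W.a₆ - W.b₂ * zt6 - 7 * zw6⟩ with hW'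
  set V := velu M with hV
  have hE : WQbar W' = scaleVC D hD0 • V := by
    rw [scaleVC_smul, hV, Reduction.WQbar_eq]
    ext <;> simp only [velu, map_a₁, map_a₂, map_a₃, map_a₄, map_a₆, hW', eq_intCast] <;>
      simp only [Reduction.WQbar_eq, map_a₁, map_a₂, map_a₃, map_a₄, map_a₆, map_b₂, eq_intCast] <;>
      push_cast <;> (try rw [hdD]) <;> (try rw [hzt4]) <;> (try rw [hzt6, hzw6]) <;>
      (try rw [ht]) <;> (try rw [hw]) <;> ring
  have hell : V.IsElliptic := Isogeny.velu_isElliptic M (hM ▸ hp.odd_of_ne_two hp2)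
  have hmap : ∀ (U : WeierstrassCurve Qbar), U = scaleVC D hD0 • V →
      ∃ φ : (WQbar W).toAffine.Point →+ U.toAffine.Point, φ.ker = M ∧ Function.Surjective φ ∧
        ∀ P ∉ M, ∃ h, φ P = Point.some (D ^ 2 * evX M P) (D ^ 3 * evY M P) h := by
    rintro U rfl
    refine ⟨(vcEquiv (scaleVC D hD0) V).toAddMonoidHom.comp (Isogeny.veluHom M), ?_,
      (vcEquiv (scaleVC D hD0) V).surjective.comp (Isogeny.veluHom_surjective M), fun P hP => ?_⟩
    · ext P
      rw [AddMonoidHom.mem_ker, AddMonoidHom.comp_apply, AddEquiv.coe_toAddMonoidHom,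
        EmbeddingLike.map_eq_zero_iff, ← AddMonoidHom.mem_ker, Isogeny.veluHom_ker]
    · obtain ⟨h, he⟩ := Isogeny.veluHom_of_notMem M hP
      have h' := (Reduction.nonsingular_vc (scaleVC D hD0) V _ _).2 h
      have ex : vcX (scaleVC D hD0) (evX M P) = D ^ 2 * evX M P := by simp [vcX, scaleVC]
      have ey : vcY (scaleVC D hD0) (evX M P) (evY M P) = D ^ 3 * evY M P := by
        simp [vcY, scaleVC]
      rw [ex, ey] at h'
      refine ⟨h', ?_⟩
      rw [AddMonoidHom.comp_apply, he, AddEquiv.coe_toAddMonoidHom, Reduction.vcEquiv_some]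
      simp only [Point.some.injEq]
      exact ⟨ex, ey⟩
  obtain ⟨φ, hker, hsur, hval⟩ := hmap _ hE
  refine ⟨W', φ, e, ?_, hker, hsur, fun σ P => ?_, ?_⟩
  · intro h0
    have h1 : (WQbar W').Δ = 0 := by rw [Reduction.WQbar_Δ, h0, Int.cast_zero]
    rw [hE, variableChange_Δ] at h1
    exact mul_ne_zero (pow_ne_zero _ (Units.ne_zero _)) hell.isUnit.ne_zero h1
  · by_cases hP : P ∈ M
    · rw [AddMonoidHom.mem_ker.1 (hker.symm ▸ hP : P ∈ φ.ker),
        AddMonoidHom.mem_ker.1 (hker.symm ▸ hst σ P hP : σ • P ∈ φ.ker)]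
      exact Reduction.smul_zero'.symm
    · have hσP : σ • P ∉ M := fun h => hP (by simpa using hst σ⁻¹ _ h)
      obtain ⟨h1, e1⟩ := hval P hP
      obtain ⟨h2, e2⟩ := hval _ hσP
      rw [e1, e2, Reduction.smul_some]
      simp only [Point.some.injEq]
      constructor <;>
        simp [hD, Isogeny.map_evX hst σ P, Isogeny.map_evY hst σ P]
  · rw [← Reduction.WQbar_c₄, hE, variableChange_c₄, ← Reduction.WQbar_c₄ W]
    simp only [hV, velu, scaleVC, inv_inv, Units.val_mk0, WeierstrassCurve.c₄,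
      WeierstrassCurve.b₂, WeierstrassCurve.b₄]
    ring

end FLTAgent.Mazur
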