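/-
`c₄` of Vélu's quotient stays a unit at a multiplicative place away from `p`.
-/
import Fermat.Agent.Mazur.NodalSum
import Fermat.Agent.Mazur.VeluModel

set_option autoImplicit false

noncomputable section

open scoped WeierstrassCurve.Affine
open WeierstrassCurve IsLocalRing
open WeierstrassCurve.Affine (Point)

namespace FLTAgent.Mazur

open FLTAgent.Isogeny (ptX ptPsi veluV veluT veluW velu)
open FLTAgent.Reduction (WQbar integralAt redCurve intCurve zeroSubgroup InZero redPt)

local notation "Qbar" => AlgebraicClosure ℚ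

theorem veluV_eq {V : WeierstrassCurve.Affine Qbar} {x y : Qbar} (h : V.Nonsingular x y) :
    veluV (.some x y h) = 6 * x ^ 2 + V.b₂ * x + V.b₄ := rfl

variable {W : WeierstrassCurve ℤ} {A : ValuationSubring Qbar} {l p : ℕ}

/-- A node on the reduced curve at a multiplicative place. -/
theorem exists_nodeAt_redCurve {E : WeierstrassCurve Qbar} (hW : Reduction.IntegralAt A E)
    (hd : A.valuation E.Δ < 1) (hc : A.valuation E.c₄ = 1) :
    ∃ x₀ y₀ α, NodeAt (redCurve hW) x₀ y₀ α := by
  obtain ⟨x₀, y₀, α, hnode⟩ := Reduction.exists_isNode hW hd hc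
  set a₀ : A := ⟨x₀, hnode.x_mem⟩
  set b₀ : A := ⟨y₀, hnode.y_mem⟩
  set s₀ : A := ⟨α, hnode.α_mem⟩
  have hdy : 2 * residue A b₀ + (redCurve hW).a₁ * residue A a₀ + (redCurve hW).a₃ = 0 := by
    have e : 2 * b₀ + (intCurve hW).a₁ * a₀ + (intCurve hW).a₃ = 0 := Subtype.ext hnode.dy
    simpa [redCurve, map_ofNat] using congrArg (residue A) e
  have hdx : 3 * residue A a₀ ^ 2 + 2 * (redCurve hW).a₂ * residue A a₀ + (redCurve hW).a₄ - (redCurve hW).a₁ * residue A b₀ = 0 := by
    have e : 3 * a₀ ^ 2 + 2 * (intCurve hW).a₂ * a₀ + (intCurve hW).a₄ - (intCurve hW).a₁ * b₀ = 0 :=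
      Subtype.ext hnode.dx
    simpa [redCurve, map_ofNat] using congrArg (residue A) e
  have heq : (redCurve hW).toAffine.Equation (residue A a₀) (residue A b₀) := by
    have e : residue A (b₀ ^ 2 + (intCurve hW).a₁ * a₀ * b₀ + (intCurve hW).a₃ * b₀
        - (a₀ ^ 3 + (intCurve hW).a₂ * a₀ ^ 2 + (intCurve hW).a₄ * a₀ + (intCurve hW).a₆)) = 0 :=
      Reduction.residue_eq_zero_iff_v_lt_one.2 hnode.small
    simp only [map_sub, map_add, map_mul, map_pow, sub_eq_zero] at e
    rw [Affine.equation_iff]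
    simpa [redCurve] using e
  exact ⟨residue A a₀, residue A b₀, residue A s₀, by
    refine ⟨heq, hdy, hdx, ?_, ?_⟩
    · have e : s₀ ^ 2 + (intCurve hW).a₁ * s₀ = (intCurve hW).a₂ + 3 * a₀ :=
        Subtype.ext hnode.root
      simpa [redCurve, map_ofNat] using congrArg (residue A) e
    · have e : residue A (2 * s₀ + (intCurve hW).a₁) ≠ 0 :=
        Reduction.residue_ne_zero_iff_v_eq_one.2 hnode.unit
      simpa [redCurve, map_ofNat] using e⟩

theorem valuation_velu_c₄ (hA : A.LiesOverPrime l) (hl : l.Prime) (hp : p.Prime) (hp2 : p ≠ 2)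
    (hlp : l ≠ p) (hΔ : (l : ℤ) ∣ W.Δ) (hc₄ : ¬ (l : ℤ) ∣ W.c₄)
    (M : AddSubgroup (WQbar W).toAffine.Point) [Fintype M] (hM : Nat.card M = p) :
    A.valuation ((W.c₄ : Qbar) + 240 * veluT M) = 1 := by
  classical
  have := Fact.mk hp
  obtain ⟨g, -, hord, hMg⟩ := exists_gen_of_prime_card hp hM
  set hW := integralAt W A with hhW
  have hpk : (p : ResidueField A) ≠ 0 := residue_natCast_prime_ne_zero hA hl hlp
  have hc : A.valuation (WQbar W).c₄ = 1 := by
    rw [Reduction.WQbar_c₄]; exact Reduction.v_intCast_eq_one hA hl hc₄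
  have hd : A.valuation (WQbar W).Δ < 1 := by
    rw [Reduction.WQbar_Δ]; exact (Reduction.v_intCast_lt_one_iff hA hl _).2 hΔ
  -- coordinates of the multiples
  have hne : ∀ j ∈ Finset.Ico 1 p, j • g ≠ 0 := fun j hj e => by
    rw [Finset.mem_Ico] at hj
    have := Nat.le_of_dvd (by omega) (hord ▸ addOrderOf_dvd_of_nsmul_eq_zero e)
    omega
  have htor : ∀ j : ℕ, p • j • g = 0 := fun j => by
    rw [smul_comm, ← hord, addOrderOf_nsmul_eq_zero, smul_zero]
  have hco : ∀ j ∈ Finset.Ico 1 p, ∃ (x y : A) (h : (WQbar W).toAffine.Nonsingular (x : Qbar) y),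
      j • g = Point.some _ _ h := fun j hj => by
    have hm := xCoord_mem_of_nsmul hW hpk (htor j) (hne j hj)
    cases hP : j • g with
    | zero => exact absurd hP (hne j hj)
    | some x y h =>
      rw [hP] at hm
      exact ⟨⟨x, hm⟩, ⟨y, Reduction.y_mem_of_x_mem hW h.1 hm⟩, h, rfl⟩
  choose! X Y hn hg using hco
  obtain ⟨m, hpm⟩ := hp.odd_of_ne_two hp2
  have hsum : 240 * veluT M = 120 * ∑ j ∈ Finset.Ico 1 p,
      (6 * (X j : Qbar) ^ 2 + (WQbar W).b₂ * (X j : Qbar) + (WQbar W).b₄) := by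
    rw [veluT, sum_subgroup_eq_range hord hMg hp.pos, Finset.range_eq_Ico,
      Finset.sum_eq_sum_Ico_succ_bot hp.pos, zero_nsmul]
    simp only [zero_add]
    rw [Finset.sum_congr rfl fun j hj => (congrArg veluV (hg j hj)).trans (veluV_eq (hn j hj))]
    show 240 * ((0 + _) / 2) = _
    ring
  -- the reduced curve
  set V := redCurve hW with hV
  let B : A := (intCurve hW).c₄ + 120 * ∑ j ∈ Finset.Ico 1 p,
      (6 * X j ^ 2 + (intCurve hW).b₂ * X j + (intCurve hW).b₄)
  have hB : (B : Qbar) = (W.c₄ : Qbar) + 240 * veluT M := by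
    rw [hsum, ← Reduction.WQbar_c₄, ← Reduction.intCurve_map hW, map_c₄, map_b₂, map_b₄]
    simp only [B, AddSubmonoidClass.coe_finsetSum, MulMemClass.coe_mul, AddMemClass.coe_add,
      SubmonoidClass.coe_pow, ValuationSubring.subtype_apply]
    rfl
  rw [← hB, ← Reduction.residue_ne_zero_iff_v_eq_one]
  have hres : residue A B = V.c₄ + 120 * ∑ j ∈ Finset.Ico 1 p,
      (6 * residue A (X j) ^ 2 + V.b₂ * residue A (X j) + V.b₄) := by
    simp only [B, map_add, map_mul, map_sum, map_pow, map_ofNat, hV, redCurve, map_c₄, map_b₂,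
      map_b₄]
  rw [hres]
  obtain ⟨x₀, y₀, α, hN⟩ := exists_nodeAt_redCurve hW hd hc
  rw [← hV] at hN
  by_cases h0 : g ∈ zeroSubgroup hW
  · -- the subgroup reduces into the nonsingular locus
    set P := Reduction.redHom hW ⟨g, h0⟩ with hPdef
    have hmul : ∀ j : ℕ, j • P = redPt hW (j • g) := fun j => by
      rw [hPdef, ← map_nsmul, Reduction.redHom_apply]
      rfl
    have hP : P ≠ 0 := fun e => by
      refine not_inOne_of_nsmul hW hpk (by simpa using htor 1) (by simpa using hne 1 (Finset.mem_Ico.2 ⟨le_rfl, hp.one_lt⟩))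
        ((Reduction.redPt_eq_zero_iff hW h0).1 e)
    have hpts : ∀ j ∈ Finset.Ico 1 p,
        ∃ hns, j • P = Point.some (residue A (X j)) (residue A (Y j)) hns := fun j hj => by
      have hmem : j • g ∈ zeroSubgroup hW := AddSubgroup.nsmul_mem _ h0 j
      rw [hg j hj, Reduction.mem_zeroSubgroup_some] at hmem
      obtain ⟨_, _, hns⟩ := hmem.resolve_left fun hx => hx (X j).2
      exact ⟨hns, by rw [hmul, hg j hj]; exact Reduction.redPt_coe hW (hn j hj) hns⟩
    rw [hN.c₄_add_sum hp hpk hP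
      (by rw [hmul, ← hord, addOrderOf_nsmul_eq_zero]; exact Reduction.redPt_zero hW) hpts]
    exact mul_ne_zero (pow_ne_zero _ hpk) (pow_ne_zero _ hN.ne)
  · -- every multiple reduces to the node
    have hsing : ∀ j ∈ Finset.Ico 1 p, residue A (X j) = x₀ := by
      intro j hj
      have hj' := Finset.mem_Ico.1 hj
      have hjz : (j : ZMod p) ≠ 0 := by
        rw [Ne, ZMod.natCast_eq_zero_iff]
        exact fun hd' => absurd (Nat.le_of_dvd (by omega) hd') (by omega)
      have hnot : j • g ∉ zeroSubgroup hW := fun hmem => h0 ((inZero_val_nsmul_iff hord hjz).mp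
        (by rwa [ZMod.val_natCast_of_lt hj'.2]))
      rw [hg j hj, Reduction.mem_zeroSubgroup_some, not_or, not_exists] at hnot
      refine singular_abscissa_unique V (Reduction.equation_red hW (hn j hj).1)
        (fun hns => hnot.2 (X j).2 ⟨(Y j).2, hns⟩) hN.eqn ?_
      rw [Affine.nonsingular_iff']
      rintro ⟨-, h | h⟩
      · exact h (by linear_combination -hN.dx)
      · exact h hN.dy
    have hz : ∀ j ∈ Finset.Ico 1 p,
        6 * residue A (X j) ^ 2 + V.b₂ * residue A (X j) + V.b₄ = 0 := fun j hj => by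
      rw [hsing j hj]
      simp only [WeierstrassCurve.b₂, WeierstrassCurve.b₄]
      linear_combination 2 * hN.dx + V.a₁ * hN.dy
    rw [Finset.sum_congr rfl hz, Finset.sum_const_zero, mul_zero, add_zero]
    rw [hV, Ne, Reduction.redCurve_c₄_eq_zero_iff, hc]
    exact lt_irrefl _

end FLTAgent.Mazur
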