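/-
Local facts about `p`-power torsion of a semistable curve with a cofixed line in `E[p]`.
-/
import Fermat.Agent.Mazur.VeluC4
import Fermat.Agent.Mazur.ResidueCount
import Fermat.Agent.Reduction.AtP
import Fermat.Agent.Char.Semistable
import Fermat.Agent.RT.Cond.InertiaCyclo
import Fermat.Agent.WeilPairing.DetCyclotomic

set_option autoImplicit false

noncomputable section

open scoped WeierstrassCurve.Affine
open WeierstrassCurve IsLocalRing
open WeierstrassCurve.Affine (Point)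

namespace FLTAgent.Mazur

open FLTAgent.Reduction (WQbar integralAt redCurve zeroSubgroup oneSubgroup TorsQ redHom)

local notation "Qbar" => AlgebraicClosure ℚ
local notation "Γℚ" => AlgebraicClosure ℚ ≃ₐ[ℚ] AlgebraicClosure ℚ

variable {p : ℕ} [Fact p.Prime] {W : WeierstrassCurve ℤ}

/-! ## The cyclotomic exponent -/

theorem apply_root_eq_pow_cycloExp (σ : Γℚ) {ζ : Qbar} (hζ : ζ ^ p = 1) :
    σ ζ = ζ ^ ExtCitation.cycloExp p σ := by
  have : NeZero p := ⟨(Fact.out : p.Prime).ne_zero⟩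
  have hu : IsUnit ζ := IsUnit.of_pow_eq_one hζ (NeZero.ne p)
  have ht : hu.unit ∈ rootsOfUnity p Qbar := by
    rw [mem_rootsOfUnity]
    exact Units.ext (by simp [hζ])
  simpa [ExtCitation.cycloExp] using modularCyclotomicCharacter.spec Qbar
    (ExtCitation.card_rootsOfUnity_eq_self p) (σ : Qbar ≃+* Qbar) ht

theorem cycloExp_eq_one_iff (σ : Γℚ) {ζ : Qbar} (hζ : IsPrimitiveRoot ζ p) :
    (ExtCitation.cycloExp p σ : ZMod p) = 1 ↔ σ ζ = ζ := by
  have hp := (Fact.out : p.Prime)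
  rw [apply_root_eq_pow_cycloExp σ hζ.pow_eq_one]
  constructor
  · intro h
    obtain ⟨k, hk⟩ : ∃ k, ExtCitation.cycloExp p σ = p * k + 1 := by
      refine ⟨ExtCitation.cycloExp p σ / p, ?_⟩
      have h' : ExtCitation.cycloExp p σ % p = 1 := by
        rw [← ZMod.val_natCast, h, ZMod.val_one]
      have := Nat.div_add_mod (ExtCitation.cycloExp p σ) p
      omega
    rw [hk, pow_succ, pow_mul, hζ.pow_eq_one, one_pow, one_mul]
  · intro h
    have hu := hζ.isUnit hp.ne_zero
    have h2 : hu.unit ^ ExtCitation.cycloExp p σ = hu.unit ^ 1 := Units.ext (by simpa using h)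
    rw [pow_inj_mod, ← orderOf_units, IsUnit.unit_spec, ← hζ.eq_orderOf] at h2
    simpa using (ZMod.natCast_eq_natCast_iff' _ 1 p).2 h2

theorem cycloExp_eq_one_of_inertia {l : ℕ} (hl : l.Prime) (hlp : l ≠ p)
    {A : ValuationSubring Qbar} (hA : A.LiesOverPrime l) {σ : Γℚ}
    (hσ : σ ∈ A.inertiaSubgroupIn ℚ) : (ExtCitation.cycloExp p σ : ZMod p) = 1 := by
  have : NeZero p := ⟨(Fact.out : p.Prime).ne_zero⟩
  obtain ⟨ζ, hζ⟩ := HasEnoughRootsOfUnity.exists_primitiveRoot Qbar p
  rw [cycloExp_eq_one_iff σ hζ]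
  have h := GalRep.cyclo_spec p σ (n := 1) (t := ζ) (by rw [pow_one]; exact hζ.pow_eq_one)
  have : Fact (1 < p ^ 1) := ⟨by rw [pow_one]; exact (Fact.out : p.Prime).one_lt⟩
  rw [GalRep.cyclo_inertia (p := p) hl hlp hA hσ, Units.val_one, map_one, ZMod.val_one, pow_one] at h
  exact h

theorem exists_inertia_cycloExp_ne_one (hp2 : p ≠ 2) {A : ValuationSubring Qbar}
    (hA : A.LiesOverPrime p) :
    ∃ σ ∈ A.inertiaSubgroupIn ℚ, (ExtCitation.cycloExp p σ : ZMod p) ≠ 1 := by
  obtain ⟨σ, hσ, hu⟩ := RTCond.exists_inertia_cyclo_ne_one hp2 hA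
  refine ⟨σ, hσ, fun h => ?_⟩
  have : NeZero p := ⟨(Fact.out : p.Prime).ne_zero⟩
  obtain ⟨ζ, hζ⟩ := HasEnoughRootsOfUnity.exists_primitiveRoot Qbar p
  have h1 := GalRep.toZModPow_cyclo_eq_one p σ (n := 1) (ζ := ζ) (by rwa [pow_one])
    ((cycloExp_eq_one_iff σ hζ).1 h)
  have hker : (1 - (GalRep.cyclo p σ : ℤ_[p])) ∈ RingHom.ker (PadicInt.toZModPow 1) := by
    rw [RingHom.mem_ker, map_sub, map_one, h1, sub_self]
  rw [PadicInt.ker_toZModPow, pow_one, ← PadicInt.maximalIdeal_eq_span_p] at hker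
  exact hker hu

/-! ## Two characters and the determinant -/

/-- A triangular element has product of diagonal entries the cyclotomic exponent. -/
theorem mul_eq_cycloExp_of_triangular (hΔ : W.Δ ≠ 0) (σ : Γℚ) {g h : TorsQ W p} (hg : g ≠ 0)
    (hh : h ∉ Submodule.span (ZMod p) {g}) {a b : ZMod p} (ha : σ • g = a • g)
    (hb : σ • h - b • h ∈ Submodule.span (ZMod p) {g}) :
    a * b = (ExtCitation.cycloExp p σ : ZMod p) := by
  have := Reduction.isElliptic_rat (W := W) hΔ
  have h2 : Module.finrank (ZMod p) (TorsQ W p) = 2 :=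
    GalChar.finrank_torsion (E := W.map (Int.castRingHom ℚ)) p
  obtain ⟨c, hc⟩ := Submodule.mem_span_singleton.1 hb
  have li : LinearIndependent (ZMod p) ![g, h] := (LinearIndependent.pair_iff' hg).2
    fun k e => hh (Submodule.mem_span_singleton.2 ⟨k, e⟩)
  let bas := basisOfLinearIndependentOfCardEqFinrank li (by rw [h2, Fintype.card_fin])
  have hbas : ⇑bas = ![g, h] := coe_basisOfLinearIndependentOfCardEqFinrank li _
  rw [← ExtCitation.coe_cycloChar,
    ← WeilPairing.det_galoisRepModuleEnd_eq_cycloChar (W.map (Int.castRingHom ℚ)) p σ]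
  set f := Point.galoisRepModuleEnd (S := ℚ) (K := Qbar) (W.map (Int.castRingHom ℚ)) p σ
  have e0 : f (bas 0) = a • bas 0 := by
    rw [hbas]
    exact ha
  have e1 : f (bas 1) = c • bas 0 + b • bas 1 := by
    rw [hbas]
    show σ • h = _
    simpa [eq_sub_iff_add_eq, eq_comm] using hc
  rw [← LinearMap.det_toMatrix bas, Matrix.det_fin_two]
  simp only [LinearMap.toMatrix_apply, e0, e1, map_add, map_smul, Module.Basis.repr_self,
    Finsupp.add_apply, Finsupp.smul_apply, smul_eq_mul]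
  simp

/-! ## A cofixed line -/

/-- A stable line modulo which Galois fixes `E[p]`. -/
structure CofixedLine (W : WeierstrassCurve ℤ) (p : ℕ) [Fact p.Prime] where
  /-- The line. -/
  line : Submodule (ZMod p) (TorsQ W p)
  ne_bot : line ≠ ⊥
  ne_top : line ≠ ⊤
  cofixed : ∀ (σ : Γℚ) (x : TorsQ W p), σ • x - x ∈ line

namespace CofixedLine

variable (N : CofixedLine W p)

theorem stable : Point.IsGaloisStable ℚ N.line := fun σ x hx => by
  simpa using add_mem (N.cofixed σ x) hx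

theorem exists_basis (hΔ : W.Δ ≠ 0) :
    ∃ g h : TorsQ W p, g ≠ 0 ∧ h ∉ N.line ∧ N.line = Submodule.span (ZMod p) {g} := by
  have := Reduction.isElliptic_rat (W := W) hΔ
  have h2 : Module.finrank (ZMod p) (TorsQ W p) = 2 :=
    GalChar.finrank_torsion (E := W.map (Int.castRingHom ℚ)) p
  have : FiniteDimensional (ZMod p) (TorsQ W p) := Module.finite_of_finrank_eq_succ h2
  obtain ⟨g, hg, hg0⟩ := Submodule.exists_mem_ne_zero_of_ne_bot N.ne_bot
  obtain ⟨h, -, hh⟩ := SetLike.exists_of_lt (lt_top_iff_ne_top.2 N.ne_top)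
  refine ⟨g, h, hg0, hh, (Submodule.eq_of_le_of_finrank_le
    (Submodule.span_le.2 (by simpa using hg)) ?_).symm⟩
  rw [finrank_span_singleton hg0]
  have := Submodule.finrank_lt N.ne_top
  omega

theorem smul_eq (hΔ : W.Δ ≠ 0) (σ : Γℚ) {x : TorsQ W p} (hx : x ∈ N.line) :
    σ • x = (ExtCitation.cycloExp p σ : ZMod p) • x := by
  obtain ⟨g, h, hg, hh, hN⟩ := N.exists_basis hΔ
  have hgN : g ∈ N.line := hN ▸ Submodule.mem_span_singleton_self g
  obtain ⟨a, ha⟩ := Submodule.mem_span_singleton.1 (hN ▸ N.stable σ g hgN)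
  have hb : σ • h - (1 : ZMod p) • h ∈ Submodule.span (ZMod p) {g} := by
    rw [one_smul, ← hN]
    exact N.cofixed σ h
  have := mul_eq_cycloExp_of_triangular hΔ σ hg (hN ▸ hh) ha.symm hb
  rw [mul_one] at this
  obtain ⟨k, rfl⟩ := Submodule.mem_span_singleton.1 (hN ▸ hx)
  rw [smul_comm σ k g, ← ha, smul_comm, this]

end CofixedLine

/-! ## At `p` -/

variable {A : ValuationSubring Qbar}

/-- `E₀` and `E₁` have the same `p`-power torsion at a semistable place over `p`: the nodal group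
has no `p`-torsion in characteristic `p`. -/
theorem mem_one_of_mem_zero_ppow (hA : A.LiesOverPrime p)
    (hbad : (p : ℤ) ∣ W.Δ) (hc₄ : ¬ (p : ℤ) ∣ W.c₄) {k : ℕ}
    {R : (WQbar W).toAffine.Point} (hR : p ^ k • R = 0)
    (h0 : R ∈ zeroSubgroup (integralAt W A)) : R ∈ oneSubgroup (integralAt W A) := by
  classical
  have hp := (Fact.out : p.Prime)
  have : CharP (ResidueField A) p := (CharP.charP_iff_prime_eq_zero hp).2
    ((Reduction.residue_natCast_eq_zero_iff hA hp p).2 dvd_rfl)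
  obtain ⟨x₀, y₀, α, hN⟩ := exists_nodeAt_redCurve (integralAt W A)
    (by rw [Reduction.WQbar_Δ]; exact (Reduction.v_intCast_lt_one_iff hA hp _).2 hbad)
    (by rw [Reduction.WQbar_c₄]; exact Reduction.v_intCast_eq_one hA hp hc₄)
  refine (Reduction.redHom_eq_zero_iff _ ⟨R, h0⟩).1 ?_
  set P := redHom (integralAt W A) ⟨R, h0⟩ with hP
  have hpow : ∀ j : ℕ, nodeParam hN (j • P) = nodeParam hN P ^ j := by
    intro j
    induction j with
    | zero => rw [zero_nsmul, pow_zero]; rfl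
    | succ j ih => rw [succ_nsmul, hN.param_add, ih, pow_succ]
  have h1 : nodeParam hN P ^ p ^ k = 1 := by
    rw [← hpow, hP, ← map_nsmul, show p ^ k • (⟨R, h0⟩ : zeroSubgroup _) = 0 from Subtype.ext hR,
      map_zero]
    rfl
  have h2 : (nodeParam hN P - 1) ^ p ^ k = 0 := by
    rw [sub_pow_char_pow, one_pow, h1, sub_self]
  have h3 : nodeParam hN P = 1 :=
    sub_eq_zero.1 ((pow_eq_zero_iff (pow_ne_zero _ hp.ne_zero)).1 h2)
  cases h : P with
  | zero => rfl
  | some x y hns =>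
    rw [h] at h3
    exact absurd h3 (hN.param hns).2.1

/-- Inertia over `p` moves `p`-power torsion inside `E₁`. -/
theorem smul_sub_mem_one_ppow (hss : W.IsSemistableModel) (hΔ : W.Δ ≠ 0)
    (hA : A.LiesOverPrime p) {σ : Γℚ} (hσ : σ ∈ A.inertiaSubgroupIn ℚ)
    {k : ℕ} {R : (WQbar W).toAffine.Point} (hR : p ^ k • R = 0) :
    σ • R - R ∈ oneSubgroup (integralAt W A) := by
  have hp := (Fact.out : p.Prime)
  by_cases hbad : (p : ℤ) ∣ W.Δ
  · refine mem_one_of_mem_zero_ppow hA hbad (hss p hp hbad) (k := k) ?_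
      (Reduction.smul_sub_mem_zeroSubgroup hA hp hΔ hbad (hss p hp hbad) hσ R)
    rw [nsmul_sub, smul_comm, hR, Reduction.smul_zero', sub_zero]
  · refine Reduction.smul_sub_mem_oneSubgroup hσ ?_
    rw [Reduction.zeroSubgroup_eq_top_of_good hA hp hbad]
    trivial

theorem CofixedLine.mem_one_iff (N : CofixedLine W p) (hp2 : p ≠ 2) (hss : W.IsSemistableModel)
    (hΔ : W.Δ ≠ 0) (hA : A.LiesOverPrime p) (x : TorsQ W p) :
    (x : (WQbar W).toAffine.Point) ∈ oneSubgroup (integralAt W A) ↔ x ∈ N.line := by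
  have hp := (Fact.out : p.Prime)
  have := Reduction.isElliptic_rat (W := W) hΔ
  obtain ⟨g, h, hg, hh, hN⟩ := N.exists_basis hΔ
  obtain ⟨σ, hσ, hχ⟩ := exists_inertia_cycloExp_ne_one hp2 hA
  let K : Submodule (ZMod p) (TorsQ W p) :=
    AddSubgroup.toZModSubmodule p
      ((oneSubgroup (integralAt W A)).comap (TorsQ W p).subtype.toAddMonoidHom)
  have hK : ∀ y, y ∈ K ↔ (y : (WQbar W).toAffine.Point) ∈ oneSubgroup (integralAt W A) :=
    fun _ => Iff.rfl
  have hle : N.line ≤ K := by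
    rw [hN, Submodule.span_le, Set.singleton_subset_iff, SetLike.mem_coe]
    have h1 : σ • g - g ∈ K := (hK _).2 <| smul_sub_mem_one_ppow hss hΔ hA hσ (k := 1)
      (by rw [pow_one]; exact Reduction.nsmul_coe_torsionBy g)
    rw [N.smul_eq hΔ σ (hN ▸ Submodule.mem_span_singleton_self g)] at h1
    have h2 : ((ExtCitation.cycloExp p σ : ZMod p) - 1) • g ∈ K := by rwa [sub_smul, one_smul]
    simpa [smul_smul, inv_mul_cancel₀ (sub_ne_zero.2 hχ)] using
      K.smul_mem ((ExtCitation.cycloExp p σ : ZMod p) - 1)⁻¹ h2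
  refine ⟨fun hx => ?_, fun hx => hle hx⟩
  by_contra hxN
  have h2 : Module.finrank (ZMod p) (TorsQ W p) = 2 :=
    GalChar.finrank_torsion (E := W.map (Int.castRingHom ℚ)) p
  have : FiniteDimensional (ZMod p) (TorsQ W p) := Module.finite_of_finrank_eq_succ h2
  have hlt : N.line < K := lt_of_le_of_ne hle fun e => hxN (e ▸ (hK x).2 hx)
  have htop : K = ⊤ := by
    apply Submodule.eq_top_of_finrank_eq
    have h3 := Submodule.finrank_lt_finrank_of_lt hlt
    have h4 : Module.finrank (ZMod p) N.line = 1 := by rw [hN, finrank_span_singleton hg]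
    have h5 := Submodule.finrank_le K
    omega
  have : Finite N.line := GalChar.exists_finite_N N.line h2
  have : (WQbar W).IsElliptic := Reduction.isElliptic_WQbar hΔ
  obtain ⟨P, hP⟩ := GalChar.exists_not_inKer N.line W rfl hp hp2
    (fun hns => Torsion.zsmul_some_eq_zero_iff hns p) N.stable N.ne_bot N.ne_top hA
  have hPK : P ∈ K := htop ▸ Submodule.mem_top
  rw [hK] at hPK
  apply hP
  obtain ⟨Q, hQ⟩ := P
  cases Q with
  | zero => exact Or.inl rfl
  | some a b hns => exact Or.inr hPK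

/-! ## Counting at a good place -/

/-- If a Frobenius element at `q` moves `E[p ^ n]` only inside a subgroup of order `p ^ n` while
`q` is good, then `p ^ n ≤ 2q + 1`. -/
theorem pow_le_of_cofixed (hΔ : W.Δ ≠ 0) {q : ℕ} (hq : q.Prime) (hqp : q ≠ p)
    (hgood : ¬ (q : ℤ) ∣ W.Δ) {n : ℕ} (C : AddSubgroup (WQbar W).toAffine.Point) [Finite C]
    (hC : Nat.card C ≤ p ^ n)
    (hcof : ∀ (σ : Γℚ) (x : (WQbar W).toAffine.Point), p ^ n • x = 0 → σ • x - x ∈ C) :
    p ^ n ≤ 2 * q + 1 := by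
  have hp := (Fact.out : p.Prime)
  have := Reduction.isElliptic_rat (W := W) hΔ
  obtain ⟨A, hA⟩ := GalChar.exists_valuationSubring_liesOverPrime hq
  obtain ⟨σ, hσ⟩ := FLTAgent.Frobenius.exists_isFrobeniusAt hq hA
  set T := (Submodule.torsionBy ℤ (WQbar W).toAffine.Point ((p ^ n : ℕ) : ℤ)).toAddSubgroup with hT
  have mem : ∀ x, x ∈ T ↔ p ^ n • x = 0 := fun x => by
    rw [hT, Submodule.mem_toAddSubgroup, Submodule.mem_torsionBy_iff, natCast_zsmul]
  have hcard : Nat.card T = (p ^ n) ^ 2 :=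
    Torsion.natCard_torsionBy_qbar (W.map (Int.castRingHom ℚ)) (pow_ne_zero _ hp.ne_zero)
  have : Finite T := Nat.finite_of_card_ne_zero (by
    rw [hcard]; exact pow_ne_zero _ (pow_ne_zero _ hp.ne_zero))
  let f : T →+ C :=
    { toFun := fun x => ⟨σ • (x : (WQbar W).toAffine.Point) - x, hcof σ x ((mem _).1 x.2)⟩
      map_zero' := Subtype.ext (by simp)
      map_add' := fun x y => Subtype.ext
        ((congrArg (· - ((x + y : T) : (WQbar W).toAffine.Point)) (smul_add σ _ _)).trans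
          (add_sub_add_comm _ _ _ _)) }
  have hmul : Nat.card f.ker * Nat.card f.range = Nat.card T := by
    rw [← Nat.card_congr (QuotientAddGroup.quotientKerEquivRange f).toEquiv, mul_comm,
      ← AddSubgroup.card_eq_card_quotient_mul_card_addSubgroup]
  have hr : Nat.card f.range ≤ p ^ n :=
    (Nat.card_le_card_of_injective _ f.range.subtype_injective).trans hC
  have hker : p ^ n ≤ Nat.card f.ker := by
    have h : p ^ n * p ^ n ≤ Nat.card f.ker * p ^ n := by
      rw [← sq, ← hcard, ← hmul]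
      exact Nat.mul_le_mul_left _ hr
    exact Nat.le_of_mul_le_mul_right h (pow_pos hp.pos n)
  set H := f.ker.map T.subtype with hH
  have hmem : ∀ P ∈ H, p ^ n • P = 0 ∧ σ • P = P := by
    rintro _ ⟨P, hP, rfl⟩
    exact ⟨(mem _).1 P.2, sub_eq_zero.1 (congrArg Subtype.val (AddMonoidHom.mem_ker.1 hP))⟩
  have hHc : Nat.card H = Nat.card f.ker :=
    Nat.card_congr (f.ker.equivMapOfInjective _ T.subtype_injective).toEquiv.symm
  have : Finite H := Nat.finite_of_card_ne_zero (by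
    rw [hHc]; have := pow_pos hp.pos n; omega)
  refine hker.trans (hHc ▸ natCard_le_of_fixed hA hq hσ (N := p ^ n)
    (fun hd => hqp ((Nat.prime_dvd_prime_iff_eq hq hp).1 (hq.dvd_of_dvd_pow hd))) H
    (fun P _ => ?_) (fun P hP => (hmem P hP).1) (fun P hP => (hmem P hP).2))
  rw [Reduction.zeroSubgroup_eq_top_of_good hA hq hgood]
  trivial

end FLTAgent.Mazur
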