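/-
The chain of cyclic quotients `W → Wₙ` killing a subgroup of order `p ^ n` that is cofixed on
`E[p ^ n]`, and the step from `n` to `n + 1` given a suitable line in `Wₙ[p]`.
-/
import Fermat.Agent.Mazur.ChainLocal
import Fermat.Agent.Mazur.VeluModel

set_option autoImplicit false

noncomputable section

open scoped WeierstrassCurve.Affine
open WeierstrassCurve IsLocalRing
open WeierstrassCurve.Affine (Point)

namespace FLTAgent.Mazur

open FLTAgent.Reduction (WQbar integralAt zeroSubgroup oneSubgroup TorsQ)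

local notation "Qbar" => AlgebraicClosure ℚ
local notation "Γℚ" => AlgebraicClosure ℚ ≃ₐ[ℚ] AlgebraicClosure ℚ

/-- The conclusion of Mazur's third step, as a hypothesis: a rational point of order `p` avoids
`E₀` at every multiplicative place away from `p` once it does so at `2` and `3`. -/
def NotInZeroComponent (p : ℕ) : Prop :=
  ∀ (W : WeierstrassCurve ℤ), W.Δ ≠ 0 → ∀ Q : (WQbar W).toAffine.Point,
    (∀ σ : Γℚ, σ • Q = Q) → addOrderOf Q = p →
    (2 : ℤ) ∣ W.Δ → ¬ (2 : ℤ) ∣ W.c₄ →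
    (∀ A : ValuationSubring Qbar, A.LiesOverPrime 2 → ¬ W.InZeroComponentAt A Q) →
    (3 : ℤ) ∣ W.Δ → ¬ (3 : ℤ) ∣ W.c₄ →
    (∀ A : ValuationSubring Qbar, A.LiesOverPrime 3 → ¬ W.InZeroComponentAt A Q) →
    ∀ l : ℕ, l.Prime → l ≠ p → (l : ℤ) ∣ W.Δ → ¬ (l : ℤ) ∣ W.c₄ →
      ∀ A : ValuationSubring Qbar, A.LiesOverPrime l → ¬ W.InZeroComponentAt A Q

/-- The multiplicative places and the rational point: what is used of `NotInZeroComponent`. -/
structure SemiTwoThree (W : WeierstrassCurve ℤ) : Prop where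
  two : (2 : ℤ) ∣ W.Δ ∧ ¬ (2 : ℤ) ∣ W.c₄
  three : (3 : ℤ) ∣ W.Δ ∧ ¬ (3 : ℤ) ∣ W.c₄

variable {p : ℕ} [Fact p.Prime] {W : WeierstrassCurve ℤ}

theorem not_mem_zero_of_small {V : WeierstrassCurve ℤ} {q : ℕ} (hq : q.Prime) (hqp : 2 * q + 1 < p)
    {Q : (WQbar V).toAffine.Point} (hQ : addOrderOf Q = p) (hfix : ∀ σ : Γℚ, σ • Q = Q)
    {A : ValuationSubring Qbar} (hA : A.LiesOverPrime q) :
    Q ∉ zeroSubgroup (integralAt V A) := fun h => by
  have := prime_le_of_fixed_mem hA hq (Fact.out : p.Prime) (by omega) hQ hfix h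
  omega

theorem dvd_Δ_of_small {V : WeierstrassCurve ℤ} {q : ℕ} (hq : q.Prime) (hqp : 2 * q + 1 < p)
    {Q : (WQbar V).toAffine.Point} (hQ : addOrderOf Q = p) (hfix : ∀ σ : Γℚ, σ • Q = Q) :
    (q : ℤ) ∣ V.Δ := by
  by_contra h
  obtain ⟨A, hA⟩ := GalChar.exists_valuationSubring_liesOverPrime hq
  refine not_mem_zero_of_small hq hqp hQ hfix hA ?_
  rw [Reduction.zeroSubgroup_eq_top_of_good hA hq h]
  trivial

theorem SemiTwoThree.not_inZero {V : WeierstrassCurve ℤ} (hV : SemiTwoThree V) (hΔ : V.Δ ≠ 0)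
    (hmazur : NotInZeroComponent p) (hp : 17 ≤ p) {Q : (WQbar V).toAffine.Point}
    (hQ : addOrderOf Q = p) (hfix : ∀ σ : Γℚ, σ • Q = Q) {l : ℕ} (hl : l.Prime) (hlp : l ≠ p)
    (hlΔ : (l : ℤ) ∣ V.Δ) (hlc : ¬ (l : ℤ) ∣ V.c₄) {A : ValuationSubring Qbar}
    (hA : A.LiesOverPrime l) : Q ∉ zeroSubgroup (integralAt V A) := by
  rw [← Reduction.inZeroComponentAt_iff]
  refine hmazur V hΔ Q hfix hQ hV.two.1 hV.two.2 (fun B hB => ?_) hV.three.1 hV.three.2
    (fun B hB => ?_) l hl hlp hlΔ hlc A hA <;> rw [Reduction.inZeroComponentAt_iff]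
  · exact not_mem_zero_of_small Nat.prime_two (by omega) hQ hfix hB
  · exact not_mem_zero_of_small Nat.prime_three (by omega) hQ hfix hB

/-- Every point of order dividing `p` is a combination of two independent ones. -/
theorem exists_eq_zsmul_add {V : WeierstrassCurve ℤ} (hΔ : V.Δ ≠ 0)
    {M : AddSubgroup (WQbar V).toAffine.Point} (hM : Nat.card M = p)
    {Q : (WQbar V).toAffine.Point} (hpQ : p • Q = 0) (hQM : Q ∉ M)
    {d : (WQbar V).toAffine.Point} (hd : p • d = 0) :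
    ∃ m ∈ M, ∃ k : ℤ, d = m + k • Q := by
  have := Reduction.isElliptic_rat (W := V) hΔ
  have h2 : Module.finrank (ZMod p) (TorsQ V p) = 2 :=
    GalChar.finrank_torsion (E := V.map (Int.castRingHom ℚ)) p
  obtain ⟨g, hgM, hgord, hMg⟩ := exists_gen_of_prime_card (Fact.out : p.Prime) hM
  have mem : ∀ P : (WQbar V).toAffine.Point, p • P = 0 → P ∈ TorsQ V p := fun P hP => by
    rw [Submodule.mem_torsionBy_iff, natCast_zsmul]; exact hP
  let g' : TorsQ V p := ⟨g, mem g (by rw [← hgord]; exact addOrderOf_nsmul_eq_zero g)⟩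
  let Q' : TorsQ V p := ⟨Q, mem Q hpQ⟩
  have hg : g' ≠ 0 := fun e => by
    have e' : g = 0 := congrArg Subtype.val e
    rw [e', addOrderOf_zero] at hgord
    exact (Fact.out : p.Prime).ne_one hgord.symm
  have li : LinearIndependent (ZMod p) ![g', Q'] := (LinearIndependent.pair_iff' hg).2
    fun k e => hQM (by
      obtain ⟨j, rfl⟩ := ZMod.intCast_surjective k
      rw [Int.cast_smul_eq_zsmul] at e
      have e' : j • g = Q := congrArg Subtype.val e
      rw [← e']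
      exact M.zsmul_mem hgM j)
  let bas := basisOfLinearIndependentOfCardEqFinrank li (by rw [h2, Fintype.card_fin])
  have hbas : ⇑bas = ![g', Q'] := coe_basisOfLinearIndependentOfCardEqFinrank li _
  have h := bas.sum_repr ⟨d, mem d hd⟩
  rw [Fin.sum_univ_two, hbas] at h
  obtain ⟨i, hi⟩ := ZMod.intCast_surjective (bas.repr ⟨d, mem d hd⟩ 0)
  obtain ⟨j, hj⟩ := ZMod.intCast_surjective (bas.repr ⟨d, mem d hd⟩ 1)
  rw [← hi, ← hj, Int.cast_smul_eq_zsmul, Int.cast_smul_eq_zsmul] at h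
  exact ⟨i • g, M.zsmul_mem hgM i, j, (congrArg Subtype.val h).symm⟩

/-- The `n`-th quotient. -/
structure Stage (N : CofixedLine W p) (n : ℕ) where
  /-- The quotient curve. -/
  curve : WeierstrassCurve ℤ
  Δ_ne : curve.Δ ≠ 0
  /-- The quotient map. -/
  φ : (WQbar W).toAffine.Point →+ (WQbar curve).toAffine.Point
  surj : Function.Surjective φ
  equiv : ∀ (σ : Γℚ) (P : (WQbar W).toAffine.Point), φ (σ • P) = σ • φ P
  card_ker : Nat.card φ.ker = p ^ n
  ker_tors : ∀ x : TorsQ W p, φ (x : (WQbar W).toAffine.Point) = 0 → x ∈ N.line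
  line_le : n ≠ 0 → ∀ x ∈ N.line, φ (x : (WQbar W).toAffine.Point) = 0
  cofix : ∀ (σ : Γℚ) (x : (WQbar W).toAffine.Point), p ^ n • x = 0 → φ (σ • x - x) = 0
  ker_one : ∀ A : ValuationSubring Qbar, A.LiesOverPrime p →
    φ.ker ≤ oneSubgroup (integralAt W A)
  semi : SemiTwoThree curve
  away : ∀ l : ℕ, l.Prime → l ≠ p →
    (∀ A : ValuationSubring Qbar, A.LiesOverPrime l → ∀ σ ∈ A.inertiaSubgroupIn ℚ,
      ∀ (k : ℕ) (x : (WQbar W).toAffine.Point), p ^ k • x = 0 → φ (σ • x - x) = 0) ∨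
    ((l : ℤ) ∣ curve.Δ ∧ ¬ (l : ℤ) ∣ curve.c₄)

/-- A line of `Wₙ[p]` along which the chain goes on. -/
structure StepLine {N : CofixedLine W p} {n : ℕ} (S : Stage N n) where
  /-- The line. -/
  line : AddSubgroup (WQbar S.curve).toAffine.Point
  card : Nat.card line = p
  stable : ∀ σ : Γℚ, ∀ P ∈ line, σ • P ∈ line
  meet : ∀ x : TorsQ W p, S.φ (x : (WQbar W).toAffine.Point) ∈ line → x ∈ N.line
  line_mem : ∀ x ∈ N.line, S.φ (x : (WQbar W).toAffine.Point) ∈ line
  le_one : ∀ A : ValuationSubring Qbar, A.LiesOverPrime p →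
    ∀ x, S.φ x ∈ line → x ∈ oneSubgroup (integralAt W A)
  one_le : ∀ A : ValuationSubring Qbar, A.LiesOverPrime p →
    ∀ u ∈ oneSubgroup (integralAt W A), p • S.φ u = 0 → S.φ u ∈ line

namespace Stage

variable {N : CofixedLine W p} {n : ℕ} (S : Stage N n)

theorem nsmul_eq_zero {x : (WQbar W).toAffine.Point} (hx : S.φ x = 0) : p ^ n • x = 0 := by
  have h : Nat.card S.φ.ker • (⟨x, hx⟩ : S.φ.ker) = 0 := card_nsmul_eq_zero'
  rw [S.card_ker] at h
  exact congrArg Subtype.val h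

theorem nsmul_succ_eq_zero {x : (WQbar W).toAffine.Point} (hx : p • S.φ x = 0) :
    p ^ (n + 1) • x = 0 := by
  rw [pow_succ, mul_smul]
  exact S.nsmul_eq_zero (by rw [map_nsmul, hx])

/-- The image of a point of `E[p]` outside the line. -/
theorem addOrderOf_image {e : TorsQ W p} (he : e ∉ N.line) :
    addOrderOf (S.φ (e : (WQbar W).toAffine.Point)) = p :=
  addOrderOf_eq_prime (by rw [← map_nsmul, Reduction.nsmul_coe_torsionBy, map_zero])
    fun h => he (S.ker_tors e h)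

theorem smul_image (hn : n ≠ 0) (e : TorsQ W p) (σ : Γℚ) :
    σ • S.φ (e : (WQbar W).toAffine.Point) = S.φ (e : (WQbar W).toAffine.Point) := by
  rw [← S.equiv]
  exact sub_eq_zero.1 ((map_sub S.φ _ _).symm.trans (S.line_le hn _ (N.cofixed σ e)))

end Stage

/-- The cocycle of a point modulo a stable line with trivial quotient. -/
def cocycleSubgroup {V : WeierstrassCurve ℤ} (M : AddSubgroup (WQbar V).toAffine.Point)
    (hst : ∀ σ : Γℚ, ∀ P ∈ M, σ • P ∈ M) (y : (WQbar V).toAffine.Point) : Subgroup Γℚ where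
  carrier := {σ | σ • y - y ∈ M}
  one_mem' := by simp
  mul_mem' {σ τ} hσ hτ := by
    simp only [Set.mem_ofPred_eq] at hσ hτ ⊢
    have h := M.add_mem (hst σ _ hτ) hσ
    rwa [smul_sub, sub_add_sub_cancel, ← mul_smul] at h
  inv_mem' {σ} hσ := by
    simp only [Set.mem_ofPred_eq] at hσ ⊢
    have h := M.neg_mem (hst σ⁻¹ _ hσ)
    rwa [smul_sub, inv_smul_smul, neg_sub] at h

theorem cocycleSubgroup_normal {V : WeierstrassCurve ℤ} (M : AddSubgroup (WQbar V).toAffine.Point)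
    (hst : ∀ σ : Γℚ, ∀ P ∈ M, σ • P ∈ M) (y : (WQbar V).toAffine.Point)
    (hd : ∀ σ τ : Γℚ, σ • (τ • y - y) - (τ • y - y) ∈ M) :
    (cocycleSubgroup M hst y).Normal := by
  constructor
  intro σ hσ g
  show (g * σ * g⁻¹) • y - y ∈ M
  have h1 : σ • (g⁻¹ • y) - g⁻¹ • y ∈ M := by
    have h := M.add_mem (hd σ g⁻¹) (hσ : σ • y - y ∈ M)
    rw [smul_sub] at h
    convert h using 1
    abel
  have h2 := hst g _ h1
  rwa [smul_sub, smul_inv_smul, ← mul_smul, ← mul_smul] at h2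

theorem not_dvd_velu_c₄ {V V' : WeierstrassCurve ℤ} {l : ℕ} (hl : l.Prime) (hlp : l ≠ p)
    (hp2 : p ≠ 2) (hlΔ : (l : ℤ) ∣ V.Δ) (hlc : ¬ (l : ℤ) ∣ V.c₄)
    (M : AddSubgroup (WQbar V).toAffine.Point) [Fintype M] (hM : Nat.card M = p) {e : ℕ}
    (he : (V'.c₄ : Qbar) = ((p : Qbar) ^ e) ^ 4 * ((V.c₄ : Qbar) + 240 * Isogeny.veluT M)) :
    ¬ (l : ℤ) ∣ V'.c₄ := by
  have hp := (Fact.out : p.Prime)
  obtain ⟨A, hA⟩ := GalChar.exists_valuationSubring_liesOverPrime hl
  intro hd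
  have h1 := (Reduction.v_intCast_lt_one_iff hA hl _).2 hd
  have h2 : A.valuation (p : Qbar) = 1 := by
    have := Reduction.v_intCast_eq_one (m := (p : ℤ)) hA hl fun h =>
      hlp ((Nat.prime_dvd_prime_iff_eq hl hp).1 (Int.natCast_dvd_natCast.1 h))
    simpa using this
  rw [he, map_mul, map_pow, map_pow, h2, valuation_velu_c₄ hA hl hp hp2 hlp hlΔ hlc M hM] at h1
  simp at h1

theorem card_comap_of_surjective {G G' : Type*} [AddCommGroup G] [AddCommGroup G'] (f : G →+ G')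
    (hf : Function.Surjective f) (M : AddSubgroup G') :
    Nat.card (M.comap f) = Nat.card M * Nat.card f.ker := by
  let g : M.comap f →+ M :=
    { toFun := fun x => ⟨f x.1, x.2⟩
      map_zero' := Subtype.ext (map_zero f)
      map_add' := fun x y => Subtype.ext (map_add f x.1 y.1) }
  have hg : Function.Surjective g := fun m => by
    obtain ⟨x, hx⟩ := hf m.1
    exact ⟨⟨x, show f x ∈ M from hx ▸ m.2⟩, Subtype.ext hx⟩
  have hk : Nat.card g.ker = Nat.card f.ker := Nat.card_congr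
    { toFun := fun x => ⟨x.1.1, congrArg Subtype.val (AddMonoidHom.mem_ker.1 x.2)⟩
      invFun := fun x => ⟨⟨x.1, show f x.1 ∈ M by rw [AddMonoidHom.mem_ker.1 x.2]; exact M.zero_mem⟩,
        Subtype.ext (AddMonoidHom.mem_ker.1 x.2)⟩
      left_inv := fun _ => rfl
      right_inv := fun _ => rfl }
  rw [AddSubgroup.card_eq_card_quotient_mul_card_addSubgroup g.ker,
    Nat.card_congr (QuotientAddGroup.quotientKerEquivOfSurjective g hg).toEquiv, hk]

/-- The step along a line. -/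
theorem StepLine.exists_next {N : CofixedLine W p} {n : ℕ} {S : Stage N n} (L : StepLine S)
    (hp : 17 ≤ p) (hmazur : NotInZeroComponent p) (hΔ : W.Δ ≠ 0) (hss : W.IsSemistableModel) :
    Nonempty (Stage N (n + 1)) := by
  classical
  have hpp := (Fact.out : p.Prime)
  have hp2 : p ≠ 2 := by omega
  have : Finite L.line := Nat.finite_of_card_ne_zero (by rw [L.card]; exact hpp.ne_zero)
  have : Fintype L.line := Fintype.ofFinite _
  obtain ⟨V, ψ, a, hV, hψker, hψsur, hψeq, hψc⟩ :=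
    exists_veluModel hpp hp2 S.Δ_ne L.line L.card L.stable
  have hmem : ∀ x, ψ (S.φ x) = 0 ↔ S.φ x ∈ L.line := fun x => by
    rw [← AddMonoidHom.mem_ker, hψker]
  obtain ⟨e, -, he⟩ := SetLike.exists_of_lt (lt_top_iff_ne_top.2 N.ne_top)
  set y := S.φ (e : (WQbar W).toAffine.Point) with hy
  have hpy : p • y = 0 := by rw [hy, ← map_nsmul, Reduction.nsmul_coe_torsionBy, map_zero]
  have hyM : y ∉ L.line := fun h => he (L.meet e h)
  have hQord : addOrderOf (ψ y) = p :=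
    addOrderOf_eq_prime (by rw [← map_nsmul, hpy, map_zero]) fun h => hyM ((hmem _).1 h)
  have hQfix : ∀ σ : Γℚ, σ • ψ y = ψ y := fun σ => by
    rw [← hψeq, hy, ← S.equiv]
    refine sub_eq_zero.1 ?_
    rw [← map_sub, ← map_sub, hmem]
    exact L.line_mem _ (N.cofixed σ e)
  have h22 : 2 * 2 + 1 < p := by omega
  have h23 : 2 * 3 + 1 < p := by omega
  have h2p : 2 ≠ p := by omega
  have h3p : 3 ≠ p := by omega
  have hsemi : SemiTwoThree V :=
    ⟨⟨dvd_Δ_of_small Nat.prime_two h22 hQord hQfix,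
      not_dvd_velu_c₄ Nat.prime_two h2p hp2 S.semi.two.1 S.semi.two.2 L.line L.card hψc⟩,
    ⟨dvd_Δ_of_small Nat.prime_three h23 hQord hQfix,
      not_dvd_velu_c₄ Nat.prime_three h3p hp2 S.semi.three.1 S.semi.three.2 L.line L.card
        hψc⟩⟩
  have haway : ∀ l : ℕ, l.Prime → l ≠ p →
      (∀ A : ValuationSubring Qbar, A.LiesOverPrime l → ∀ σ ∈ A.inertiaSubgroupIn ℚ,
        ∀ (k : ℕ) (x : (WQbar W).toAffine.Point), p ^ k • x = 0 →
          ψ (S.φ (σ • x - x)) = 0) ∨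
      ((l : ℤ) ∣ V.Δ ∧ ¬ (l : ℤ) ∣ V.c₄) := by
    intro l hl hlp
    rcases S.away l hl hlp with h | ⟨hlΔ, hlc⟩
    · exact Or.inl fun A hA σ hσ k x hx => by rw [h A hA σ hσ k x hx, map_zero]
    by_cases hb : (l : ℤ) ∣ V.Δ
    · exact Or.inr ⟨hb, not_dvd_velu_c₄ hl hlp hp2 hlΔ hlc L.line L.card hψc⟩
    refine Or.inl fun A hA σ hσ k x hx => ?_
    rw [map_sub, S.equiv, map_sub, hψeq]
    refine sub_eq_zero.2 (Reduction.smul_eq_of_mem_zeroSubgroup hA hl (n := p ^ k)
      (fun hd => hlp ((Nat.prime_dvd_prime_iff_eq hl hpp).1 (hl.dvd_of_dvd_pow hd))) hσ ?_ ?_)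
    · rw [Reduction.zeroSubgroup_eq_top_of_good hA hl hb]
      trivial
    · rw [← map_nsmul, ← map_nsmul, hx, map_zero, map_zero]
  have hquot : ∀ (σ : Γℚ) (z : (WQbar S.curve).toAffine.Point), p • z = 0 →
      σ • z - z ∈ L.line := fun σ z hz => by
    obtain ⟨m, hm, k, rfl⟩ := exists_eq_zsmul_add S.Δ_ne L.card hpy hyM hz
    have h1 : σ • y - y ∈ L.line := by
      rw [hy, ← S.equiv, ← map_sub]
      exact L.line_mem _ (N.cofixed σ e)
    rw [show σ • (m + k • y) = σ • m + σ • (k • y) from smul_add σ m (k • y),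
      Point.algEquiv_smul_zsmul, add_sub_add_comm, ← zsmul_sub]
    exact add_mem (sub_mem (L.stable σ m hm) hm) (zsmul_mem h1 k)
  have hcofix : ∀ (σ : Γℚ) (x : (WQbar W).toAffine.Point), p ^ (n + 1) • x = 0 →
      ψ (S.φ (σ • x - x)) = 0 := by
    intro σ x hx
    have hd : ∀ τ : Γℚ, p • (τ • S.φ x - S.φ x) = 0 := fun τ => by
      have h := S.cofix τ (p • x) (by rwa [← mul_smul, ← pow_succ])
      rw [← S.equiv, ← map_sub, ← map_nsmul, nsmul_sub, smul_comm p τ x]
      exact h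
    rw [hmem, map_sub, S.equiv]
    suffices hH : cocycleSubgroup L.line L.stable (S.φ x) = ⊤ from
      (hH ▸ Subgroup.mem_top σ : σ ∈ cocycleSubgroup L.line L.stable (S.φ x))
    have : (cocycleSubgroup L.line L.stable (S.φ x)).Normal :=
      cocycleSubgroup_normal _ _ _ fun σ τ => hquot σ _ (hd τ)
    obtain ⟨K, hK, hfix⟩ :=
      GalChar.exists_field_fixing_point (E := W.map (Int.castRingHom ℚ)) x
    refine GalChar.eq_top_of_inertia_le _ K (fun τ hτ => ?_) fun l hl A hA τ hτ => ?_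
    · show τ • S.φ x - S.φ x ∈ L.line
      rw [← S.equiv, hfix τ hτ, sub_self]
      exact L.line.zero_mem
    show τ • S.φ x - S.φ x ∈ L.line
    rcases eq_or_ne l p with rfl | hlp
    · have h1 := L.one_le A hA _ (smul_sub_mem_one_ppow hss hΔ hA hτ hx)
      rw [map_sub, S.equiv] at h1
      exact h1 (hd τ)
    rw [← S.equiv, ← map_sub, ← hmem]
    rcases haway l hl hlp with h | ⟨hlΔ, hlc⟩
    · exact h A hA τ hτ _ x hx
    rw [map_sub, map_sub, S.equiv, hψeq]
    have h0 := Reduction.smul_sub_mem_zeroSubgroup hA hl hV hlΔ hlc hτ (ψ (S.φ x))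
    obtain ⟨m, hm, k, hk⟩ := exists_eq_zsmul_add S.Δ_ne L.card hpy hyM (hd τ)
    have hval : τ • ψ (S.φ x) - ψ (S.φ x) = k • ψ y := by
      rw [← hψeq, ← map_sub, hk, map_add, map_zsmul,
        show ψ m = 0 by rw [← AddMonoidHom.mem_ker, hψker]; exact hm, zero_add]
    rw [hval] at h0 ⊢
    have hz := hsemi.not_inZero hV hmazur hp hQord hQfix hl hlp hlΔ hlc hA
    by_contra hne
    have hkp : ¬ (p : ℤ) ∣ k := fun hdvd => hne (addOrderOf_dvd_iff_zsmul_eq_zero.1 (by rwa [hQord]))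
    obtain ⟨u, v, huv⟩ := (Nat.prime_iff_prime_int.1 hpp).coprime_iff_not_dvd.2 hkp
    refine hz ?_
    have : ψ y = v • (k • ψ y) := by
      conv_lhs => rw [← one_zsmul (ψ y), ← huv]
      rw [add_zsmul, mul_zsmul, mul_zsmul, natCast_zsmul,
        show p • ψ y = 0 by rw [← map_nsmul, hpy, map_zero], zsmul_zero, zero_add]
    rw [this]
    exact zsmul_mem h0 v
  have hker : (ψ.comp S.φ).ker = L.line.comap S.φ := by
    ext x
    exact hmem x
  exact ⟨{
    curve := V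
    Δ_ne := hV
    φ := ψ.comp S.φ
    surj := hψsur.comp S.surj
    equiv := fun σ P => by
      rw [AddMonoidHom.comp_apply, AddMonoidHom.comp_apply, S.equiv, hψeq]
    card_ker := by
      rw [hker, card_comap_of_surjective _ S.surj, L.card, S.card_ker, pow_succ, mul_comm]
    ker_tors := fun x hx => L.meet x ((hmem _).1 hx)
    line_le := fun _ x hx => (hmem _).2 (L.line_mem x hx)
    cofix := hcofix
    ker_one := fun A hA x hx => L.le_one A hA x ((hmem x).1 hx)
    semi := hsemi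
    away := haway }⟩

end FLTAgent.Mazur
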