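/-
The lines along which the chain of quotients goes on: the cofixed line at the start, afterwards the
complement of the rational point given by the vanishing of admissible extensions.
-/
import Fermat.Agent.Mazur.Chain
import Fermat.Prelude.Def_ExtCitation_AdmissibleExtension_v2

set_option autoImplicit false

noncomputable section

open scoped WeierstrassCurve.Affine
open WeierstrassCurve IsLocalRing
open WeierstrassCurve.Affine (Point)

namespace FLTAgent.Mazur

open FLTAgent.Reduction (WQbar integralAt zeroSubgroup oneSubgroup TorsQ)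

local notation "Qbar" => AlgebraicClosure ℚ
local notation "Γℚ" => AlgebraicClosure ℚ ≃ₐ[ℚ] AlgebraicClosure ℚ

variable {p : ℕ} [Fact p.Prime] {W : WeierstrassCurve ℤ}

namespace CofixedLine

variable (N : CofixedLine W p)

/-- The line as a group of points. -/
def points : AddSubgroup (WQbar W).toAffine.Point :=
  N.line.toAddSubgroup.map (TorsQ W p).subtype.toAddMonoidHom

theorem mem_points {P : (WQbar W).toAffine.Point} :
    P ∈ N.points ↔ ∃ x ∈ N.line, (x : (WQbar W).toAffine.Point) = P := Iff.rfl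

theorem coe_mem_points_iff (x : TorsQ W p) :
    (x : (WQbar W).toAffine.Point) ∈ N.points ↔ x ∈ N.line :=
  ⟨fun ⟨_, hy, e⟩ => Subtype.ext e ▸ hy, fun h => ⟨x, h, rfl⟩⟩

theorem card_points (hΔ : W.Δ ≠ 0) : Nat.card N.points = p := by
  obtain ⟨g, h, hg, hh, hN⟩ := N.exists_basis hΔ
  have := Reduction.isElliptic_rat (W := W) hΔ
  have h2 : Module.finrank (ZMod p) (TorsQ W p) = 2 :=
    GalChar.finrank_torsion (E := W.map (Int.castRingHom ℚ)) p
  have : FiniteDimensional (ZMod p) (TorsQ W p) := Module.finite_of_finrank_eq_succ h2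
  rw [points, ← Nat.card_congr ((N.line.toAddSubgroup.equivMapOfInjective _
    (TorsQ W p).subtype_injective).toEquiv)]
  show Nat.card N.line = p
  rw [Module.natCard_eq_pow_finrank (K := ZMod p), hN, finrank_span_singleton hg, pow_one,
    Nat.card_zmod]

theorem smul_sub_mem_points (σ : Γℚ) {x : (WQbar W).toAffine.Point} (hx : p • x = 0) :
    σ • x - x ∈ N.points :=
  ⟨_, N.cofixed σ ⟨x, by rw [Submodule.mem_torsionBy_iff, natCast_zsmul]; exact hx⟩, rfl⟩

include N in
/-- The chain starts: `2` and `3` are bad, by counting fixed points. -/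
theorem semiTwoThree (hp : 17 ≤ p) (hΔ : W.Δ ≠ 0) (hss : W.IsSemistableModel) :
    SemiTwoThree W := by
  have : Finite N.points := Nat.finite_of_card_ne_zero (by
    rw [N.card_points hΔ]; exact (Fact.out : p.Prime).ne_zero)
  have key : ∀ q : ℕ, q.Prime → 2 * q + 1 < p → (q : ℤ) ∣ W.Δ ∧ ¬ (q : ℤ) ∣ W.c₄ := by
    intro q hq hqp
    have hd : (q : ℤ) ∣ W.Δ := by
      by_contra h
      have := pow_le_of_cofixed (p := p) (n := 1) hΔ hq (by omega) h N.points
        (by rw [N.card_points hΔ, pow_one])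
        fun σ x hx => N.smul_sub_mem_points σ (by rwa [pow_one] at hx)
      rw [pow_one] at this
      omega
    exact ⟨hd, hss q hq hd⟩
  exact ⟨key 2 Nat.prime_two (by omega), key 3 Nat.prime_three (by omega)⟩

/-- The zeroth stage. -/
theorem exists_stage_zero (hp : 17 ≤ p) (hΔ : W.Δ ≠ 0) (hss : W.IsSemistableModel) :
    Nonempty (Stage N 0) :=
  ⟨{ curve := W
     Δ_ne := hΔ
     φ := AddMonoidHom.id _
     surj := Function.surjective_id
     equiv := fun _ _ => rfl
     card_ker := by
       rw [show (AddMonoidHom.id (WQbar W).toAffine.Point).ker = ⊥ from rfl, AddSubgroup.card_bot,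
         pow_zero]
     ker_tors := fun x hx => (Subtype.ext hx : x = 0) ▸ N.line.zero_mem
     line_le := fun h => absurd rfl h
     cofix := fun σ x hx => by
       rw [pow_zero, one_smul] at hx
       simp [hx, Reduction.smul_zero']
     ker_one := fun A _ x hx => by
       rw [show x = 0 from hx]
       exact zero_mem _
     semi := N.semiTwoThree hp hΔ hss
     away := fun l hl hlp => by
       by_cases hb : (l : ℤ) ∣ W.Δ
       · exact Or.inr ⟨hb, hss l hl hb⟩
       refine Or.inl fun A hA σ hσ k x hx => sub_eq_zero.2 ?_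
       refine Reduction.smul_eq_of_mem_zeroSubgroup hA hl (n := p ^ k) (fun hd => hlp
         ((Nat.prime_dvd_prime_iff_eq hl Fact.out).1 (hl.dvd_of_dvd_pow hd))) hσ ?_ hx
       rw [Reduction.zeroSubgroup_eq_top_of_good hA hl hb]
       trivial }⟩

theorem exists_stepLine_zero (hp : 17 ≤ p) (hΔ : W.Δ ≠ 0) (hss : W.IsSemistableModel)
    (S : Stage N 0) : Nonempty (StepLine S) := by
  have hp2 : p ≠ 2 := by omega
  have hinj : Function.Injective S.φ := (injective_iff_map_eq_zero _).2 fun x hx => by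
    simpa using S.nsmul_eq_zero hx
  exact ⟨{
    line := N.points.map S.φ
    card := by
      rw [← Nat.card_congr (N.points.equivMapOfInjective _ hinj).toEquiv, N.card_points hΔ]
    stable := by
      rintro σ _ ⟨_, ⟨x, hx, rfl⟩, rfl⟩
      exact ⟨_, ⟨σ • x, N.stable σ x hx, rfl⟩, S.equiv σ _⟩
    meet := fun x ⟨y, hy, e⟩ => (N.coe_mem_points_iff x).1 (hinj e ▸ hy)
    line_mem := fun x hx => ⟨_, (N.coe_mem_points_iff x).2 hx, rfl⟩
    le_one := fun A hA x hx => by
      obtain ⟨y, ⟨z, hz, rfl⟩, e⟩ := hx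
      rw [← hinj e]
      exact (N.mem_one_iff hp2 hss hΔ hA z).2 hz
    one_le := fun A hA u hu h => by
      have hpu : p • u = 0 := hinj (by rw [map_nsmul, h, map_zero])
      let z : TorsQ W p := ⟨u, by rw [Submodule.mem_torsionBy_iff, natCast_zsmul]; exact hpu⟩
      exact ⟨_, (N.coe_mem_points_iff z).2 ((N.mem_one_iff hp2 hss hΔ hA z).1 hu), rfl⟩ }⟩

end CofixedLine

/-- With a fixed point `Q`, Galois acts on the quotient by its line through the cyclotomic
exponent. -/
theorem smul_sub_cycloExp_mem {V : WeierstrassCurve ℤ} (hΔ : V.Δ ≠ 0) {Q : TorsQ V p}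
    (hQ : Q ≠ 0) (hfix : ∀ σ : Γℚ, σ • Q = Q) (σ : Γℚ) (v : TorsQ V p) :
    σ • v - (ExtCitation.cycloExp p σ : ZMod p) • v ∈ Submodule.span (ZMod p) {Q} := by
  have := Reduction.isElliptic_rat (W := V) hΔ
  have h2 : Module.finrank (ZMod p) (TorsQ V p) = 2 :=
    GalChar.finrank_torsion (E := V.map (Int.castRingHom ℚ)) p
  have : FiniteDimensional (ZMod p) (TorsQ V p) := Module.finite_of_finrank_eq_succ h2
  set C := Submodule.span (ZMod p) {Q}
  by_cases hv : v ∈ C
  · obtain ⟨c, rfl⟩ := Submodule.mem_span_singleton.1 hv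
    rw [smul_comm σ c Q, hfix]
    exact sub_mem hv (C.smul_mem _ hv)
  have li : LinearIndependent (ZMod p) ![Q, v] := (LinearIndependent.pair_iff' hQ).2
    fun k e => hv (Submodule.mem_span_singleton.2 ⟨k, e⟩)
  have hspan := li.span_eq_top_of_card_eq_finrank (by rw [h2, Fintype.card_fin])
  have hmem : σ • v ∈ Submodule.span (ZMod p) (Set.range ![Q, v]) := hspan ▸ Submodule.mem_top
  rw [Matrix.range_cons_cons_empty, Submodule.mem_span_pair] at hmem
  obtain ⟨c, b, hcb⟩ := hmem
  have hmem' : σ • v - b • v ∈ C := by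
    rw [← hcb, add_sub_cancel_right]
    exact Submodule.smul_mem _ _ (Submodule.mem_span_singleton_self Q)
  have hb := mul_eq_cycloExp_of_triangular hΔ σ hQ hv (a := 1) (by rw [one_smul, hfix]) hmem'
  rw [one_mul] at hb
  rwa [← hb]

/-- The step line at a positive stage. -/
theorem Stage.exists_stepLine {N : CofixedLine W p} {n : ℕ} (S : Stage N n) (hn : n ≠ 0)
    (hp : 17 ≤ p) (hΔ : W.Δ ≠ 0) (hss : W.IsSemistableModel) (hmazur : NotInZeroComponent p)
    (hext : ExtCitation.ExtVanishingCts p) : Nonempty (StepLine S) := by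
  classical
  have hpp := (Fact.out : p.Prime)
  have hp2 : p ≠ 2 := by omega
  obtain ⟨e, -, he⟩ := SetLike.exists_of_lt (lt_top_iff_ne_top.2 N.ne_top)
  set y := S.φ (e : (WQbar W).toAffine.Point) with hy
  have hord : addOrderOf y = p := S.addOrderOf_image he
  have hfix : ∀ σ : Γℚ, σ • y = y := S.smul_image hn e
  have hpy : p • y = 0 := by
    have h := addOrderOf_nsmul_eq_zero y
    rwa [hord] at h
  have := Reduction.isElliptic_rat (W := S.curve) S.Δ_ne
  have h2 : Module.finrank (ZMod p) (TorsQ S.curve p) = 2 :=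
    GalChar.finrank_torsion (E := S.curve.map (Int.castRingHom ℚ)) p
  have : FiniteDimensional (ZMod p) (TorsQ S.curve p) := Module.finite_of_finrank_eq_succ h2
  let Q : TorsQ S.curve p :=
    ⟨y, by rw [Submodule.mem_torsionBy_iff, natCast_zsmul]; exact hpy⟩
  have hQ : Q ≠ 0 := fun h => by
    have h' : y = 0 := congrArg Subtype.val h
    rw [h', addOrderOf_zero] at hord
    exact hpp.ne_one hord.symm
  have hQfix : ∀ σ : Γℚ, σ • Q = Q := fun σ => Subtype.ext (hfix σ)
  set C := Submodule.span (ZMod p) {Q} with hC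
  have hfixC : ∀ σ : Γℚ, ∀ x ∈ C, σ • x = x := fun σ x hx => by
    obtain ⟨c, rfl⟩ := Submodule.mem_span_singleton.1 hx
    rw [smul_comm, hQfix]
  have hquot : ∀ (σ : Γℚ) (v : TorsQ S.curve p),
      σ • v - (ExtCitation.cycloExp p σ : ZMod p) • v ∈ C :=
    smul_sub_cycloExp_mem S.Δ_ne hQ hQfix
  have hlift : ∀ v : TorsQ S.curve p, ∃ x, S.φ x = v ∧ p ^ (n + 1) • x = 0 := fun v => by
    obtain ⟨x, hx⟩ := S.surj v
    exact ⟨x, hx, S.nsmul_succ_eq_zero (hx ▸ Reduction.nsmul_coe_torsionBy v)⟩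
  -- the local complement at a place over `p`
  let U : ValuationSubring Qbar → Submodule (ZMod p) (TorsQ S.curve p) := fun A =>
    AddSubgroup.toZModSubmodule p
      (((oneSubgroup (integralAt W A)).map S.φ).comap (TorsQ S.curve p).subtype.toAddMonoidHom)
  have hU : ∀ A v, v ∈ U A ↔ ∃ u ∈ oneSubgroup (integralAt W A), S.φ u = v :=
    fun _ _ => Iff.rfl
  have hmoves : ∀ A : ValuationSubring Qbar, A.LiesOverPrime p → ∀ σ ∈ A.inertiaSubgroupIn ℚ,
      ∀ v : TorsQ S.curve p, σ • v - v ∈ U A := fun A hA σ hσ v => by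
    obtain ⟨x, hx, hx0⟩ := hlift v
    refine (hU A _).2 ⟨σ • x - x, smul_sub_mem_one_ppow hss hΔ hA hσ hx0, ?_⟩
    rw [map_sub, S.equiv, hx]
    rfl
  have hdisj : ∀ A : ValuationSubring Qbar, A.LiesOverPrime p → Disjoint C (U A) := fun A hA => by
    rw [Submodule.disjoint_def]
    intro v hv hvU
    obtain ⟨c, rfl⟩ := Submodule.mem_span_singleton.1 hv
    by_contra hne
    have hc : c ≠ 0 := fun h => hne (by rw [h, zero_smul])
    have hQU : Q ∈ U A := by
      simpa [smul_smul, inv_mul_cancel₀ hc] using (U A).smul_mem c⁻¹ hvU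
    obtain ⟨u, hu, hue⟩ := (hU A Q).1 hQU
    have hue' : S.φ u = y := hue
    have h1 : (e : (WQbar W).toAffine.Point) - u ∈ oneSubgroup (integralAt W A) :=
      S.ker_one A hA (by rw [AddMonoidHom.mem_ker, map_sub, hue', hy, sub_self])
    exact he ((N.mem_one_iff hp2 hss hΔ hA e).1 (by simpa using add_mem h1 hu))
  have hcompl : ∀ A : ValuationSubring Qbar, A.LiesOverPrime p → IsCompl C (U A) := fun A hA => by
    refine ⟨hdisj A hA, codisjoint_iff.2 (eq_top_iff.2 fun v _ => ?_)⟩
    obtain ⟨σ, hσ, hχ⟩ := exists_inertia_cycloExp_ne_one hp2 hA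
    have h1 : ((ExtCitation.cycloExp p σ : ZMod p) - 1) • v ∈ C ⊔ U A := by
      rw [sub_smul, one_smul, show (ExtCitation.cycloExp p σ : ZMod p) • v - v =
        -(σ • v - (ExtCitation.cycloExp p σ : ZMod p) • v) + (σ • v - v) by abel]
      exact Submodule.add_mem_sup (neg_mem (hquot σ v)) (hmoves A hA σ hσ v)
    simpa [smul_smul, inv_mul_cancel₀ (sub_ne_zero.2 hχ)] using
      (C ⊔ U A).smul_mem ((ExtCitation.cycloExp p σ : ZMod p) - 1)⁻¹ h1
  have hadm : ExtCitation.IsAdmissibleExtensionCts p (TorsQ S.curve p) C := by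
    refine ⟨⟨fun σ x hx => by rwa [hfixC σ x hx], hfixC, hquot, ?_, ?_, ?_, ?_⟩, ?_⟩
    · rw [Module.natCard_eq_pow_finrank (K := ZMod p), hC, finrank_span_singleton hQ, pow_one,
        Nat.card_zmod]
    · rw [Module.natCard_eq_pow_finrank (K := ZMod p), h2, Nat.card_zmod]
    · intro l hl hlp A hA σ hσ v
      refine sub_eq_zero.1 ?_
      rcases S.away l hl hlp with h | ⟨hlΔ, hlc⟩
      · obtain ⟨x, hx, hx0⟩ := hlift v
        have h1 := h A hA σ hσ _ x hx0
        rw [map_sub, S.equiv, hx] at h1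
        exact Subtype.ext h1
      have h1 := hquot σ v
      rw [cycloExp_eq_one_of_inertia hl hlp hA hσ, one_smul] at h1
      obtain ⟨c, hc⟩ := Submodule.mem_span_singleton.1 h1
      rw [← hc]
      by_contra hne
      have hc0 : c ≠ 0 := fun h => hne (by rw [h, zero_smul])
      have h0 : ((c • Q : TorsQ S.curve p) : (WQbar S.curve).toAffine.Point) ∈
          zeroSubgroup (integralAt S.curve A) := by
        rw [hc]
        exact Reduction.smul_sub_mem_zeroSubgroup hA hl S.Δ_ne hlΔ hlc hσ _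
      let U0 : Submodule (ZMod p) (TorsQ S.curve p) := AddSubgroup.toZModSubmodule p
        ((zeroSubgroup (integralAt S.curve A)).comap (TorsQ S.curve p).subtype.toAddMonoidHom)
      have hQ0 : Q ∈ U0 := by
        simpa [smul_smul, inv_mul_cancel₀ hc0] using U0.smul_mem c⁻¹ (show c • Q ∈ U0 from h0)
      exact S.semi.not_inZero S.Δ_ne hmazur hp hord hfix hl hlp hlΔ hlc hA hQ0
    · intro A hA
      refine ⟨U A, fun σ hσ v hv => ?_, hcompl A hA⟩
      obtain ⟨u, hu, huv⟩ := (hU A v).1 hv
      refine (hU A _).2 ⟨σ • u, Reduction.smul_mem_oneSubgroup hσ hu, ?_⟩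
      rw [S.equiv, huv]
      rfl
    · obtain ⟨L, hL, hLfix⟩ :=
        GalChar.exists_field_fixing_torsion (E := S.curve.map (Int.castRingHom ℚ)) (p := p)
      have h : L.fixingSubgroup ≤ fixingSubgroup Γℚ (Set.univ : Set (TorsQ S.curve p)) :=
        fun σ hσ => (mem_fixingSubgroup_iff Γℚ).2 fun v _ => hLfix σ hσ v
      convert Subgroup.isOpen_mono h L.fixingSubgroup_isOpen using 1
      ext σ
      exact ⟨fun h => (mem_fixingSubgroup_iff Γℚ).2 fun v _ => h v,
        fun h v => (mem_fixingSubgroup_iff Γℚ).1 h v trivial⟩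
  obtain ⟨M, hMst, hMC⟩ := hext (TorsQ S.curve p) C hadm
  have hMU : ∀ A : ValuationSubring Qbar, A.LiesOverPrime p → M = U A := fun A hA => by
    obtain ⟨σ, hσ, hχ⟩ := exists_inertia_cycloExp_ne_one hp2 hA
    have hle : M ≤ U A := fun m hm => by
      have h0 : σ • m - (ExtCitation.cycloExp p σ : ZMod p) • m = 0 :=
        Submodule.disjoint_def.1 hMC.disjoint _ (hquot σ m) (sub_mem (hMst σ m hm) (M.smul_mem _ hm))
      have h1 := hmoves A hA σ hσ m
      rw [sub_eq_zero.1 h0] at h1
      have h1' : ((ExtCitation.cycloExp p σ : ZMod p) - 1) • m ∈ U A := by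
        rwa [sub_smul, one_smul]
      simpa [smul_smul, inv_mul_cancel₀ (sub_ne_zero.2 hχ)] using
        (U A).smul_mem ((ExtCitation.cycloExp p σ : ZMod p) - 1)⁻¹ h1'
    refine le_antisymm hle fun u hu => ?_
    obtain ⟨c, hc, m, hm, rfl⟩ := Submodule.mem_sup.1
      ((hMC.sup_eq_top ▸ Submodule.mem_top : u ∈ C ⊔ M))
    have hc0 : c = 0 := Submodule.disjoint_def.1 (hdisj A hA) c hc
      (by simpa using sub_mem hu (hle hm))
    rwa [hc0, zero_add]
  have hcard : Nat.card M = p := by
    have h := Submodule.finrank_add_eq_of_isCompl hMC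
    rw [h2, hC, finrank_span_singleton hQ] at h
    rw [Module.natCard_eq_pow_finrank (K := ZMod p), show Module.finrank (ZMod p) M = 1 by omega,
      pow_one, Nat.card_zmod]
  let L : AddSubgroup (WQbar S.curve).toAffine.Point :=
    M.toAddSubgroup.map (TorsQ S.curve p).subtype.toAddMonoidHom
  have hL : ∀ v : TorsQ S.curve p, (v : (WQbar S.curve).toAffine.Point) ∈ L ↔ v ∈ M :=
    fun v => ⟨fun ⟨_, hw, e⟩ => Subtype.ext e ▸ hw, fun h => ⟨v, h, rfl⟩⟩
  exact ⟨{
    line := L
    card := by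
      rw [← Nat.card_congr ((M.toAddSubgroup.equivMapOfInjective _
        (TorsQ S.curve p).subtype_injective).toEquiv)]
      exact hcard
    stable := by
      rintro σ _ ⟨v, hv, rfl⟩
      exact (hL _).2 (hMst σ v hv)
    meet := fun x hx => by
      obtain ⟨_, ⟨z, hz, rfl⟩, k, hk⟩ := exists_eq_zsmul_add hΔ (N.card_points hΔ)
        (Reduction.nsmul_coe_torsionBy e) (fun h => he ((N.coe_mem_points_iff e).1 h))
        (Reduction.nsmul_coe_torsionBy x)
      have hxk : (x : (WQbar W).toAffine.Point) = z + k • (e : (WQbar W).toAffine.Point) := hk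
      rw [hxk, map_add, map_zsmul, S.line_le hn z hz, zero_add] at hx
      have h1 : k • Q ∈ M := (hL _).1 hx
      have h2 : k • Q = 0 := Submodule.disjoint_def.1 hMC.disjoint _
        (C.toAddSubgroup.zsmul_mem (Submodule.mem_span_singleton_self Q) k) h1
      have h3 : (p : ℤ) ∣ k := by
        have h4 := addOrderOf_dvd_iff_zsmul_eq_zero.2 (show k • y = 0 from congrArg Subtype.val h2)
        rwa [hord] at h4
      obtain ⟨j, rfl⟩ := h3
      rw [mul_comm, mul_zsmul, natCast_zsmul, Reduction.nsmul_coe_torsionBy, zsmul_zero,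
        add_zero] at hxk
      exact Subtype.ext hxk ▸ hz
    line_mem := fun x hx => by rw [S.line_le hn x hx]; exact L.zero_mem
    le_one := fun A hA x hx => by
      obtain ⟨v, hv, hvx⟩ := hx
      obtain ⟨u, hu, huv⟩ := (hU A v).1 (hMU A hA ▸ hv : v ∈ U A)
      have h : x - u ∈ oneSubgroup (integralAt W A) := S.ker_one A hA (by
        rw [AddMonoidHom.mem_ker, map_sub, huv, ← hvx]
        exact sub_self _)
      simpa using add_mem h hu
    one_le := fun A hA u hu h => by
      let v : TorsQ S.curve p :=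
        ⟨S.φ u, by rw [Submodule.mem_torsionBy_iff, natCast_zsmul]; exact h⟩
      exact (hL v).2 (hMU A hA ▸ (hU A v).2 ⟨u, hu, rfl⟩) }⟩

/-- All stages exist. -/
theorem CofixedLine.exists_stage (N : CofixedLine W p) (hp : 17 ≤ p) (hΔ : W.Δ ≠ 0)
    (hss : W.IsSemistableModel) (hmazur : NotInZeroComponent p)
    (hext : ExtCitation.ExtVanishingCts p) : ∀ n, Nonempty (Stage N n) := by
  intro n
  induction n with
  | zero => exact N.exists_stage_zero hp hΔ hss
  | succ n ih =>
    obtain ⟨S⟩ := ih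
    rcases eq_or_ne n 0 with rfl | hn
    · obtain ⟨L⟩ := N.exists_stepLine_zero hp hΔ hss S
      exact L.exists_next hp hmazur hΔ hss
    · obtain ⟨L⟩ := S.exists_stepLine hn hp hΔ hss hmazur hext
      exact L.exists_next hp hmazur hΔ hss

/-- A semistable curve has no cofixed line in `E[p]` for `p ≥ 17`. -/
theorem CofixedLine.false_of_large (N : CofixedLine W p) (hp : 17 ≤ p) (hΔ : W.Δ ≠ 0)
    (hss : W.IsSemistableModel) (hmazur : NotInZeroComponent p)
    (hext : ExtCitation.ExtVanishingCts p) : False := by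
  have hpp := (Fact.out : p.Prime)
  obtain ⟨q, hq, hqp⟩ := Nat.exists_infinite_primes (W.Δ.natAbs + p + 1) |>.imp fun q h =>
    And.intro h.2 h.1
  obtain ⟨S⟩ := N.exists_stage hp hΔ hss hmazur hext (2 * q + 2)
  have : Finite S.φ.ker := Nat.finite_of_card_ne_zero (by
    rw [S.card_ker]; exact pow_ne_zero _ hpp.ne_zero)
  have hgood : ¬ (q : ℤ) ∣ W.Δ := fun h => by
    have := Nat.le_of_dvd (Int.natAbs_pos.2 hΔ) (Int.natCast_dvd.1 h)
    omega
  have h := pow_le_of_cofixed hΔ hq (by omega) hgood S.φ.ker S.card_ker.le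
    fun σ x hx => S.cofix σ x hx
  have := Nat.lt_pow_self (n := 2 * q + 2) hpp.one_lt
  omega

end FLTAgent.Mazur
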