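/-
No cofixed line in `E[p]` of a Frey curve for `p ≥ 17`, given Mazur's third step.
-/
import Fermat.Agent.Mazur.ChainStep
import Fermat.Agent.S14

set_option autoImplicit false

noncomputable section

open WeierstrassCurve

namespace FLTAgent.Mazur

local notation "Qbar" => AlgebraicClosure ℚ

theorem frey_no_cofixed_of_notInZero (P : FreyPackage) (hp : 17 ≤ P.p)
    (hmazur : NotInZeroComponent P.p) :
    ¬ Affine.Point.HasGaloisStableCofixedLine (K := Qbar) ℚ P.freyCurve P.p := by
  rw [← Frey.freyCurveInt_map P]
  rintro ⟨N, -, hbot, htop, hcof⟩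
  have := Fact.mk P.pp
  exact (CofixedLine.mk N hbot htop hcof).false_of_large hp (Frey.freyCurveInt_Δ_ne_zero P)
    (Frey.freyCurveInt_isSemistableModel P) hmazur (Fermat.Agent.S14.result (by omega))

end FLTAgent.Mazur
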