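/-
Irreducibility of the mod `p` representation of a Frey curve, given Mazur's third step.
-/
import Fermat.Agent.Mazur.ChainFrey
import Fermat.Agent.S10
import Fermat.Agent.S11
import Fermat.Agent.S13

set_option autoImplicit false

noncomputable section

open WeierstrassCurve

namespace FLTAgent.Mazur

local notation "Qbar" => AlgebraicClosure ℚ

theorem frey_irreducible_of_notInZero (P : FreyPackage)
    (hmazur : 17 ≤ P.p → NotInZeroComponent P.p) :
    Affine.Point.GaloisRepIsIrreducible (K := Qbar) ℚ P.freyCurve P.p := by
  by_contra hred
  have h := Fermat.Agent.S13.result P hred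
  rcases lt_or_ge P.p 17 with hlt | hge
  · have h5 := P.hp5
    have hp := P.pp
    have hcases : P.p = 5 ∨ P.p = 7 ∨ P.p = 11 ∨ P.p = 13 := by
      by_contra hne
      push Not at hne
      obtain ⟨p5, p7, p11, p13⟩ := hne
      interval_cases hP : P.p <;> first | omega | (exact absurd hp (by norm_num))
    rcases hcases with e | e | e | e
    · exact Fermat.Agent.S10.result P (Or.inl e) h
    · exact Fermat.Agent.S10.result P (Or.inr (Or.inl e)) h
    · exact Fermat.Agent.S11.result P e h
    · exact Fermat.Agent.S10.result P (Or.inr (Or.inr e)) h
  · exact frey_no_cofixed_of_notInZero P hge (hmazur hge) h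

end FLTAgent.Mazur
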