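/-
Mazur's third step from its geometric inputs on `J₀(p)`.
-/
import Fermat.Agent.Eisen.Assembly
import Fermat.Agent.Mazur.FreyIrreducible
import Fermat.Agent.Eisen.GoodDatum
import Fermat.Agent.GalRep.Specializations
import Fermat.Agent.GoodRed.HeckeKernelAll
import Fermat.Agent.GoodRed.X0Inputs
import Fermat.Agent.MW.Main
import Fermat.Agent.PicTorsion.Divisible

set_option autoImplicit false

noncomputable section

open ModularCurve

namespace FLTAgent.Mazur

open FLTAgent.Reduction (WQbar)

/-- The geometric inputs on `J₀(p)`. -/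
structure StepThreeInputs (p : ℕ) [NeZero p] : Prop where
  unip : ∀ l : ℕ, l.Prime → l ≠ p → l ∣ half p →
    ∃ A₀ : ValuationSubring (AlgebraicClosure ℚ), A₀.LiesOverPrime p ∧ Eisen.UnipRoots p l A₀

theorem reductionInputsAway {p : ℕ} [NeZero p] (hp : p.Prime) : ReductionInputsAway p :=
  fun q hq hqp _ hA => by
    have := Fact.mk hq
    exact GoodRed.reductionInputsModL_x0 hA fun h => hqp ((Nat.prime_dvd_prime_iff_eq hq hp).1 h)

theorem torsionInjectiveAway {p : ℕ} [NeZero p] (hp : p.Prime) : TorsionInjectiveAway p :=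
  fun q hq hqp A hA m z hm hmz hz => by
    have := Fact.mk hq
    exact GoodRed.eq_zero_of_reductionModL_eq_zero hA
      (fun h => hqp ((Nat.prime_dvd_prime_iff_eq hq hp).1 h))
      (reductionInputsAway hp q hq hqp A hA) m hm z hmz hz

theorem divisibleByPrime (p : ℕ) [NeZero p] {l : ℕ} (hl : l.Prime) :
    Eisen.DivisibleByPrime p l := fun x => by
  have := Fact.mk hl
  have : FunctionField.IsFunctionField (AlgebraicClosure ℚ) (modularFunctionFieldBar p) :=
    Hecke.isFunctionField_level (AlgebraicClosure ℚ) p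
  exact PicTorsion.exists_nsmul_eq l x

theorem fixedFG {p : ℕ} [NeZero p] (hp : p.Prime) (hspec : GalRep.SpecializationsExist) :
    Eisen.FixedFG p :=
  (AddGroup.fg_iff_addSubgroup_fg _).1
    (MW.fg_fixed_jZero p hp hspec fun x _ => divisibleByPrime p Nat.prime_two x)

theorem reductionHeckeStable {p : ℕ} [NeZero p] (hp : p.Prime) : Eisen.ReductionHeckeStable p :=
  fun q hq hqp _ hA i z hz =>
    haveI : Fact q.Prime := ⟨hq⟩
    GoodRed.reductionModL_heckeOperatorBar_eq_zero hA
      (fun h => hqp ((Nat.prime_dvd_prime_iff_eq hq hp).1 h)) i.1 hz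

theorem notInZeroComponent_of_inputs {p : ℕ} [NeZero p] [Fact p.Prime]
    (hp' : p ∉ ({2, 3, 5, 7, 13} : Finset ℕ)) (h : StepThreeInputs p) :
    NotInZeroComponent p := by
  have hpp := (Fact.out : p.Prime)
  have hp : 5 ≤ p := by
    have := hpp.two_le
    simp only [Finset.mem_insert, Finset.mem_singleton, not_or] at hp'
    by_contra hlt
    push Not at hlt
    interval_cases p <;> first | omega | exact absurd hpp (by norm_num)
  intro W hΔ Q hfix hord h2Δ h2c h2 h3Δ h3c h3 l hl hlp hlΔ hlc A hA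
  obtain ⟨A₂, hA₂⟩ := GalChar.exists_valuationSubring_liesOverPrime Nat.prime_two
  obtain ⟨A₃, hA₃⟩ := GalChar.exists_valuationSubring_liesOverPrime Nat.prime_three
  exact stepThree hp (reductionInputsAway hpp) (torsionInjectiveAway hpp)
    (Eisen.eisensteinEndExists hp hp' GalRep.specializationsExist
      (reductionHeckeStable hpp) (fixedFG hpp GalRep.specializationsExist)
      (fun l hl hlp _ =>
        haveI : Fact l.Prime := ⟨hl⟩
        Eisen.flatTorsion_of_not_dvd p fun h => hlp ((Nat.prime_dvd_prime_iff_eq hl hpp).1 h))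
      (fun l hl _ => divisibleByPrime p hl) h.unip)
    W hΔ Q hfix hord h2Δ h2c hA₂ (h2 A₂ hA₂) h3Δ h3c hA₃ (h3 A₃ hA₃) hl hlp hlΔ hlc hA

theorem frey_irreducible_of_inputs (P : FreyPackage)
    (h : ∀ p : ℕ, p.Prime → 17 ≤ p → ∀ [NeZero p], StepThreeInputs p) :
    WeierstrassCurve.Affine.Point.GaloisRepIsIrreducible (K := AlgebraicClosure ℚ) ℚ
      P.freyCurve P.p := by
  refine frey_irreducible_of_notInZero P fun hp => ?_
  have := Fact.mk P.pp
  have : NeZero P.p := ⟨P.pp.ne_zero⟩
  exact notInZeroComponent_of_inputs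
    (by simp only [Finset.mem_insert, Finset.mem_singleton, not_or]; omega) (h P.p P.pp hp)

end FLTAgent.Mazur
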