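import Fermat.Agent.Eisen.UnipLevel
import Fermat.Agent.Mazur.StepThreeFinal

/-!
# The input of step three from unipotence at level `36 p`
-/

set_option autoImplicit false

noncomputable section

namespace FLTAgent.Mazur

/-- Unipotence on roots of rational points at any multiple of the level gives the inputs. -/
theorem stepThreeInputs_of_multiple {p : ℕ} [NeZero p] (hp : p.Prime) (M : ℕ) [NeZero M]
    (h : ∀ (A : ValuationSubring (AlgebraicClosure ℚ)), A.LiesOverPrime p →
      ∀ l : ℕ, l.Prime → l ≠ p → Eisen.UnipRoots (M * p) l A) :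
    StepThreeInputs p :=
  ⟨fun l hl hlp _ => by
    obtain ⟨A, hA⟩ := GalChar.exists_valuationSubring_liesOverPrime hp
    exact ⟨A, hA, Eisen.unipRoots_of_dvd hl (Dvd.intro_left M rfl) (divisibleByPrime p hl)
      (h A hA l hl hlp)⟩⟩

end FLTAgent.Mazur
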