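import Fermat.Agent.Mazur.StepThreeMultiple
import Fermat.Agent.Semistable.X0Node
import Fermat.Agent.Semistable.Count

/-!
# The input of step three at every prime `p ≥ 5`

The auxiliary level is `36`, where there are no elliptic points.
-/

set_option autoImplicit false
set_option linter.style.haveILetI false
set_option synthInstance.maxHeartbeats 100000

noncomputable section

open ModularCurve IsLocalRing

namespace FLTAgent.Mazur

theorem nuTwo_thirty_six : nuTwo 36 = 0 :=
  Nat.card_eq_zero.2 (Or.inl ⟨fun x =>
    (show ∀ y : ZMod 36, y ^ 2 + 1 ≠ 0 by decide) x.1 x.2⟩)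

theorem nuThree_thirty_six : nuThree 36 = 0 :=
  Nat.card_eq_zero.2 (Or.inl ⟨fun x =>
    (show ∀ y : ZMod 36, y ^ 2 + y + 1 ≠ 0 by decide) x.1 x.2⟩)

set_option maxHeartbeats 1600000 in
-- the statement mentions several large fields
/-- The inputs of step three hold at every prime `p ≥ 5`. -/
theorem stepThreeInputs {p : ℕ} [NeZero p] (hp : p.Prime) (h5 : 5 ≤ p) : StepThreeInputs p :=
  stepThreeInputs_of_multiple hp 36 fun A hA l hl hlp => by
    haveI : Fact p.Prime := ⟨hp⟩
    have hqM : ¬ p ∣ 36 := fun h => by
      rw [show 36 = 2 ^ 2 * 3 ^ 2 by norm_num] at h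
      rcases hp.dvd_mul.1 h with h | h
      · have := Nat.le_of_dvd (by norm_num) (hp.dvd_of_dvd_pow h); omega
      · have := Nat.le_of_dvd (by norm_num) (hp.dvd_of_dvd_pow h); omega
    haveI : CharP (ResidueField A) p :=
      Semistable.charP_residue (GoodRed.isResidueMap_residue A) hA hp
    haveI := GoodRed.isAlgClosed_residue A
    haveI := GoodRed.isFunctionField_fullC A hA 36 hqM
    obtain ⟨ι, _, X, hfr, hx, hG₁, hG₂⟩ := Semistable.exists_x0CrossData hA hqM
      nuTwo_thirty_six nuThree_thirty_six
      (Semistable.mul_psi_le_card_crossingSet hA hqM nuTwo_thirty_six nuThree_thirty_six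
        (fun h => absurd h (by omega)) (fun h => absurd h (by omega)))
    exact Eisen.unipRoots_of_crossData hfr hx hG₁ hG₂ hl hlp

end FLTAgent.Mazur
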